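/-
S55 / block FORMAL-F2 (sub-architect helper121).  DEFINITIONS of the abstract core.

Everything is for a fixed group `G` and unbundled `G`-modules (`[AddCommGroup N] [DistribMulAction G N]`,
all in `Type`), morphisms are `φ : N →+ N'` with `IsEquivariant G φ` (as in `Coh/Modules.lean`).

* `HFun G`      : an additive functor from `G`-modules to abelian groups (e.g. `N ↦ Hsm 𝓝 N n`).
* `NatT H H'`   : a natural transformation.
* `InC U p N`   : `N` is finite, killed by `p`, and `U` acts trivially.
* `IsSES i π`   : `0 → N₁ → N → N₂ → 0` is exact.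
* `Fp p`        : `ZMod p` with the trivial action of every group.
* `HomG G N M`  : equivariant additive maps, as an additive subgroup of `N →+ M`.
* `dualHom G M p` : the functor `N ↦ Hom(Hom_G(N, M), ZMod p)`.
* `pairT H M t` : the natural transformation `H → dualHom G M p`, `x ↦ (f ↦ t (f_* x))`.
* `sumX`, `constX`, `pushX` : fibre sum, constant functions, push-forward for `IndMod`.
-/
import Fermat.Agent.S55.Coh.Modules

set_option autoImplicit false

namespace Fermat.Agent.S55.F2

/-! ### Equivariance bookkeeping -/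

section equivariant

variable (G : Type) [Group G]
variable {N N' N'' : Type} [AddCommGroup N] [DistribMulAction G N] [AddCommGroup N']
  [DistribMulAction G N'] [AddCommGroup N''] [DistribMulAction G N'']

theorem isEquivariant_id : IsEquivariant G (AddMonoidHom.id N) := fun _ _ => rfl

theorem isEquivariant_zero : IsEquivariant G (0 : N →+ N') := fun g _ => (smul_zero g).symm

variable {G}

theorem IsEquivariant.comp {φ : N →+ N'} {ψ : N' →+ N''} (hψ : IsEquivariant G ψ)
    (hφ : IsEquivariant G φ) : IsEquivariant G (ψ.comp φ) := fun g a => by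
  simp only [AddMonoidHom.comp_apply]
  rw [hφ g a, hψ g (φ a)]

theorem IsEquivariant.add {φ ψ : N →+ N'} (hφ : IsEquivariant G φ) (hψ : IsEquivariant G ψ) :
    IsEquivariant G (φ + ψ) := fun g a => by
  simp only [AddMonoidHom.add_apply]
  rw [hφ g a, hψ g a, smul_add]

theorem IsEquivariant.neg {φ : N →+ N'} (hφ : IsEquivariant G φ) :
    IsEquivariant G (-φ) := fun g a => by
  simp only [AddMonoidHom.neg_apply]
  rw [hφ g a, smul_neg]

theorem IsEquivariant.nsmul {φ : N →+ N'} (hφ : IsEquivariant G φ) (n : ℕ) :
    IsEquivariant G (n • φ) := fun g a => by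
  simp only [AddMonoidHom.nsmul_apply]
  rw [hφ g a]
  exact (smul_comm g n (φ a)).symm

end equivariant

/-! ### Additive functors and natural transformations -/

/-- An additive functor from `G`-modules to abelian groups. -/
structure HFun (G : Type) [Group G] where
  obj : (N : Type) → [AddCommGroup N] → [DistribMulAction G N] → Type
  [grp : (N : Type) → [AddCommGroup N] → [DistribMulAction G N] → AddCommGroup (obj N)]
  map : {N N' : Type} → [AddCommGroup N] → [DistribMulAction G N] → [AddCommGroup N'] →
    [DistribMulAction G N'] → (φ : N →+ N') → IsEquivariant G φ → (obj N →+ obj N')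
  map_id : ∀ (N : Type) [AddCommGroup N] [DistribMulAction G N]
    (h : IsEquivariant G (AddMonoidHom.id N)), map (AddMonoidHom.id N) h = AddMonoidHom.id (obj N)
  map_comp : ∀ {N N' N'' : Type} [AddCommGroup N] [DistribMulAction G N] [AddCommGroup N']
    [DistribMulAction G N'] [AddCommGroup N''] [DistribMulAction G N'']
    (φ : N →+ N') (hφ : IsEquivariant G φ) (ψ : N' →+ N'') (hψ : IsEquivariant G ψ)
    (h : IsEquivariant G (ψ.comp φ)), map (ψ.comp φ) h = (map ψ hψ).comp (map φ hφ)
  map_add : ∀ {N N' : Type} [AddCommGroup N] [DistribMulAction G N] [AddCommGroup N']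
    [DistribMulAction G N'] (φ ψ : N →+ N') (hφ : IsEquivariant G φ) (hψ : IsEquivariant G ψ)
    (h : IsEquivariant G (φ + ψ)), map (φ + ψ) h = map φ hφ + map ψ hψ

attribute [instance] HFun.grp

/-- A natural transformation between additive functors. -/
structure NatT {G : Type} [Group G] (H H' : HFun G) where
  app : (N : Type) → [AddCommGroup N] → [DistribMulAction G N] → (H.obj N →+ H'.obj N)
  nat : ∀ {N N' : Type} [AddCommGroup N] [DistribMulAction G N] [AddCommGroup N']
    [DistribMulAction G N'] (φ : N →+ N') (hφ : IsEquivariant G φ) (x : H.obj N),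
    app N' (H.map φ hφ x) = H'.map φ hφ (app N x)

variable {G : Type} [Group G]

/-! ### The class of modules and exactness -/

/-- `N` is finite, killed by `p`, and `U` acts trivially on it. -/
structure InC (U : Subgroup G) (p : ℕ) (N : Type) [AddCommGroup N] [DistribMulAction G N] :
    Prop where
  finite : Finite N
  ptors : ∀ x : N, p • x = 0
  triv : ∀ u ∈ U, ∀ x : N, u • x = x

/-- `0 → N₁ → N → N₂ → 0` is a short exact sequence of `G`-modules. -/
structure IsSES (G : Type) [Group G] {N₁ N N₂ : Type} [AddCommGroup N₁] [DistribMulAction G N₁]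
    [AddCommGroup N] [DistribMulAction G N] [AddCommGroup N₂] [DistribMulAction G N₂]
    (i : N₁ →+ N) (π : N →+ N₂) : Prop where
  equiv_i : IsEquivariant G i
  equiv_π : IsEquivariant G π
  inj : Function.Injective i
  surj : Function.Surjective π
  exact : ∀ x : N, π x = 0 ↔ ∃ y, i y = x

/-- `H(N₁) → H(N) → H(N₂)` is exact for short exact sequences in the class `InC U p`. -/
def HFun.MiddleExactOn (H : HFun G) (U : Subgroup G) (p : ℕ) : Prop :=
  ∀ (N₁ N N₂ : Type) [AddCommGroup N₁] [DistribMulAction G N₁] [AddCommGroup N]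
    [DistribMulAction G N] [AddCommGroup N₂] [DistribMulAction G N₂]
    (i : N₁ →+ N) (π : N →+ N₂) (h : IsSES G i π),
    InC U p N₁ → InC U p N → InC U p N₂ →
    ∀ y : H.obj N, H.map π h.equiv_π y = 0 → ∃ z : H.obj N₁, H.map i h.equiv_i z = y

/-- `H` preserves surjections in the class `InC U p`. -/
def HFun.PreservesSurjOn (H : HFun G) (U : Subgroup G) (p : ℕ) : Prop :=
  ∀ (N N₂ : Type) [AddCommGroup N] [DistribMulAction G N] [AddCommGroup N₂]
    [DistribMulAction G N₂] (π : N →+ N₂) (hπ : IsEquivariant G π),
    InC U p N → InC U p N₂ → Function.Surjective π → Function.Surjective (H.map π hπ)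

/-- `H₂(N) → H₂(N₂)` is onto as soon as `H₃(N₁) = 0` (end of the long exact sequence). -/
def HFun.SurjOfVanish (H₂ H₃ : HFun G) (U : Subgroup G) (p : ℕ) : Prop :=
  ∀ (N₁ N N₂ : Type) [AddCommGroup N₁] [DistribMulAction G N₁] [AddCommGroup N]
    [DistribMulAction G N] [AddCommGroup N₂] [DistribMulAction G N₂]
    (i : N₁ →+ N) (π : N →+ N₂) (h : IsSES G i π),
    InC U p N₁ → InC U p N → InC U p N₂ →
    Subsingleton (H₃.obj N₁) → Function.Surjective (H₂.map π h.equiv_π)

/-! ### `Fp p` -/

/-- `ZMod p` with the trivial action of every group. -/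
def Fp (p : ℕ) : Type := ZMod p

namespace Fp

variable (p : ℕ)

instance : AddCommGroup (Fp p) := inferInstanceAs (AddCommGroup (ZMod p))

/-- The identity `ZMod p ≃+ Fp p`. -/
def of : ZMod p ≃+ Fp p := AddEquiv.refl _

instance (G : Type) [Group G] : DistribMulAction G (Fp p) where
  smul _ a := a
  one_smul _ := rfl
  mul_smul _ _ _ := rfl
  smul_zero _ := rfl
  smul_add _ _ _ := rfl

@[simp] theorem smul_def (G : Type) [Group G] (g : G) (a : Fp p) : g • a = a := rfl

instance [NeZero p] : Finite (Fp p) := inferInstanceAs (Finite (ZMod p))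

end Fp

/-! ### Equivariant homomorphisms and the dual functor -/

/-- `Hom_G(N, M)` as an additive subgroup of `N →+ M`. -/
def HomG (G : Type) [Group G] (N M : Type) [AddCommGroup N] [DistribMulAction G N]
    [AddCommGroup M] [DistribMulAction G M] : AddSubgroup (N →+ M) where
  carrier := {f | IsEquivariant G f}
  zero_mem' := isEquivariant_zero G
  add_mem' := fun ha hb => IsEquivariant.add ha hb
  neg_mem' := fun ha => IsEquivariant.neg ha

theorem mem_HomG {N M : Type} [AddCommGroup N] [DistribMulAction G N]
    [AddCommGroup M] [DistribMulAction G M] (f : N →+ M) :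
    f ∈ HomG G N M ↔ IsEquivariant G f := Iff.rfl

/-- Precomposition `Hom_G(N', M) → Hom_G(N, M)`. -/
def HomG.precomp {N N' : Type} (M : Type) [AddCommGroup N] [DistribMulAction G N]
    [AddCommGroup N'] [DistribMulAction G N'] [AddCommGroup M] [DistribMulAction G M]
    (φ : N →+ N') (hφ : IsEquivariant G φ) : ↥(HomG G N' M) →+ ↥(HomG G N M) where
  toFun f := ⟨f.1.comp φ, IsEquivariant.comp f.2 hφ⟩
  map_zero' := rfl
  map_add' _ _ := rfl

@[simp] theorem HomG.precomp_coe {N N' : Type} (M : Type) [AddCommGroup N] [DistribMulAction G N]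
    [AddCommGroup N'] [DistribMulAction G N'] [AddCommGroup M] [DistribMulAction G M]
    (φ : N →+ N') (hφ : IsEquivariant G φ) (f : ↥(HomG G N' M)) :
    (HomG.precomp M φ hφ f : N →+ M) = f.1.comp φ := rfl

/-- The functor `N ↦ Hom(Hom_G(N, M), ZMod p)`. -/
@[reducible] def dualHom (G : Type) [Group G] (M : Type) [AddCommGroup M] [DistribMulAction G M]
    (p : ℕ) : HFun G where
  obj N _ _ := ↥(HomG G N M) →+ ZMod p
  grp N _ _ := inferInstance
  map φ hφ :=
    { toFun := fun ξ => ξ.comp (HomG.precomp M φ hφ)
      map_zero' := rfl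
      map_add' := fun _ _ => rfl }
  map_id N _ _ h := rfl
  map_comp φ hφ ψ hψ h := rfl
  map_add φ ψ hφ hψ h := by
    ext ξ f
    change ξ _ = ξ _ + ξ _
    rw [← map_add]
    congr 1
    ext x
    exact map_add f.1 _ _

theorem dualHom_map_apply {M : Type} [AddCommGroup M] [DistribMulAction G M] {p : ℕ}
    {N N' : Type} [AddCommGroup N] [DistribMulAction G N] [AddCommGroup N']
    [DistribMulAction G N'] (φ : N →+ N') (hφ : IsEquivariant G φ)
    (ξ : ↥(HomG G N M) →+ ZMod p) (f : ↥(HomG G N' M)) :
    (dualHom G M p).map φ hφ ξ f = ξ (HomG.precomp M φ hφ f) := rfl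

theorem HFun.map_zero (H : HFun G) {N N' : Type} [AddCommGroup N] [DistribMulAction G N]
    [AddCommGroup N'] [DistribMulAction G N'] (h : IsEquivariant G (0 : N →+ N')) :
    H.map (0 : N →+ N') h = 0 := by
  have h2 : IsEquivariant G ((0 : N →+ N') + (0 : N →+ N') : N →+ N') := IsEquivariant.add h h
  have := H.map_add (0 : N →+ N') 0 h h h2
  have h3 : H.map ((0 : N →+ N') + (0 : N →+ N')) h2 = H.map (0 : N →+ N') h := by
    congr 1
    exact add_zero _
  rw [h3] at this
  simpa using this

/-- The pairing `x ↦ (f ↦ t (f_* x))`. -/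
def pairHom (H : HFun G) (M : Type) [AddCommGroup M] [DistribMulAction G M] {p : ℕ}
    (t : H.obj M →+ ZMod p) (N : Type) [AddCommGroup N] [DistribMulAction G N] :
    H.obj N →+ (↥(HomG G N M) →+ ZMod p) where
  toFun x :=
    { toFun := fun f => t (H.map f.1 f.2 x)
      map_zero' := by
        change t (H.map (0 : N →+ M) (isEquivariant_zero G) x) = 0
        rw [H.map_zero]; simp
      map_add' := fun f f' => by
        change t (H.map (f.1 + f'.1) (IsEquivariant.add f.2 f'.2) x) = _
        rw [H.map_add f.1 f'.1 f.2 f'.2]; simp }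
  map_zero' := by
    ext f
    change t (H.map f.1 f.2 0) = 0
    simp
  map_add' x y := by
    ext f
    change t (H.map f.1 f.2 (x + y)) = t (H.map f.1 f.2 x) + t (H.map f.1 f.2 y)
    simp

@[simp] theorem pairHom_apply (H : HFun G) (M : Type) [AddCommGroup M] [DistribMulAction G M]
    {p : ℕ} (t : H.obj M →+ ZMod p) (N : Type) [AddCommGroup N] [DistribMulAction G N]
    (x : H.obj N) (f : ↥(HomG G N M)) : pairHom H M t N x f = t (H.map f.1 f.2 x) := rfl

/-- The natural transformation `H → dualHom G M p`, `x ↦ (f ↦ t (f_* x))`. -/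
def pairT (H : HFun G) (M : Type) [AddCommGroup M] [DistribMulAction G M] {p : ℕ}
    (t : H.obj M →+ ZMod p) : NatT H (dualHom G M p) where
  app N _ _ := pairHom H M t N
  nat φ hφ x := by
    ext f
    change t (H.map f.1 f.2 (H.map φ hφ x)) = t (H.map (f.1.comp φ) (IsEquivariant.comp f.2 hφ) x)
    rw [H.map_comp φ hφ f.1 f.2]; rfl

@[simp] theorem pairT_app (H : HFun G) (M : Type) [AddCommGroup M] [DistribMulAction G M] {p : ℕ}
    (t : H.obj M →+ ZMod p) (N : Type) [AddCommGroup N] [DistribMulAction G N] :
    (pairT H M t).app N = pairHom H M t N := rfl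

/-! ### `IndMod`: sum, constants, push-forward -/

section indmod

variable {X Y A : Type} [AddCommGroup A]

/-- The sum of all values. -/
noncomputable def sumX (X A : Type) [AddCommGroup A] [Finite X] : IndMod X A →+ A where
  toFun f := ∑ᶠ x, f x
  map_zero' := by simp
  map_add' f f' := by
    simp only [IndMod.add_apply]
    exact finsum_add_distrib (Set.toFinite _) (Set.toFinite _)

theorem sumX_apply [Finite X] (f : IndMod X A) : sumX X A f = ∑ᶠ x, f x := rfl

/-- Constant functions. -/
def constX (X A : Type) [AddCommGroup A] : A →+ IndMod X A where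
  toFun a := IndMod.of fun _ => a
  map_zero' := rfl
  map_add' _ _ := rfl

@[simp] theorem constX_apply (a : A) (x : X) : constX X A a x = a := rfl

/-- Push-forward (sum over the fibres) along `π : X → Y`. -/
noncomputable def pushX (A : Type) [AddCommGroup A] [Finite X] (π : X → Y) :
    IndMod X A →+ IndMod Y A where
  toFun f := IndMod.of fun y => ∑ᶠ x : {x : X // π x = y}, f x.1
  map_zero' := by
    ext y
    simp
  map_add' f f' := by
    ext y
    simp only [IndMod.add_apply, IndMod.of_apply]
    exact finsum_add_distrib (Set.toFinite _) (Set.toFinite _)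

theorem pushX_apply [Finite X] (π : X → Y) (f : IndMod X A) (y : Y) :
    pushX A π f y = ∑ᶠ x : {x : X // π x = y}, f x.1 := rfl

end indmod

/-! ### Equivariance of the `IndMod` maps.
NOTE for users: `f x` for `f : IndMod X A` is a raw application (the elaborator unfolds `IndMod`), so
`rw` with higher-order lemmas such as `Finset.smul_sum` may fail on `∑ x, f x`: give the function
explicitly (`(f := fun x => f x)`) or use `erw` / `exact`. -/

section indmaps

theorem sumX_eq_sum {X A : Type} [AddCommGroup A] [Fintype X] (f : IndMod X A) :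
    sumX X A f = ∑ x, f x := finsum_eq_sum_of_fintype fun x => f x

theorem pushX_eq_sum {X Y A : Type} [AddCommGroup A] [Fintype X] [DecidableEq Y] (π : X → Y)
    (f : IndMod X A) (y : Y) : pushX A π f y = ∑ x with π x = y, f x := by
  rw [pushX_apply, finsum_eq_sum_of_fintype]
  exact (Finset.sum_subtype (Finset.univ.filter fun x => π x = y) (by simp) fun x => f x).symm

variable (G)
variable {X Y : Type} (A : Type) [AddCommGroup A] [DistribMulAction G A] [MulAction G X]
  [MulAction G Y]

theorem isEquivariant_sumX (X : Type) [MulAction G X] [Finite X] :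
    IsEquivariant G (sumX X A) := fun g f => by
  cases nonempty_fintype X
  rw [sumX_eq_sum, sumX_eq_sum]
  refine Eq.trans ?_ (Finset.smul_sum (f := fun x => f x) (s := Finset.univ) (r := g)).symm
  exact Equiv.sum_comp (MulAction.toPerm g⁻¹) fun x => g • f x

theorem isEquivariant_constX (X : Type) [MulAction G X] : IsEquivariant G (constX X A) :=
  fun _ _ => rfl

theorem isEquivariant_pushX [Finite X] (π : X → Y) (hπ : ∀ (g : G) (x : X), π (g • x) = g • π x) :
    IsEquivariant G (pushX A π) := fun g f => by
  ext y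
  change ∑ᶠ x : {x : X // π x = y}, g • f (g⁻¹ • x.1) =
    g • ∑ᶠ x : {x : X // π x = g⁻¹ • y}, f x.1
  rw [smul_finsum' _ (Set.toFinite _)]
  refine finsum_eq_of_bijective
    (fun x : {x : X // π x = y} => (⟨g⁻¹ • x.1, by rw [hπ, x.2]⟩ : {x : X // π x = g⁻¹ • y})) ?_ ?_
  · constructor
    · intro a b h
      have := congrArg Subtype.val h
      exact Subtype.ext (smul_left_cancel _ this)
    · intro b
      exact ⟨⟨g • b.1, by rw [hπ, b.2, smul_inv_smul]⟩, Subtype.ext (inv_smul_smul _ _)⟩
  · intro x
    rfl

/-- The projection `G ⧸ U' → G ⧸ U` is equivariant. -/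
theorem quotientMapOfLE_smul {G : Type} [Group G] {U' U : Subgroup G} (h : U' ≤ U) (g : G)
    (x : G ⧸ U') :
    Subgroup.quotientMapOfLE h (g • x) = g • Subgroup.quotientMapOfLE h x := by
  induction x using QuotientGroup.induction_on with
  | H z => rfl

end indmaps

/-! ### Product and restriction of functors -/

/-- The product of a family of functors. -/
@[reducible] def prodFun {ι : Type} (B : ι → HFun G) : HFun G where
  obj N _ _ := ∀ q, (B q).obj N
  grp N _ _ := inferInstance
  map φ hφ :=
    { toFun := fun y q => (B q).map φ hφ (y q)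
      map_zero' := by ext q; simp
      map_add' := fun y y' => by ext q; simp }
  map_id N _ _ h := by
    ext y q
    change (B q).map _ h (y q) = y q
    rw [(B q).map_id]; rfl
  map_comp φ hφ ψ hψ h := by
    ext y q
    change (B q).map _ h (y q) = (B q).map ψ hψ ((B q).map φ hφ (y q))
    rw [(B q).map_comp φ hφ ψ hψ]; rfl
  map_add φ ψ hφ hψ h := by
    ext y q
    change (B q).map _ h (y q) = (B q).map φ hφ (y q) + (B q).map ψ hψ (y q)
    rw [(B q).map_add φ ψ hφ hψ]; rfl

section res

variable {Γ : Type} [Group Γ] (f : Γ →* G)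

/-- `φ` regarded as a map `ResMod f N →+ ResMod f N'`. -/
def resMap {N N' : Type} [AddCommGroup N] [AddCommGroup N'] (φ : N →+ N') :
    ResMod f N →+ ResMod f N' := φ

theorem resMap_equivariant {N N' : Type} [AddCommGroup N] [DistribMulAction G N]
    [AddCommGroup N'] [DistribMulAction G N'] {φ : N →+ N'} (hφ : IsEquivariant G φ) :
    IsEquivariant Γ (resMap f φ) := fun γ a => hφ (f γ) a

/-- The functor `N ↦ H (ResMod f N)` on `G`-modules, for a functor `H` on `Γ`-modules. -/
@[reducible] def resFun (H : HFun Γ) : HFun G where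
  obj N _ _ := H.obj (ResMod f N)
  grp _ _ _ := inferInstance
  map φ hφ := H.map (resMap f φ) (resMap_equivariant f hφ)
  map_id N _ _ _ := H.map_id (ResMod f N) _
  map_comp φ hφ ψ hψ _ :=
    H.map_comp (resMap f φ) (resMap_equivariant f hφ) (resMap f ψ) (resMap_equivariant f hψ) _
  map_add φ ψ hφ hψ _ :=
    H.map_add (resMap f φ) (resMap f ψ) (resMap_equivariant f hφ) (resMap_equivariant f hψ) _

end res

/-! ### Kernels, products of modules, induced subgroups -/

section constructions

variable {N N₂ : Type} [AddCommGroup N] [DistribMulAction G N] [AddCommGroup N₂]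
  [DistribMulAction G N₂]

/-- The kernel of an equivariant map, as a stable subgroup. -/
def kerSub (π : N →+ N₂) (hπ : IsEquivariant G π) : GSub G N where
  toAddSubgroup := π.ker
  smul_mem' g a ha := by
    change π (g • a) = 0
    rw [hπ g a, show π a = 0 from ha, smul_zero]

theorem mem_kerSub (π : N →+ N₂) (hπ : IsEquivariant G π) (a : N) :
    a ∈ (kerSub π hπ).toAddSubgroup ↔ π a = 0 := Iff.rfl

theorem isEquivariant_incl (B : GSub G N) : IsEquivariant G B.incl := fun _ _ => rfl

theorem isEquivariant_proj (B : GSub G N) : IsEquivariant G B.proj := fun _ _ => rfl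

/-- Evaluation `(ι → N) →+ N`. -/
def evalHom (ι N : Type) [AddCommGroup N] (k : ι) : (ι → N) →+ N :=
  Pi.evalAddMonoidHom (fun _ => N) k

@[simp] theorem evalHom_apply {ι : Type} (k : ι) (x : ι → N) : evalHom ι N k x = x k := rfl

theorem isEquivariant_evalHom (G : Type) [Group G] {N : Type} [AddCommGroup N]
    [DistribMulAction G N] {ι : Type} (k : ι) : IsEquivariant G (evalHom ι N k) :=
  fun _ _ => rfl

/-- `{f : G/P → N | g⁻¹ • f (gP) ∈ W for all g}`: the module induced from the `P`-stable subgroup
`W` of `N`, inside `IndMod (G ⧸ P) N`. -/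
def indSub (P : Subgroup G) (W : AddSubgroup N) : GSub G (IndMod (G ⧸ P) N) where
  carrier := {f | ∀ g : G, g⁻¹ • f (g : G ⧸ P) ∈ W}
  zero_mem' := fun g => by
    simp only [IndMod.zero_apply, smul_zero]
    exact W.zero_mem
  add_mem' := fun {a b} ha hb g => by
    simp only [IndMod.add_apply, smul_add]
    exact W.add_mem (ha g) (hb g)
  neg_mem' := fun {a} ha g => by
    simp only [IndMod.neg_apply, smul_neg]
    exact W.neg_mem (ha g)
  smul_mem' h a ha := fun g => by
    have := ha (h⁻¹ * g)
    simp only [IndMod.smul_apply]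
    rw [mul_inv_rev, inv_inv, mul_smul] at this
    exact this

theorem mem_indSub (P : Subgroup G) (W : AddSubgroup N) (f : IndMod (G ⧸ P) N) :
    f ∈ (indSub P W).toAddSubgroup ↔ ∀ g : G, g⁻¹ • f (g : G ⧸ P) ∈ W := Iff.rfl

end constructions

/-! ### Level systems -/

/-- `N` is finite, killed by `p` and smooth for the level system `𝓝`. -/
structure Good (𝓝 : LevelSys G) (p : ℕ) (N : Type) [AddCommGroup N] [DistribMulAction G N] :
    Prop where
  finite : Finite N
  ptors : ∀ x : N, p • x = 0
  smooth : Smooth 𝓝 N

/-- `V` acts trivially on `M`. -/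
def ActsTrivially (V : Subgroup G) (M : Type) [SMul G M] : Prop := ∀ v ∈ V, ∀ m : M, v • m = m

/-! ### The two natural transformations of the Poitou-Tate tail -/

/-- The family of localisation maps, as a natural transformation to the product. -/
def locT {ι : Type} {A : HFun G} {B : ι → HFun G} (loc : ∀ q, NatT A (B q)) :
    NatT A (prodFun B) where
  app N _ _ :=
    { toFun := fun x q => (loc q).app N x
      map_zero' := funext fun q => map_zero _
      map_add' := fun x y => funext fun q => map_add _ x y }
  nat φ hφ x := funext fun q => (loc q).nat φ hφ x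

@[simp] theorem locT_app_apply {ι : Type} {A : HFun G} {B : ι → HFun G} (loc : ∀ q, NatT A (B q))
    (N : Type) [AddCommGroup N] [DistribMulAction G N] (x : A.obj N) (q : ι) :
    (locT loc).app N x q = (loc q).app N x := rfl

/-- `y ↦ (f ↦ ∑ q, t q (f_* (y q)))`. -/
def sumPairT {ι : Type} [Fintype ι] (B : ι → HFun G) (M : Type) [AddCommGroup M]
    [DistribMulAction G M] {p : ℕ} (t : ∀ q, (B q).obj M →+ ZMod p) :
    NatT (prodFun B) (dualHom G M p) where
  app N _ _ :=
    { toFun := fun y => ∑ q, pairHom (B q) M (t q) N (y q)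
      map_zero' := Finset.sum_eq_zero fun q _ => map_zero _
      map_add' := fun y y' => by
        rw [← Finset.sum_add_distrib]
        exact Finset.sum_congr rfl fun q _ => map_add _ (y q) (y' q) }
  nat φ hφ y := by
    change ∑ q, pairHom (B q) M (t q) _ ((B q).map φ hφ (y q)) =
      (dualHom G M p).map φ hφ (∑ q, pairHom (B q) M (t q) _ (y q))
    rw [map_sum]
    exact Finset.sum_congr rfl fun q _ => (pairT (B q) M (t q)).nat φ hφ (y q)

theorem sumPairT_app_apply {ι : Type} [Fintype ι] (B : ι → HFun G) (M : Type) [AddCommGroup M]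
    [DistribMulAction G M] {p : ℕ} (t : ∀ q, (B q).obj M →+ ZMod p)
    (N : Type) [AddCommGroup N] [DistribMulAction G N] (y : ∀ q, (B q).obj N)
    (f : ↥(HomG G N M)) :
    (sumPairT B M t).app N y f = ∑ q, t q ((B q).map f.1 f.2 (y q)) := by
  change (∑ q, pairHom (B q) M (t q) N (y q)) f = _
  rw [AddMonoidHom.finsetSum_apply]
  rfl

end Fermat.Agent.S55.F2
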