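/-
S55 / FORMAL-F2, node N16 (Sylow).
`exists_sylow_above`: take a Sylow `p`-subgroup `Q` of the finite group `G ⧸ U` and `P = Q.comap (QuotientGroup.mk' U)`;
`P.index = Q.index` (`Subgroup.index_comap_of_surjective`), `Sylow.not_dvd_index`; `IsPGroup` gives the `p`-power orders.
`smul_eq_of_pow`: `μ` has prime order, `ζ ≠ 0` a generator, `g • ζ = c • ζ`, hence `g • m = c • m` for all `m` and
`g ^ j • m = c ^ j • m`; `c ^ (p ^ k) ≡ c [MOD p]` (`ZMod.pow_card_pow`), so `m = g ^ (p^k) • m = c • m = g • m`.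
-/
import Fermat.Agent.S55.F2.Defs

set_option autoImplicit false

namespace Fermat.Agent.S55.F2

variable {G : Type} [Group G]

theorem exists_sylow_above (U : Subgroup G) [U.Normal] [U.FiniteIndex] (p : ℕ) [Fact p.Prime] :
    ∃ P : Subgroup G, U ≤ P ∧ (∀ g ∈ P, ∃ k : ℕ, g ^ (p ^ k) ∈ U) ∧ ¬ p ∣ P.index := by
  classical
  have hfin : Finite (G ⧸ U) := inferInstance
  obtain ⟨Q⟩ : Nonempty (Sylow p (G ⧸ U)) := inferInstance
  refine ⟨(Q : Subgroup (G ⧸ U)).comap (QuotientGroup.mk' U), ?_, ?_, ?_⟩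
  · intro u hu
    rw [Subgroup.mem_comap]
    have h1 : QuotientGroup.mk' U u = 1 := (QuotientGroup.eq_one_iff u).2 hu
    rw [h1]
    exact one_mem _
  · intro g hg
    obtain ⟨k, hk⟩ := Q.isPGroup' ⟨QuotientGroup.mk' U g, hg⟩
    refine ⟨k, ?_⟩
    rw [← QuotientGroup.eq_one_iff]
    have h2 := congrArg Subtype.val hk
    simpa using h2
  · rw [Subgroup.index_comap_of_surjective _ (QuotientGroup.mk'_surjective U)]
    exact Q.not_dvd_index

theorem smul_eq_of_pow (p : ℕ) [Fact p.Prime] (μ : Type) [AddCommGroup μ] [DistribMulAction G μ]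
    (hμ : Nat.card μ = p) (g : G) (k : ℕ) (h : ∀ m : μ, g ^ (p ^ k) • m = m) :
    ∀ m : μ, g • m = m := by
  have hp : p.Prime := Fact.out
  have hfin : Finite μ := Nat.finite_of_card_ne_zero (hμ ▸ hp.ne_zero)
  have hnt : Nontrivial μ := Finite.one_lt_card_iff_nontrivial.1 (hμ ▸ hp.one_lt)
  obtain ⟨ζ, hζ⟩ := exists_ne (0 : μ)
  have hgen : ∀ m : μ, ∃ n : ℕ, n • ζ = m := fun m =>
    mem_multiples_of_prime_card hμ hζ (g' := m)
  obtain ⟨c, hc⟩ := hgen (g • ζ)
  have hg : ∀ m : μ, g • m = c • m := by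
    intro m
    obtain ⟨n, rfl⟩ := hgen m
    rw [smul_comm g n ζ, ← hc, smul_comm]
  have hpow : ∀ (j : ℕ) (m : μ), g ^ j • m = c ^ j • m := by
    intro j
    induction j with
    | zero => intro m; simp
    | succ j ih =>
      intro m
      rw [pow_succ, mul_smul, hg, ih, pow_succ, mul_smul]
  have hmod : c ^ (p ^ k) ≡ c [MOD p] := by
    rw [← ZMod.natCast_eq_natCast_iff]
    push_cast
    exact ZMod.pow_card_pow _
  intro m
  have hord : addOrderOf m ∣ p := hμ ▸ addOrderOf_dvd_natCard m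
  have h1 : c ^ (p ^ k) • m = c • m := nsmul_eq_nsmul_iff_modEq.2 (hmod.of_dvd hord)
  rw [hg, ← h1, ← hpow, h]

end Fermat.Agent.S55.F2
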