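/-
S55 / FORMAL-F2, node N02 (InC).  Closure properties of the class `InC U p` (finite, killed by `p`,
`U` acts trivially) and of `Good 𝓝 p`.  Every proof is a direct verification (3-15 lines).
-/
import Fermat.Agent.S55.F2.Defs

set_option autoImplicit false

namespace Fermat.Agent.S55.F2

variable {G : Type} [Group G]

variable {U : Subgroup G} {p : ℕ} {N M : Type} [AddCommGroup N] [DistribMulAction G N]
  [AddCommGroup M] [DistribMulAction G M]

theorem InC.mono {U' : Subgroup G} (h : U' ≤ U) (hN : InC U p N) : InC U' p N :=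
  ⟨hN.finite, hN.ptors, fun u hu x => hN.triv u (h hu) x⟩

theorem InC.of_injective (i : M →+ N) (hi : IsEquivariant G i) (h : Function.Injective i)
    (hN : InC U p N) : InC U p M := by
  have := hN.finite
  refine ⟨Finite.of_injective i h, fun x => h ?_, fun u hu x => h ?_⟩
  · rw [map_nsmul, hN.ptors, map_zero]
  · rw [hi u x, hN.triv u hu]

theorem InC.of_surjective (π : N →+ M) (hπ : IsEquivariant G π) (h : Function.Surjective π)
    (hN : InC U p N) : InC U p M := by
  have := hN.finite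
  refine ⟨Finite.of_surjective π h, fun x => ?_, fun u hu x => ?_⟩
  · obtain ⟨y, rfl⟩ := h x
    rw [← map_nsmul, hN.ptors, map_zero]
  · obtain ⟨y, rfl⟩ := h x
    rw [← hπ u y, hN.triv u hu]

theorem InC.gsubMod (B : GSub G N) (hN : InC U p N) : InC U p B.Mod :=
  InC.of_injective B.incl (isEquivariant_incl B) B.incl_injective hN

theorem InC.gsubQuot (B : GSub G N) (hN : InC U p N) : InC U p B.Quot :=
  InC.of_surjective B.proj (isEquivariant_proj B) B.proj_surjective hN

theorem InC.pi (ι : Type) [Finite ι] (hN : InC U p N) : InC U p (ι → N) := by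
  have := hN.finite
  refine ⟨inferInstance, fun x => ?_, fun u hu x => ?_⟩
  · funext k
    exact hN.ptors (x k)
  · funext k
    exact hN.triv u hu (x k)

theorem InC.fp (U : Subgroup G) (p : ℕ) [NeZero p] : InC U p (Fp p) := by
  refine ⟨inferInstance, fun x => ?_, fun _ _ _ => rfl⟩
  have h : ∀ y : ZMod p, p • y = 0 := fun y => by
    rw [nsmul_eq_mul, ZMod.natCast_self, zero_mul]
  exact h x

theorem InC.indMod {X : Type} [MulAction G X] [Finite X] (hX : ∀ u ∈ U, ∀ x : X, u • x = x)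
    (hN : InC U p N) : InC U p (IndMod X N) := by
  have := hN.finite
  refine ⟨Finite.of_injective (fun f : IndMod X N => (f : X → N)) DFunLike.coe_injective,
    fun f => ?_, fun u hu f => ?_⟩
  · ext x
    exact hN.ptors (f x)
  · ext x
    rw [IndMod.smul_apply, hX u⁻¹ (U.inv_mem hu) x, hN.triv u hu]

/-- A normal subgroup `U ≤ P` acts trivially on `G ⧸ P`. -/
theorem smul_quotient_eq_of_normal (U P : Subgroup G) [U.Normal] (h : U ≤ P) :
    ∀ u ∈ U, ∀ x : G ⧸ P, u • x = x := by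
  intro u hu x
  induction x using QuotientGroup.induction_on with
  | H z =>
    change ((u * z : G) : G ⧸ P) = (z : G ⧸ P)
    rw [QuotientGroup.eq]
    apply h
    have h1 : z⁻¹ * u⁻¹ * z⁻¹⁻¹ ∈ U :=
      Subgroup.Normal.conj_mem inferInstance u⁻¹ (U.inv_mem hu) z⁻¹
    simpa [mul_assoc] using h1

theorem InC.indMod_quotient [U.Normal] (P : Subgroup G) [P.FiniteIndex] (h : U ≤ P)
    (hN : InC U p N) : InC U p (IndMod (G ⧸ P) N) :=
  InC.indMod (smul_quotient_eq_of_normal U P h) hN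

theorem InC.res {Γ : Type} [Group Γ] (f : Γ →* G) (hN : InC U p N) :
    InC (U.comap f) p (ResMod f N) :=
  ⟨hN.finite, hN.ptors, fun u hu x => hN.triv (f u) hu x⟩

/-- Auxiliary: a finite set of elements of a smooth module is fixed by a small enough level. -/
theorem InC_exists_level_fix (𝓝 : LevelSys G) (M : Type) [AddCommGroup M]
    [DistribMulAction G M] [Smooth 𝓝 M] (U₀ : Subgroup G) (hU₀ : U₀ ∈ 𝓝.carrier)
    (s : Finset M) : ∃ U ∈ 𝓝.carrier, U ≤ U₀ ∧ ∀ u ∈ U, ∀ m ∈ s, u • m = m := by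
  classical
  induction s using Finset.induction_on with
  | empty => exact ⟨U₀, hU₀, le_rfl, fun _ _ _ hm => absurd hm (Finset.notMem_empty _)⟩
  | insert a s _ ih =>
    obtain ⟨U₁, hU₁, hle₁, hfix₁⟩ := ih
    obtain ⟨U₂, hU₂, hfix₂⟩ := Smooth.exists_fix (𝓝 := 𝓝) a
    obtain ⟨U₃, hU₃, hle₃⟩ := 𝓝.directed U₁ hU₁ U₂ hU₂
    refine ⟨U₃, hU₃, fun u hu => hle₁ (hle₃ hu).1, fun u hu m hm => ?_⟩
    rcases Finset.mem_insert.1 hm with rfl | hm
    · exact hfix₂ u (hle₃ hu).2
    · exact hfix₁ u (hle₃ hu).1 m hm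

/-- A finite smooth module is fixed by a small enough level. -/
theorem Good.exists_inC {𝓝 : LevelSys G} (hN : Good 𝓝 p N) (U₀ : Subgroup G)
    (hU₀ : U₀ ∈ 𝓝.carrier) : ∃ U ∈ 𝓝.carrier, U ≤ U₀ ∧ InC U p N := by
  have := hN.finite
  have := hN.smooth
  cases nonempty_fintype N
  obtain ⟨U, hU, hle, hfix⟩ := InC_exists_level_fix 𝓝 N U₀ hU₀ Finset.univ
  exact ⟨U, hU, hle, hN.finite, hN.ptors, fun u hu x => hfix u hu x (Finset.mem_univ x)⟩

theorem InC.good {𝓝 : LevelSys G} (hU : U ∈ 𝓝.carrier) (hN : InC U p N) : Good 𝓝 p N :=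
  ⟨hN.finite, hN.ptors, ⟨fun a => ⟨U, hU, fun n hn => hN.triv n hn a⟩⟩⟩

/-- The levels acting trivially on a finite smooth module are cofinal. -/
theorem exists_level_actsTrivially (𝓝 : LevelSys G) (M : Type) [AddCommGroup M]
    [DistribMulAction G M] [Finite M] [Smooth 𝓝 M] (U₀ : Subgroup G) (hU₀ : U₀ ∈ 𝓝.carrier) :
    ∃ U ∈ 𝓝.carrier, U ≤ U₀ ∧ ActsTrivially U M := by
  cases nonempty_fintype M
  obtain ⟨U, hU, hle, hfix⟩ := InC_exists_level_fix 𝓝 M U₀ hU₀ Finset.univ
  exact ⟨U, hU, hle, fun u hu x => hfix u hu x (Finset.mem_univ x)⟩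

end Fermat.Agent.S55.F2
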