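/-
S55 / block FORMAL-F2 (sub-architect helper121).  The functors `N ↦ Hsm 𝓝 N n`, `N ↦ Hsm 𝓜 (ResMod f N) n`
and the restriction map as instances of the abstract notions of `F2/Defs.lean`.  Definitions only.
-/
import Fermat.Agent.S55.F2.Defs
import Fermat.Agent.S55.Coh.Functor
import Fermat.Agent.S55.Coh.Res
import Fermat.Agent.S55.Coh.IndMaps

set_option autoImplicit false

namespace Fermat.Agent.S55.F2

variable {G : Type} [Group G]

/-- Bundle an equivariant additive map. -/
def mkHom {N N' : Type} [AddCommGroup N] [DistribMulAction G N] [AddCommGroup N']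
    [DistribMulAction G N'] (φ : N →+ N') (hφ : IsEquivariant G φ) : N →+[G] N' where
  toFun := φ
  map_smul' := hφ
  map_zero' := map_zero φ
  map_add' := map_add φ

@[simp] theorem mkHom_apply {N N' : Type} [AddCommGroup N] [DistribMulAction G N] [AddCommGroup N']
    [DistribMulAction G N'] (φ : N →+ N') (hφ : IsEquivariant G φ) (x : N) :
    mkHom φ hφ x = φ x := rfl

/-- The underlying additive map of a bundled equivariant map is equivariant. -/
theorem isEquivariant_coe {N N' : Type} [AddCommGroup N] [DistribMulAction G N] [AddCommGroup N']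
    [DistribMulAction G N'] (φ : N →+[G] N') : IsEquivariant G (φ : N →+ N') :=
  fun g a => map_smul φ g a

/-- The functor `N ↦ Hsm 𝓝 N n`. -/
@[reducible] def hsmFun (𝓝 : LevelSys G) (n : ℕ) : HFun G where
  obj N _ _ := Hsm 𝓝 N n
  grp _ _ _ := inferInstance
  map φ hφ := Hsm.map (mkHom φ hφ) n
  map_id _ _ _ _ := by
    ext x
    exact Hsm.map_id' (fun _ => rfl) n x
  map_comp φ hφ ψ hψ _ := by
    ext x
    exact Hsm.map_comp' (ψ := mkHom ψ hψ) (φ := mkHom φ hφ) (fun _ => rfl) n x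
  map_add φ ψ hφ hψ _ := by
    ext x
    exact Hsm.map_add' (φ := mkHom φ hφ) (ψ := mkHom ψ hψ) (fun _ => rfl) n x

theorem hsmFun_map (𝓝 : LevelSys G) (n : ℕ) {N N' : Type} [AddCommGroup N] [DistribMulAction G N]
    [AddCommGroup N'] [DistribMulAction G N'] (φ : N →+[G] N') :
    (hsmFun 𝓝 n).map (φ : N →+ N') (isEquivariant_coe φ) = Hsm.map φ n := rfl

variable {Γ : Type} [Group Γ]

theorem resFun_hsmFun_map (f : Γ →* G) (𝓜 : LevelSys Γ) (n : ℕ) {N N' : Type} [AddCommGroup N]
    [DistribMulAction G N] [AddCommGroup N'] [DistribMulAction G N'] (φ : N →+[G] N') :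
    (resFun f (hsmFun 𝓜 n)).map (φ : N →+ N') (isEquivariant_coe φ)
      = Hsm.map (ResMod.map f φ) n := rfl

/-- Restriction `Hsm 𝓝 N n → Hsm 𝓜 (ResMod f N) n` as a natural transformation. -/
def resNat (f : Γ →* G) (𝓜 : LevelSys Γ) (𝓝 : LevelSys G) (h : (𝓝.comap f).Le 𝓜) (n : ℕ) :
    NatT (hsmFun 𝓝 n) (resFun f (hsmFun 𝓜 n)) where
  app N _ _ := Hsm.res N f 𝓜 𝓝 h n
  nat φ hφ x := by
    induction x using Hsm.induction_on with
    | _ z => rfl

@[simp] theorem resNat_app (f : Γ →* G) (𝓜 : LevelSys Γ) (𝓝 : LevelSys G)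
    (h : (𝓝.comap f).Le 𝓜) (n : ℕ) (N : Type) [AddCommGroup N] [DistribMulAction G N] :
    (resNat f 𝓜 𝓝 h n).app N = Hsm.res N f 𝓜 𝓝 h n := rfl

end Fermat.Agent.S55.F2
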