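/-
S55 / block FORMAL-F2 (sub-architect helper121).  More definitions of the abstract core:
restriction of a natural transformation, the `Sha` predicate, comparison of `sumX`/`pushX` with
the bundled maps of `Coh/IndMaps.lean`.
-/
import Fermat.Agent.S55.F2.HsmFun

set_option autoImplicit false

namespace Fermat.Agent.S55.F2

variable {G : Type} [Group G]

/-- Restriction of a natural transformation along `f : Γ →* G`. -/
def resT {Γ : Type} [Group Γ] (f : Γ →* G) {K K' : HFun Γ} (α : NatT K K') :
    NatT (resFun f K) (resFun f K') where
  app N _ _ := α.app (ResMod f N)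
  nat φ hφ x := α.nat (resMap f φ) (resMap_equivariant f hφ) x

@[simp] theorem resT_app {Γ : Type} [Group Γ] (f : Γ →* G) {K K' : HFun Γ} (α : NatT K K')
    (N : Type) [AddCommGroup N] [DistribMulAction G N] :
    (resT f α).app N = α.app (ResMod f N) := rfl

/-- `x` is locally trivial. -/
def IsSha {ι : Type} {A : HFun G} {B : ι → HFun G} (loc : ∀ q, NatT A (B q))
    (N : Type) [AddCommGroup N] [DistribMulAction G N] (x : A.obj N) : Prop :=
  ∀ q, (loc q).app N x = 0

theorem sumX_eq_sum' (X A : Type) [MulAction G X] [Finite X] [AddCommGroup A]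
    [DistribMulAction G A] : sumX X A = (IndMod.sum (G := G) X A : IndMod X A →+ A) := rfl

theorem pushX_eq_push {X Y : Type} (A : Type) [MulAction G X] [MulAction G Y] [Finite X]
    [AddCommGroup A] [DistribMulAction G A] (u : X →[G] Y) :
    pushX A u = (IndMod.push A u : IndMod X A →+ IndMod Y A) := rfl

theorem constX_eq_const (X A : Type) [MulAction G X] [AddCommGroup A]
    [DistribMulAction G A] : constX X A = (IndMod.const (G := G) X A : A →+ IndMod X A) := rfl

/-- `ψ` applied componentwise is equivariant. -/
theorem isEquivariant_compLeft {M M' : Type} [AddCommGroup M] [DistribMulAction G M]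
    [AddCommGroup M'] [DistribMulAction G M'] {ψ : M →+ M'} (hψ : IsEquivariant G ψ)
    (ι : Type) : IsEquivariant G (ψ.compLeft ι) := fun g x => funext fun k => hψ g (x k)

end Fermat.Agent.S55.F2
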