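/-
S55 / FORMAL-F2, node N01 (Basic).  Formal consequences of additivity/functoriality of an `HFun`.
All proofs are 3-15 lines from `H.map_id`, `H.map_comp`, `H.map_add`, `H.map_zero`.
-/
import Fermat.Agent.S55.F2.Defs

set_option autoImplicit false

namespace Fermat.Agent.S55.F2

variable {G : Type} [Group G]

variable {N M : Type} [AddCommGroup N] [DistribMulAction G N] [AddCommGroup M]
  [DistribMulAction G M]

/-- `H.map` only depends on the underlying map. -/
theorem HFun.map_congr (H : HFun G) {φ ψ : N →+ M} (h : φ = ψ) (hφ : IsEquivariant G φ)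
    (hψ : IsEquivariant G ψ) : H.map φ hφ = H.map ψ hψ := by
  subst h
  rfl

theorem HFun.map_comp_apply (H : HFun G) {L : Type} [AddCommGroup L] [DistribMulAction G L]
    (φ : N →+ M) (hφ : IsEquivariant G φ) (ψ : M →+ L) (hψ : IsEquivariant G ψ) (x : H.obj N) :
    H.map ψ hψ (H.map φ hφ x) = H.map (ψ.comp φ) (IsEquivariant.comp hψ hφ) x := by
  rw [H.map_comp φ hφ ψ hψ]
  rfl

theorem HFun.map_nsmul (H : HFun G) (φ : N →+ M) (hφ : IsEquivariant G φ) (n : ℕ) :
    H.map (n • φ) (IsEquivariant.nsmul hφ n) = n • H.map φ hφ := by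
  induction n with
  | zero =>
    rw [H.map_congr (zero_smul ℕ φ) _ (isEquivariant_zero G), H.map_zero, zero_smul]
  | succ n ih =>
    rw [H.map_congr (succ_nsmul φ n) _ (IsEquivariant.add (IsEquivariant.nsmul hφ n) hφ),
      H.map_add (n • φ) φ (IsEquivariant.nsmul hφ n) hφ, ih, succ_nsmul]

theorem isEquivariant_sum {ι : Type} (s : Finset ι) (φ : ι → (N →+ M))
    (hφ : ∀ k, IsEquivariant G (φ k)) : IsEquivariant G (∑ k ∈ s, φ k : N →+ M) := by
  classical
  induction s using Finset.induction_on with
  | empty =>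
    rw [Finset.sum_empty]
    exact isEquivariant_zero G
  | insert a s ha ih =>
    rw [Finset.sum_insert ha]
    exact IsEquivariant.add (hφ a) ih

theorem HFun.map_sum (H : HFun G) {ι : Type} (s : Finset ι) (φ : ι → (N →+ M))
    (hφ : ∀ k, IsEquivariant G (φ k)) :
    H.map (∑ k ∈ s, φ k) (isEquivariant_sum s φ hφ) = ∑ k ∈ s, H.map (φ k) (hφ k) := by
  classical
  induction s using Finset.induction_on with
  | empty =>
    rw [H.map_congr Finset.sum_empty _ (isEquivariant_zero G), H.map_zero, Finset.sum_empty]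
  | insert a s ha ih =>
    rw [H.map_congr (Finset.sum_insert ha) _
      (IsEquivariant.add (hφ a) (isEquivariant_sum s φ hφ)),
      H.map_add (φ a) (∑ k ∈ s, φ k) (hφ a) (isEquivariant_sum s φ hφ), ih,
      Finset.sum_insert ha]

/-- `H(0) = 0`. -/
theorem HFun.subsingleton_of_subsingleton (H : HFun G) (N : Type) [AddCommGroup N]
    [DistribMulAction G N] [Subsingleton N] : Subsingleton (H.obj N) := by
  refine subsingleton_of_forall_eq 0 fun x => ?_
  have h1 : H.map (AddMonoidHom.id N) (isEquivariant_id G) x = x := by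
    rw [H.map_id]
    rfl
  have h2 : AddMonoidHom.id N = 0 := AddMonoidHom.ext fun a => Subsingleton.elim _ _
  rw [H.map_congr h2 _ (isEquivariant_zero G), H.map_zero] at h1
  exact h1.symm

/-- A retract of a module with `H = 0` has `H = 0`. -/
theorem HFun.subsingleton_of_retract (H : HFun G) (i : N →+ M) (hi : IsEquivariant G i)
    (r : M →+ N) (hr : IsEquivariant G r) (h : ∀ x, r (i x) = x)
    (hM : Subsingleton (H.obj M)) : Subsingleton (H.obj N) := by
  refine subsingleton_of_forall_eq 0 fun x => ?_
  have h1 : H.map r hr (H.map i hi x) = x := by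
    rw [H.map_comp_apply, H.map_congr (AddMonoidHom.ext h : r.comp i = AddMonoidHom.id N) _
      (isEquivariant_id G), H.map_id]
    rfl
  rw [← h1, Subsingleton.elim (H.map i hi x) 0, _root_.map_zero]

theorem isEquivariant_symm (e : N ≃+ M) (he : IsEquivariant G e) : IsEquivariant G e.symm := by
  intro g a
  apply e.injective
  have h := he g (e.symm a)
  simp only [AddEquiv.apply_symm_apply] at h ⊢
  exact h.symm

/-- An equivariant isomorphism induces a bijection. -/
theorem HFun.bijective_map_equiv (H : HFun G) (e : N ≃+ M)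
    (he : IsEquivariant G e.toAddMonoidHom) : Function.Bijective (H.map e.toAddMonoidHom he) := by
  have hs : IsEquivariant G e.symm.toAddMonoidHom := isEquivariant_symm e he
  refine Function.bijective_iff_has_inverse.2 ⟨H.map e.symm.toAddMonoidHom hs, ?_, ?_⟩
  · intro x
    rw [H.map_comp_apply, H.map_congr (AddMonoidHom.ext fun a => e.symm_apply_apply a :
      e.symm.toAddMonoidHom.comp e.toAddMonoidHom = AddMonoidHom.id N) _
      (isEquivariant_id G), H.map_id]
    rfl
  · intro x
    rw [H.map_comp_apply, H.map_congr (AddMonoidHom.ext fun a => e.apply_symm_apply a :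
      e.toAddMonoidHom.comp e.symm.toAddMonoidHom = AddMonoidHom.id M) _
      (isEquivariant_id G), H.map_id]
    rfl

/-- Middle exactness: both ends vanish, so the middle vanishes. -/
theorem HFun.subsingleton_of_ses (H : HFun G) {U : Subgroup G} {p : ℕ}
    (hH : H.MiddleExactOn U p) {N₁ N₂ : Type} [AddCommGroup N₁] [DistribMulAction G N₁]
    [AddCommGroup N₂] [DistribMulAction G N₂] (i : N₁ →+ N) (π : N →+ N₂) (h : IsSES G i π)
    (h₁ : InC U p N₁) (hN : InC U p N) (h₂ : InC U p N₂)
    (s₁ : Subsingleton (H.obj N₁)) (s₂ : Subsingleton (H.obj N₂)) : Subsingleton (H.obj N) := by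
  refine subsingleton_of_forall_eq 0 fun y => ?_
  obtain ⟨z, hz⟩ := hH N₁ N N₂ i π h h₁ hN h₂ y (Subsingleton.elim _ _)
  rw [← hz, Subsingleton.elim z 0, _root_.map_zero]

end Fermat.Agent.S55.F2
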