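/-
S55 / FORMAL-F2, node N04 (Pi).  An additive functor commutes with finite products.
PROOF.  Inverse map: `(x_k) ↦ ∑ k, H.map (single k) (x_k)` with `single k = AddMonoidHom.single _ k`;
`eval k ∘ single j = δ_{jk}` and `∑ k, single k ∘ eval k = id`; use `HFun.map_sum`, `map_comp`, `map_id`,
`map_zero` (choose a `Fintype`/`DecidableEq` instance with `cases nonempty_fintype ι; classical`).
-/
import Fermat.Agent.S55.F2.Basic

set_option autoImplicit false

namespace Fermat.Agent.S55.F2

variable {G : Type} [Group G]

variable (H H' : HFun G) (ι : Type) (A : Type) [AddCommGroup A] [DistribMulAction G A]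

/-- The comparison map `H(A^ι) → H(A)^ι`. -/
def HFun.piMap : H.obj (ι → A) →+ (ι → H.obj A) where
  toFun x k := H.map (evalHom ι A k) (isEquivariant_evalHom G k) x
  map_zero' := funext fun _ => _root_.map_zero _
  map_add' x y := funext fun _ => _root_.map_add _ x y

@[simp] theorem HFun.piMap_apply (x : H.obj (ι → A)) (k : ι) :
    H.piMap ι A x k = H.map (evalHom ι A k) (isEquivariant_evalHom G k) x := rfl

section PiAux

variable {ι A} [DecidableEq ι]

/-- The inclusion of the `k`-th factor. -/
def Pi_singleHom (ι A : Type) [AddCommGroup A] [DecidableEq ι] (k : ι) : A →+ (ι → A) :=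
  AddMonoidHom.single (fun _ => A) k

theorem Pi_isEquivariant_singleHom (G : Type) [Group G] [DistribMulAction G A] (k : ι) :
    IsEquivariant G (Pi_singleHom ι A k) := fun g a => by
  funext j
  change (Pi.single k (g • a) : ι → A) j = g • (Pi.single k a : ι → A) j
  by_cases h : j = k
  · subst h; simp
  · simp [Pi.single_eq_of_ne h]

theorem Pi_eval_comp_single_same (k : ι) :
    (evalHom ι A k).comp (Pi_singleHom ι A k) = AddMonoidHom.id A := by
  ext a
  simp [Pi_singleHom]

theorem Pi_eval_comp_single_ne {j k : ι} (h : k ≠ j) :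
    (evalHom ι A k).comp (Pi_singleHom ι A j) = 0 := by
  ext a
  simp [Pi_singleHom, Pi.single_eq_of_ne h]

theorem Pi_sum_single_comp_eval [Fintype ι] :
    (∑ k, (Pi_singleHom ι A k).comp (evalHom ι A k) : (ι → A) →+ (ι → A)) =
      AddMonoidHom.id (ι → A) := by
  refine AddMonoidHom.ext fun x => funext fun j => ?_
  rw [AddMonoidHom.finsetSum_apply, Finset.sum_apply]
  simp only [AddMonoidHom.comp_apply, evalHom_apply, Pi_singleHom, AddMonoidHom.single_apply,
    AddMonoidHom.id_apply]
  rw [Finset.sum_eq_single j]
  · simp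
  · intro b _ hb
    exact Pi.single_eq_of_ne (Ne.symm hb) _
  · intro hj
    exact absurd (Finset.mem_univ j) hj

end PiAux

variable [Finite ι]

theorem HFun.piMap_bijective : Function.Bijective (H.piMap ι A) := by
  cases nonempty_fintype ι
  classical
  have hs := fun k : ι => Pi_isEquivariant_singleHom (ι := ι) (A := A) G k
  have he := fun k : ι => isEquivariant_evalHom (N := A) (ι := ι) G k
  -- the identity of `H(A^ι)` is the sum of the projectors
  have hid : ∀ x : H.obj (ι → A),
      x = ∑ k, H.map (Pi_singleHom ι A k) (hs k) (H.map (evalHom ι A k) (he k) x) := by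
    intro x
    have h1 := H.map_sum Finset.univ (fun k => (Pi_singleHom ι A k).comp (evalHom ι A k))
      (fun k => IsEquivariant.comp (hs k) (he k))
    have h2 : H.map (∑ k, (Pi_singleHom ι A k).comp (evalHom ι A k))
        (isEquivariant_sum Finset.univ _ (fun k => IsEquivariant.comp (hs k) (he k))) =
        AddMonoidHom.id _ := by
      rw [H.map_congr Pi_sum_single_comp_eval _ (isEquivariant_id G), H.map_id]
    rw [h2] at h1
    have h3 := DFunLike.congr_fun h1 x
    rw [AddMonoidHom.id_apply, AddMonoidHom.finsetSum_apply] at h3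
    refine h3.trans ?_
    exact Finset.sum_congr rfl fun k _ => (H.map_comp_apply _ (he k) _ (hs k) x).symm
  constructor
  · rw [injective_iff_map_eq_zero]
    intro x hx
    rw [hid x]
    refine Finset.sum_eq_zero fun k _ => ?_
    have : H.map (evalHom ι A k) (he k) x = 0 := congrFun hx k
    rw [this, _root_.map_zero]
  · intro y
    refine ⟨∑ j, H.map (Pi_singleHom ι A j) (hs j) (y j), ?_⟩
    funext k
    rw [HFun.piMap_apply, _root_.map_sum, Finset.sum_eq_single k]
    · rw [H.map_comp_apply, H.map_congr (Pi_eval_comp_single_same k) _ (isEquivariant_id G),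
        H.map_id]
      rfl
    · intro j _ hj
      rw [H.map_comp_apply, H.map_congr (Pi_eval_comp_single_ne (Ne.symm hj)) _
        (isEquivariant_zero G), H.map_zero]
      rfl
    · intro hk
      exact absurd (Finset.mem_univ k) hk

variable {H H'}

/-- Compatibility with natural transformations. -/
theorem NatT.piMap_app (α : NatT H H') (x : H.obj (ι → A)) (k : ι) :
    H'.piMap ι A (α.app (ι → A) x) k = α.app A (H.piMap ι A x k) := by
  rw [HFun.piMap_apply, HFun.piMap_apply, α.nat]

theorem NatT.bijective_pi (α : NatT H H') (h : Function.Bijective (α.app A)) :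
    Function.Bijective (α.app (ι → A)) := by
  constructor
  · intro x y hxy
    apply (H.piMap_bijective ι A).1
    funext k
    apply h.1
    rw [← α.piMap_app ι A, ← α.piMap_app ι A, hxy]
  · intro y
    choose z hz using fun k => h.2 (H'.piMap ι A y k)
    obtain ⟨x, hx⟩ := (H.piMap_bijective ι A).2 z
    refine ⟨x, (H'.piMap_bijective ι A).1 ?_⟩
    funext k
    rw [α.piMap_app ι A, hx, hz]

theorem NatT.surjective_pi (α : NatT H H') (h : Function.Surjective (α.app A)) :
    Function.Surjective (α.app (ι → A)) := by
  intro y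
  choose z hz using fun k => h (H'.piMap ι A y k)
  obtain ⟨x, hx⟩ := (H.piMap_bijective ι A).2 z
  refine ⟨x, (H'.piMap_bijective ι A).1 ?_⟩
  funext k
  rw [α.piMap_app ι A, hx, hz]

/-- Exactness of `H → H' → H''` passes to finite products. -/
theorem NatT.exact_pi {H'' : HFun G} (a : NatT H H') (b : NatT H' H'')
    (h : ∀ y : H'.obj A, b.app A y = 0 ↔ ∃ x, a.app A x = y) :
    ∀ y : H'.obj (ι → A), b.app (ι → A) y = 0 ↔ ∃ x, a.app (ι → A) x = y := by
  intro y
  constructor
  · intro hy
    have h1 : ∀ k, ∃ x, a.app A x = H'.piMap ι A y k := by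
      intro k
      rw [← h, ← b.piMap_app ι A, hy, _root_.map_zero]
      rfl
    choose z hz using h1
    obtain ⟨x, hx⟩ := (H.piMap_bijective ι A).2 z
    refine ⟨x, (H'.piMap_bijective ι A).1 ?_⟩
    funext k
    rw [a.piMap_app ι A, hx, hz]
  · rintro ⟨x, rfl⟩
    apply (H''.piMap_bijective ι A).1
    funext k
    rw [b.piMap_app ι A, a.piMap_app ι A, _root_.map_zero]
    exact (h _).2 ⟨_, rfl⟩

end Fermat.Agent.S55.F2
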