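/-
S55 / FORMAL-F2, node N22b (Kill).  "`A.map φ` kills the locally trivial classes" is stable under isomorphisms of maps and finite products.
PROOF.  `IsSha.map`: naturality of `loc q` and `map_zero`.  `kills_of_square`: `y = A(e) x` is locally trivial, `A(e')(A(φ) x) = A(ψ)(y) = 0`
(`HFun.map_comp_apply`, `HFun.map_congr`) and `A(e')` is injective (`HFun.bijective_map_equiv`).  `kills_pi`: `A(eval k) x` is locally trivial, so
`A(eval k)(A(ψ^κ) x) = A(ψ)(A(eval k) x) = 0` for all `k`; conclude by injectivity of `HFun.piMap` (`HFun.piMap_bijective`).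
-/
import Fermat.Agent.S55.F2.Defs2
import Fermat.Agent.S55.F2.Pi

set_option autoImplicit false

namespace Fermat.Agent.S55.F2

variable {G : Type} [Group G]

variable {ι : Type} {A : HFun G} {B : ι → HFun G} (loc : ∀ q, NatT A (B q))
variable {N N' M M' : Type} [AddCommGroup N] [DistribMulAction G N] [AddCommGroup N']
  [DistribMulAction G N'] [AddCommGroup M] [DistribMulAction G M] [AddCommGroup M']
  [DistribMulAction G M']

theorem IsSha.map {loc : ∀ q, NatT A (B q)} (φ : N →+ M) (hφ : IsEquivariant G φ) {x : A.obj N}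
    (hx : IsSha loc N x) : IsSha loc M (A.map φ hφ x) := by
  intro q
  rw [(loc q).nat φ hφ x, hx q, _root_.map_zero]

theorem kills_of_square (e : N ≃+ M) (he : IsEquivariant G e.toAddMonoidHom) (e' : N' ≃+ M')
    (he' : IsEquivariant G e'.toAddMonoidHom) (φ : N →+ N') (hφ : IsEquivariant G φ)
    (ψ : M →+ M') (hψ : IsEquivariant G ψ) (hsq : ∀ x, e' (φ x) = ψ (e x))
    (h : ∀ x, IsSha loc M x → A.map ψ hψ x = 0) :
    ∀ x, IsSha loc N x → A.map φ hφ x = 0 := by
  intro x hx
  have h1 := h _ (IsSha.map e.toAddMonoidHom he hx)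
  apply (A.bijective_map_equiv e' he').1
  rw [_root_.map_zero, ← h1, A.map_comp_apply, A.map_comp_apply]
  exact congrArg (fun f : A.obj N →+ A.obj M' => f x)
    (A.map_congr (AddMonoidHom.ext hsq) _ _)

theorem kills_pi (ψ : M →+ M') (hψ : IsEquivariant G ψ)
    (h : ∀ x, IsSha loc M x → A.map ψ hψ x = 0) (κ : Type) [Finite κ] :
    ∀ x, IsSha loc (κ → M) x → A.map (ψ.compLeft κ) (isEquivariant_compLeft hψ κ) x = 0 := by
  intro x hx
  apply (A.piMap_bijective κ M').1
  rw [_root_.map_zero]
  funext k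
  have h1 := h _ (IsSha.map (evalHom κ M k) (isEquivariant_evalHom G k) hx)
  rw [HFun.piMap_apply, Pi.zero_apply, ← h1, A.map_comp_apply, A.map_comp_apply]
  exact congrArg (fun f : A.obj (κ → M) →+ A.obj M' => f x)
    (A.map_congr (AddMonoidHom.ext fun _ => rfl) _ _)

end Fermat.Agent.S55.F2
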