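/-
S55 / FORMAL-F2, node N09 (Untwist) = blueprint F2(c).  `Map(X, F_p) ≃ Map(X, μ)` when there is an equivariant
`z : X → μ \ {0}`, `μ` a module of prime order `p`;  compatibility with push-forward and sum.
PROOF.  `e f x = (f x).val • z x`.  Additive: `p • _ = 0` in `μ` (`card_nsmul_eq_zero'`-type lemma from `hμ`).  Bijective: for
`m ≠ 0` in a group of prime order, `c ↦ c.val • m` is a bijection `ZMod p → μ` (injective since the order of `m` is `p`,
then count).  Equivariant: `(g • f) x = f (g⁻¹ • x)` (trivial action on `Fp p`), `g • z (g⁻¹ • x) = z x`.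
-/
import Fermat.Agent.S55.F2.Defs

set_option autoImplicit false

namespace Fermat.Agent.S55.F2

variable {G : Type} [Group G]

variable (p : ℕ) [Fact p.Prime] (μ : Type) [AddCommGroup μ] [DistribMulAction G μ]

theorem nsmul_eq_zero_of_card {p : ℕ} {μ : Type} [AddCommGroup μ] (hμ : Nat.card μ = p) [Fact p.Prime]
    (m : μ) : p • m = 0 := by
  rw [← hμ]
  exact card_nsmul_eq_zero'

/-- In a group of prime order, `c ↦ c.val • m` is a bijection for `m ≠ 0`. -/
theorem bijective_val_nsmul {p : ℕ} {μ : Type} [AddCommGroup μ] (hμ : Nat.card μ = p) [Fact p.Prime]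
    (m : μ) (hm : m ≠ 0) : Function.Bijective (fun c : ZMod p => c.val • m) := by
  have hp : p.Prime := Fact.out
  have hfin : Finite μ := Nat.finite_of_card_ne_zero (by rw [hμ]; exact hp.ne_zero)
  have hord : addOrderOf m = p := by
    have hdvd : addOrderOf m ∣ p := addOrderOf_dvd_of_nsmul_eq_zero (nsmul_eq_zero_of_card hμ m)
    rcases (Nat.dvd_prime hp).mp hdvd with h | h
    · exact absurd (AddMonoid.addOrderOf_eq_one_iff.mp h) hm
    · exact h
  have hinj : Function.Injective (fun c : ZMod p => c.val • m) := by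
    intro c d hcd
    have h1 : c.val ∈ Set.Iio (addOrderOf m) := by
      rw [hord]; exact ZMod.val_lt c
    have h2 : d.val ∈ Set.Iio (addOrderOf m) := by
      rw [hord]; exact ZMod.val_lt d
    exact ZMod.val_injective p (nsmul_injOn_Iio_addOrderOf h1 h2 hcd)
  refine hinj.bijective_of_nat_card_le ?_
  rw [hμ, Nat.card_zmod]

/-- Node Untwist, helper: `c ↦ c.val • m` as an additive map `Fp p →+ μ`. -/
def untwistValHom {p : ℕ} {μ : Type} [AddCommGroup μ] (hμ : Nat.card μ = p) [Fact p.Prime]
    (m : μ) : Fp p →+ μ where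
  toFun c := ((Fp.of p).symm c).val • m
  map_zero' := by
    rw [map_zero, ZMod.val_zero, zero_nsmul]
  map_add' a b := by
    rw [map_add, ZMod.val_add, ← add_nsmul]
    conv_rhs => rw [← Nat.mod_add_div (((Fp.of p).symm a).val + ((Fp.of p).symm b).val) p]
    rw [add_nsmul _ (_ % p), mul_nsmul, nsmul_eq_zero_of_card hμ m, smul_zero, add_zero]

theorem untwistValHom_apply {p : ℕ} {μ : Type} [AddCommGroup μ] (hμ : Nat.card μ = p)
    [Fact p.Prime] (m : μ) (c : Fp p) :
    untwistValHom hμ m c = ((Fp.of p).symm c).val • m := rfl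

theorem untwistValHom_bijective {p : ℕ} {μ : Type} [AddCommGroup μ] (hμ : Nat.card μ = p)
    [Fact p.Prime] (m : μ) (hm : m ≠ 0) : Function.Bijective (untwistValHom hμ m) :=
  (bijective_val_nsmul hμ m hm).comp (Fp.of p).symm.bijective

/-- The twisting isomorphism. -/
theorem exists_untwist (hμ : Nat.card μ = p) {X : Type} [MulAction G X] (z : X → μ)
    (hz : ∀ (g : G) (x : X), z (g • x) = g • z x) (hz0 : ∀ x, z x ≠ 0) :
    ∃ e : IndMod X (Fp p) ≃+ IndMod X μ, IsEquivariant G e.toAddMonoidHom ∧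
      ∀ (f : IndMod X (Fp p)) (x : X), e f x = ((Fp.of p).symm (f x)).val • z x := by
  let φ : IndMod X (Fp p) →+ IndMod X μ :=
    { toFun := fun f => IndMod.of fun x => untwistValHom hμ (z x) (f x)
      map_zero' := by
        ext x
        simp
      map_add' := fun f f' => by
        ext x
        simp }
  have hφ : ∀ (f : IndMod X (Fp p)) (x : X), φ f x = untwistValHom hμ (z x) (f x) :=
    fun _ _ => rfl
  have hbij : Function.Bijective φ := by
    constructor
    · intro f f' h
      ext x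
      apply (untwistValHom_bijective hμ (z x) (hz0 x)).1
      rw [← hφ, ← hφ, h]
    · intro h
      choose c hc using fun x => (untwistValHom_bijective hμ (z x) (hz0 x)).2 (h x)
      refine ⟨IndMod.of c, ?_⟩
      ext x
      rw [hφ]
      exact hc x
  refine ⟨AddEquiv.ofBijective φ hbij, ?_, fun f x => rfl⟩
  intro g f
  ext x
  change φ (g • f) x = g • φ f (g⁻¹ • x)
  rw [hφ, hφ, untwistValHom_apply, untwistValHom_apply, IndMod.smul_apply, Fp.smul_def,
    smul_comm g, ← hz, smul_inv_smul]

/-- The equivariant function `gV ↦ g • ζ` on `G ⧸ V` when `V` fixes `μ`. -/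
theorem exists_twist_quotient (V : Subgroup G) (hV : ActsTrivially V μ) (ζ : μ) :
    ∃ z : G ⧸ V → μ, (∀ (g : G) (x : G ⧸ V), z (g • x) = g • z x) ∧
      ∀ g : G, z (g : G ⧸ V) = g • ζ := by
  refine ⟨fun x => Quotient.liftOn' x (fun g => g • ζ) ?_, ?_, fun g => rfl⟩
  · intro a b h
    rw [QuotientGroup.leftRel_apply] at h
    have := hV _ h ζ
    change a • ζ = b • ζ
    rw [mul_smul, inv_smul_eq_iff] at this
    exact this.symm
  · intro g x
    induction x using QuotientGroup.induction_on with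
    | H a => exact mul_smul g a ζ

/-- Node Untwist, helper: a nonzero element. -/
theorem untwist_exists_ne_zero {p : ℕ} {μ : Type} [AddCommGroup μ] (hμ : Nat.card μ = p)
    [Fact p.Prime] : ∃ ζ : μ, ζ ≠ 0 := by
  have hp : p.Prime := Fact.out
  have hfin : Finite μ := Nat.finite_of_card_ne_zero (by rw [hμ]; exact hp.ne_zero)
  have : Nontrivial μ := Finite.one_lt_card_iff_nontrivial.mp (by rw [hμ]; exact hp.one_lt)
  exact exists_ne 0

/-- `IndMod (G ⧸ V) (Fp p) ≃ IndMod (G ⧸ V) μ` when `V` acts trivially on `μ`. -/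
theorem exists_untwist_quotient (hμ : Nat.card μ = p) (V : Subgroup G) (hV : ActsTrivially V μ) :
    ∃ e : IndMod (G ⧸ V) (Fp p) ≃+ IndMod (G ⧸ V) μ, IsEquivariant G e.toAddMonoidHom := by
  obtain ⟨ζ, hζ⟩ := untwist_exists_ne_zero hμ
  obtain ⟨z, hz, hzζ⟩ := exists_twist_quotient μ V hV ζ
  have hz0 : ∀ x, z x ≠ 0 := by
    intro x
    induction x using QuotientGroup.induction_on with
    | H a =>
      rw [hzζ]
      exact (smul_ne_zero_iff_ne a).mpr hζ
  obtain ⟨e, he, -⟩ := exists_untwist p μ hμ z hz hz0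
  exact ⟨e, he⟩

/-- Two levels: the twisting isomorphisms can be chosen compatibly with the push-forward. -/
theorem exists_untwist_push (hμ : Nat.card μ = p) (V' V : Subgroup G) [V'.FiniteIndex]
    (hle : V' ≤ V) (hV : ActsTrivially V μ) :
    ∃ (e' : IndMod (G ⧸ V') (Fp p) ≃+ IndMod (G ⧸ V') μ)
      (e : IndMod (G ⧸ V) (Fp p) ≃+ IndMod (G ⧸ V) μ),
      IsEquivariant G e'.toAddMonoidHom ∧ IsEquivariant G e.toAddMonoidHom ∧
      ∀ f, e (pushX (Fp p) (Subgroup.quotientMapOfLE hle) f)
        = pushX μ (Subgroup.quotientMapOfLE hle) (e' f) := by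
  obtain ⟨ζ, hζ⟩ := untwist_exists_ne_zero hμ
  obtain ⟨z, hz, hzζ⟩ := exists_twist_quotient μ V hV ζ
  have hz0 : ∀ x, z x ≠ 0 := by
    intro x
    induction x using QuotientGroup.induction_on with
    | H a =>
      rw [hzζ]
      exact (smul_ne_zero_iff_ne a).mpr hζ
  obtain ⟨e, he, hev⟩ := exists_untwist p μ hμ z hz hz0
  obtain ⟨e', he', hev'⟩ := exists_untwist p μ hμ (fun x => z (Subgroup.quotientMapOfLE hle x))
    (fun g x => by rw [quotientMapOfLE_smul, hz]) (fun x => hz0 _)
  refine ⟨e', e, he', he, fun f => ?_⟩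
  ext y
  rw [hev, pushX_apply, pushX_apply, ← untwistValHom_apply hμ,
    AddMonoidHom.map_finsum _ (Set.toFinite _)]
  refine finsum_congr fun x => ?_
  rw [hev', untwistValHom_apply, x.2]

end Fermat.Agent.S55.F2
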