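/-
S55 / FORMAL-F2, node N22a (UntwistCoeff).  Untwisting of the coefficients: if `V` acts trivially on the finite `F_p`-module `N` then
`IndMod (G ⧸ V) N ≃ (IndMod (G ⧸ V) (Fp p))^d`, compatibly with push-forward from a smaller `V'`.
PROOF.  `b : N ≃+ (Fin d → ZMod p)` from a basis (`AddCommGroup.zmodModule hp`, `Module.finBasis`/`Module.Free.chooseBasis`,
`Basis.equivFun`).  For a subgroup `W` acting trivially on `N` put `E_W f k = IndMod.of fun x => Fp.of p (b (x.out⁻¹ • f x) k)`.
For every `g` with `(g : G ⧸ W) = x` one has `g⁻¹ • n = x.out⁻¹ • n` (`g = x.out * w`, `w ∈ W`).  Inverse: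
`F ↦ IndMod.of fun x => x.out • b.symm (fun k => F k x)`.  Equivariance: `(g • f) x = g • f (g⁻¹ • x)` and
`x.out⁻¹ • g • n = (g⁻¹ • x).out⁻¹ • n`; the action on `Fp p` is trivial and the action on `Fin d → _` is componentwise.
Push-forward: for `x' ↦ x` (`quotientMapOfLE`), `x'.out⁻¹ • n = x.out⁻¹ • n` because `V` acts trivially; `b`, `smul` commute with finite sums
(`pushX_eq_sum` after `cases nonempty_fintype`, `classical`).  Use the SAME `b` for `V'` and `V`.
-/
import Fermat.Agent.S55.F2.Defs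

set_option autoImplicit false

namespace Fermat.Agent.S55.F2

variable {G : Type} [Group G]

theorem UntwistCoeff.exists_addEquiv_pi_of_module (p : ℕ) [Fact p.Prime] (N : Type)
    [AddCommGroup N] [Module (ZMod p) N] [Finite N] :
    ∃ d : ℕ, Nonempty (N ≃+ (Fin d → ZMod p)) :=
  ⟨_, ⟨(Module.finBasis (ZMod p) N).equivFun.toAddEquiv⟩⟩

theorem exists_addEquiv_pi (p : ℕ) [Fact p.Prime] (N : Type) [AddCommGroup N] [Finite N]
    (hp : ∀ x : N, p • x = 0) : ∃ d : ℕ, Nonempty (N ≃+ (Fin d → ZMod p)) := by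
  exact @UntwistCoeff.exists_addEquiv_pi_of_module p _ N _ (AddCommGroup.zmodModule hp) _

/-- the chosen representative acts like any representative -/
theorem UntwistCoeff.out_inv_smul {N : Type} [AddCommGroup N] [DistribMulAction G N]
    {W : Subgroup G} (hW : ActsTrivially W N) (g : G) (n : N) :
    ((g : G ⧸ W).out)⁻¹ • n = g⁻¹ • n := by
  obtain ⟨h, hh⟩ := QuotientGroup.mk_out_eq_mul W g
  rw [hh, mul_inv_rev, mul_smul]
  exact hW _ (W.inv_mem h.2) _

/-- The untwisting equivalence attached to a coordinate system `b` of `N`. -/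
noncomputable def UntwistCoeff.equiv {p d : ℕ} {N : Type} [AddCommGroup N] [DistribMulAction G N]
    (b : N ≃+ (Fin d → ZMod p)) (W : Subgroup G) :
    IndMod (G ⧸ W) N ≃+ (Fin d → IndMod (G ⧸ W) (Fp p)) where
  toFun f k := IndMod.of fun x => Fp.of p (b (x.out⁻¹ • f x) k)
  invFun F := IndMod.of fun x => x.out • b.symm (fun k => (Fp.of p).symm (F k x))
  left_inv f := by
    ext x
    simp
  right_inv F := by
    ext k x
    simp
  map_add' f f' := by
    ext k x
    simp [smul_add]

theorem UntwistCoeff.equiv_apply {p d : ℕ} {N : Type} [AddCommGroup N] [DistribMulAction G N]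
    (b : N ≃+ (Fin d → ZMod p)) (W : Subgroup G) (f : IndMod (G ⧸ W) N) (k : Fin d) (x : G ⧸ W) :
    UntwistCoeff.equiv b W f k x = Fp.of p (b (x.out⁻¹ • f x) k) := rfl

theorem UntwistCoeff.equiv_equivariant {p d : ℕ} {N : Type} [AddCommGroup N]
    [DistribMulAction G N] (b : N ≃+ (Fin d → ZMod p)) {W : Subgroup G}
    (hW : ActsTrivially W N) : IsEquivariant G (UntwistCoeff.equiv b W).toAddMonoidHom := by
  intro g f
  ext k x
  show UntwistCoeff.equiv b W (g • f) k x = g • (UntwistCoeff.equiv b W f k (g⁻¹ • x))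
  rw [Fp.smul_def, UntwistCoeff.equiv_apply, UntwistCoeff.equiv_apply, IndMod.smul_apply]
  induction x using QuotientGroup.induction_on with
  | H a =>
    have h1 : g⁻¹ • (a : G ⧸ W) = ((g⁻¹ * a : G) : G ⧸ W) := rfl
    rw [h1, UntwistCoeff.out_inv_smul hW, UntwistCoeff.out_inv_smul hW, mul_inv_rev, inv_inv,
      mul_smul]

theorem exists_untwist_coeff_push (p : ℕ) [Fact p.Prime] (N : Type) [AddCommGroup N]
    [DistribMulAction G N] [Finite N] (hp : ∀ x : N, p • x = 0) (V' V : Subgroup G)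
    [V'.FiniteIndex] (hle : V' ≤ V) (hV : ActsTrivially V N) :
    ∃ (d : ℕ) (E' : IndMod (G ⧸ V') N ≃+ (Fin d → IndMod (G ⧸ V') (Fp p)))
      (E : IndMod (G ⧸ V) N ≃+ (Fin d → IndMod (G ⧸ V) (Fp p))),
      IsEquivariant G E'.toAddMonoidHom ∧ IsEquivariant G E.toAddMonoidHom ∧
      ∀ (f : IndMod (G ⧸ V') N) (k : Fin d),
        E (pushX N (Subgroup.quotientMapOfLE hle) f) k
          = pushX (Fp p) (Subgroup.quotientMapOfLE hle) (E' f k) := by
  obtain ⟨d, ⟨b⟩⟩ := exists_addEquiv_pi p N hp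
  have hV' : ActsTrivially V' N := fun v hv m => hV v (hle hv) m
  refine ⟨d, UntwistCoeff.equiv b V', UntwistCoeff.equiv b V,
    UntwistCoeff.equiv_equivariant b hV', UntwistCoeff.equiv_equivariant b hV, fun f k => ?_⟩
  classical
  cases nonempty_fintype (G ⧸ V')
  ext y
  rw [UntwistCoeff.equiv_apply, pushX_eq_sum, pushX_eq_sum, Finset.smul_sum, map_sum,
    Finset.sum_apply, map_sum]
  refine Finset.sum_congr rfl fun x hx => ?_
  rw [Finset.mem_filter] at hx
  rw [UntwistCoeff.equiv_apply, ← hx.2]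
  induction x using QuotientGroup.induction_on with
  | H a =>
    have h1 : Subgroup.quotientMapOfLE hle (a : G ⧸ V') = (a : G ⧸ V) := rfl
    rw [h1, UntwistCoeff.out_inv_smul hV, UntwistCoeff.out_inv_smul hV']

end Fermat.Agent.S55.F2
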