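/-
S55 / FORMAL-F2, node N22 (C4).  (T5) for `μ` implies (C4) for all coefficient modules.
PROOF.  `N` good, `U ∈ 𝓝`.  Choose `U₁ ∈ 𝓝`, `U₁ ≤ U`, acting trivially on `μ`, with `InC U₁ p N` (`exists_level_actsTrivially`, `Good.exists_inC`).
`hT5 U₁` gives `U' ≤ U₁` such that `push_μ : IndMod (G ⧸ U') μ → IndMod (G ⧸ U₁) μ` kills the locally trivial classes.
(a) `push_{Fp}` kills them: `kills_of_square` with `exists_untwist_push`.  (b) `(push_{Fp}).compLeft (Fin d)` kills them: `kills_pi`.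
(c) `push_N` kills them: `kills_of_square` with `exists_untwist_coeff_push` (square: `funext k`).
(d) `sumX (G ⧸ U') N = (sumX (G ⧸ U₁) N).comp push_N` (`sumX_pushX`), so `A(sum) x = A(sum₁)(A(push_N) x) = 0`.
-/
import Fermat.Agent.S55.F2.Kill
import Fermat.Agent.S55.F2.UntwistCoeff
import Fermat.Agent.S55.F2.Untwist
import Fermat.Agent.S55.F2.InC

set_option autoImplicit false

namespace Fermat.Agent.S55.F2

variable {G : Type} [Group G]

theorem sumX_pushX {X Y : Type} (A : Type) [AddCommGroup A] [Finite X] [Finite Y] (π : X → Y)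
    (f : IndMod X A) : sumX Y A (pushX A π f) = sumX X A f := by
  classical
  cases nonempty_fintype X
  cases nonempty_fintype Y
  rw [sumX_eq_sum, sumX_eq_sum]
  have h : ∀ y, pushX A π f y = ∑ x with π x = y, f x := fun y => pushX_eq_sum π f y
  rw [Finset.sum_congr rfl fun y _ => h y]
  exact Finset.sum_fiberwise Finset.univ π fun x => f x

theorem c4_of_t5 (𝓝 : LevelSys G) (p : ℕ) [Fact p.Prime] (μ : Type) [AddCommGroup μ]
    [DistribMulAction G μ] (hμ : Nat.card μ = p) [Smooth 𝓝 μ] {ι : Type}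
    {A : HFun G} {B : ι → HFun G} (loc : ∀ q, NatT A (B q))
    (hT5 : ∀ U ∈ 𝓝.carrier, ActsTrivially U μ →
      ∃ U' ∈ 𝓝.carrier, ∃ h : U' ≤ U, ∃ _ : Finite (G ⧸ U'),
        ∀ x : A.obj (IndMod (G ⧸ U') μ), IsSha loc _ x →
          A.map (pushX μ (Subgroup.quotientMapOfLE h))
            (isEquivariant_pushX G μ _ (quotientMapOfLE_smul h)) x = 0)
    (N : Type) [AddCommGroup N] [DistribMulAction G N] (hN : Good 𝓝 p N)
    (U : Subgroup G) (hU : U ∈ 𝓝.carrier) :
    ∃ U' ∈ 𝓝.carrier, U' ≤ U ∧ ∃ _ : Finite (G ⧸ U'),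
      ∀ x : A.obj (IndMod (G ⧸ U') N), IsSha loc _ x →
        A.map (sumX (G ⧸ U') N) (isEquivariant_sumX G N (G ⧸ U')) x = 0 := by
  have hp : p.Prime := Fact.out
  have hfinN : Finite N := hN.finite
  have hfinμ : Finite μ := Nat.finite_of_card_ne_zero (hμ ▸ hp.ne_zero)
  obtain ⟨U₀, hU₀, hU₀le, hU₀μ⟩ := exists_level_actsTrivially 𝓝 μ U hU
  obtain ⟨U₁, hU₁, hU₁le, hInC⟩ := Good.exists_inC hN U₀ hU₀
  have hU₁μ : ActsTrivially U₁ μ := fun v hv m => hU₀μ v (hU₁le hv) m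
  obtain ⟨U', hU', hle, hfin, hkill⟩ := hT5 U₁ hU₁ hU₁μ
  have hfi' : U'.FiniteIndex := 𝓝.finiteIndex U' hU'
  have hfi₁ : U₁.FiniteIndex := 𝓝.finiteIndex U₁ hU₁
  have hfin₁ : Finite (G ⧸ U₁) := inferInstance
  -- (a)
  obtain ⟨e', e, he', he, hsq⟩ := exists_untwist_push p μ hμ U' U₁ hle hU₁μ
  have ha := kills_of_square loc e' he' e he (pushX (Fp p) (Subgroup.quotientMapOfLE hle))
    (isEquivariant_pushX G (Fp p) _ (quotientMapOfLE_smul hle))
    (pushX μ (Subgroup.quotientMapOfLE hle))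
    (isEquivariant_pushX G μ _ (quotientMapOfLE_smul hle)) hsq hkill
  -- (c), using (b)
  obtain ⟨d, E', E, hE', hE, hsqE⟩ :=
    exists_untwist_coeff_push p N hInC.ptors U' U₁ hle hInC.triv
  have hb := kills_pi loc (pushX (Fp p) (Subgroup.quotientMapOfLE hle))
    (isEquivariant_pushX G (Fp p) _ (quotientMapOfLE_smul hle)) ha (Fin d)
  have hc := kills_of_square loc E' hE' E hE (pushX N (Subgroup.quotientMapOfLE hle))
    (isEquivariant_pushX G N _ (quotientMapOfLE_smul hle))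
    ((pushX (Fp p) (Subgroup.quotientMapOfLE hle)).compLeft (Fin d))
    (isEquivariant_compLeft (isEquivariant_pushX G (Fp p) _ (quotientMapOfLE_smul hle)) (Fin d))
    (fun f => funext fun k => hsqE f k) hb
  -- (d)
  refine ⟨U', hU', hle.trans (hU₁le.trans hU₀le), hfin, fun x hx => ?_⟩
  have hcomp : sumX (G ⧸ U') N
      = (sumX (G ⧸ U₁) N).comp (pushX N (Subgroup.quotientMapOfLE hle)) := by
    ext f
    exact (sumX_pushX N (Subgroup.quotientMapOfLE hle) f).symm
  rw [HFun.map_congr A hcomp _ (IsEquivariant.comp (isEquivariant_sumX G N (G ⧸ U₁))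
    (isEquivariant_pushX G N _ (quotientMapOfLE_smul hle))),
    ← HFun.map_comp_apply A _ (isEquivariant_pushX G N _ (quotientMapOfLE_smul hle)) _
      (isEquivariant_sumX G N (G ⧸ U₁)), hc x hx, map_zero]

end Fermat.Agent.S55.F2
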