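/-
S55 / block FORMAL-F2 (sub-architect helper121).  The concrete functors on `GQ`-modules used to deduce
`Contract S p` from `ArithInput S p`.  Definitions and `rfl`-lemmas only.
-/
import Fermat.Agent.S55.F2.Defs2
import Fermat.Agent.S55.Formal.Contract

set_option autoImplicit false

namespace Fermat.Agent.S55.F2

/-- `N ↦ H^n_S(N)`. -/
@[reducible] noncomputable def AS (S : Finset Nat.Primes) (n : ℕ) : HFun GQ := hsmFun (lvlS S) n

/-- `N ↦ H^n_q(N)`. -/
@[reducible] noncomputable def BQ (q : Nat.Primes) (n : ℕ) : HFun GQ :=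
  resFun (ιv q) (hsmFun (lvlLoc q) n)

/-- The localisation maps as natural transformations. -/
noncomputable def locN (S : Finset Nat.Primes) (n : ℕ) (q : ↥S) : NatT (AS S n) (BQ q.1 n) :=
  resNat (ιv q.1) (lvlLoc q.1) (lvlS S) (lvlS_comap_le_lvlLoc S q.1) n

theorem locN_app (S : Finset Nat.Primes) (n : ℕ) (q : ↥S) (N : Type) [AddCommGroup N]
    [DistribMulAction GQ N] : (locN S n q).app N = locS S N q.1 n := rfl

theorem isSha_iff (S : Finset Nat.Primes) (n : ℕ) (N : Type) [AddCommGroup N]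
    [DistribMulAction GQ N] (x : Hsm (lvlS S) N n) :
    IsSha (locN S n) N x ↔ x ∈ Sha S N n := mem_Sha_iff.symm

theorem good_iff {S : Finset Nat.Primes} {p : ℕ} {N : Type} [AddCommGroup N]
    [DistribMulAction GQ N] : Good (lvlS S) p N ↔ IsCoef S p N :=
  ⟨fun h => ⟨h.finite, h.ptors, h.smooth⟩, fun h => ⟨h.finite, h.ptors, h.smooth⟩⟩

theorem actsTrivially_iff {U : Subgroup GQ} {A : Type} [AddCommGroup A] [DistribMulAction GQ A] :
    ActsTrivially U A ↔ Fermat.Agent.S55.ActsTrivially U A := Iff.rfl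

theorem AS_map (S : Finset Nat.Primes) (n : ℕ) {N N' : Type} [AddCommGroup N]
    [DistribMulAction GQ N] [AddCommGroup N'] [DistribMulAction GQ N'] (φ : N →+[GQ] N') :
    (AS S n).map (φ : N →+ N') (isEquivariant_coe φ) = Hsm.map φ n := rfl

theorem BQ_map (q : Nat.Primes) (n : ℕ) {N N' : Type} [AddCommGroup N]
    [DistribMulAction GQ N] [AddCommGroup N'] [DistribMulAction GQ N'] (φ : N →+[GQ] N') :
    (BQ q n).map (φ : N →+ N') (isEquivariant_coe φ) = Hsm.map (ResMod.map (ιv q) φ) n := rfl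

theorem quotProj_eq {U' U : Subgroup GQ} (h : U' ≤ U) :
    (quotProj h : GQ ⧸ U' → GQ ⧸ U) = Subgroup.quotientMapOfLE h := rfl

end Fermat.Agent.S55.F2
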