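/-
S55 / FORMAL-F2, node Z4 (FinalC4).  (C4) from (T5).
PROOF.  `c4_of_t5 (lvlS S) p (Mu p) I.cardMu (locN S 2)` with `hT5` := `I.T5` (`isSha_iff`, `quotProj_eq`, `pushX_eq_push`, `AS_map` are `rfl`-lemmas in
`FinalDefs.lean` / `Defs2.lean`; use `HFun.map_congr` or `Hsm.map_congr` if a proof term differs), then translate the conclusion with `isSha_iff`, `sumX_eq_sum'`.
-/
import Fermat.Agent.S55.F2.FinalDefs
import Fermat.Agent.S55.F2.C4

set_option autoImplicit false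

namespace Fermat.Agent.S55.F2

variable {S : Finset Nat.Primes} {p : ℕ} [Fact p.Prime]

theorem final_C4 (I : ArithInput S p) (N : Type) [AddCommGroup N] [DistribMulAction GQ N]
    (hN : IsCoef S p N) (U : Subgroup GQ) (hU : U ∈ (lvlS S).carrier) :
    ∃ U' ∈ (lvlS S).carrier, U' ≤ U ∧ ∃ _ : Finite (GQ ⧸ U'),
      ∀ x ∈ Sha S (IndMod (GQ ⧸ U') N) 2, Hsm.map (IndMod.sum (GQ ⧸ U') N) 2 x = 0 := by
  have : Smooth (lvlS S) (Mu p) := I.coefMu.smooth
  obtain ⟨U', hU', hle, hfin, h⟩ := c4_of_t5 (lvlS S) p (Mu p) I.cardMu (locN S 2)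
    (by
      intro U hU htriv
      obtain ⟨U', hU', h, hfin, hx⟩ := I.T5 U hU htriv
      refine ⟨U', hU', h, hfin, fun x hsha => ?_⟩
      exact hx x ((isSha_iff S 2 _ x).1 hsha))
    N (good_iff.2 hN) U hU
  refine ⟨U', hU', hle, hfin, fun x hx => ?_⟩
  exact h x ((isSha_iff S 2 _ x).2 hx)

end Fermat.Agent.S55.F2
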