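/-
S55 / FORMAL-F2, node N23 (Transport).  Transport of properties along equivariant isomorphisms, restriction of functors along
`f : Γ →* G`, products of functors.  All proofs are direct (naturality + `HFun.bijective_map_equiv`; unfolding of `resFun`, `prodFun`).
-/
import Fermat.Agent.S55.F2.Defs2
import Fermat.Agent.S55.F2.Basic
import Fermat.Agent.S55.F2.InC

set_option autoImplicit false

namespace Fermat.Agent.S55.F2

variable {G : Type} [Group G]

section equiv

variable {H H' H'' : HFun G} {N M : Type} [AddCommGroup N] [DistribMulAction G N] [AddCommGroup M]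
  [DistribMulAction G M]

theorem NatT.bijective_of_equiv (α : NatT H H') (e : N ≃+ M) (he : IsEquivariant G e.toAddMonoidHom)
    (h : Function.Bijective (α.app M)) : Function.Bijective (α.app N) := by
  have h1 := H.bijective_map_equiv e he
  have h2 := H'.bijective_map_equiv e he
  have h3 : (H'.map e.toAddMonoidHom he) ∘ (α.app N) = (α.app M) ∘ (H.map e.toAddMonoidHom he) :=
    funext fun x => (α.nat e.toAddMonoidHom he x).symm
  have h4 : Function.Bijective ((H'.map e.toAddMonoidHom he) ∘ (α.app N)) := by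
    rw [h3]
    exact h.comp h1
  exact (Function.Bijective.of_comp_iff' h2 _).mp h4

theorem NatT.surjective_of_equiv (α : NatT H H') (e : N ≃+ M)
    (he : IsEquivariant G e.toAddMonoidHom)
    (h : Function.Surjective (α.app M)) : Function.Surjective (α.app N) := by
  have h1 := H.bijective_map_equiv e he
  have h2 := H'.bijective_map_equiv e he
  intro y
  obtain ⟨x, hx⟩ := h (H'.map e.toAddMonoidHom he y)
  obtain ⟨x', rfl⟩ := h1.2 x
  refine ⟨x', h2.1 ?_⟩
  rw [← α.nat e.toAddMonoidHom he x', hx]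

theorem NatT.exact_of_equiv (a : NatT H H') (b : NatT H' H'') (e : N ≃+ M)
    (he : IsEquivariant G e.toAddMonoidHom)
    (h : ∀ y : H'.obj M, b.app M y = 0 ↔ ∃ x, a.app M x = y) :
    ∀ y : H'.obj N, b.app N y = 0 ↔ ∃ x, a.app N x = y := by
  have h1 := H.bijective_map_equiv e he
  have h2 := H'.bijective_map_equiv e he
  have h3 := H''.bijective_map_equiv e he
  intro y
  constructor
  · intro hy
    have hy' : b.app M (H'.map e.toAddMonoidHom he y) = 0 := by
      rw [b.nat e.toAddMonoidHom he y, hy, map_zero]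
    obtain ⟨x, hx⟩ := (h _).mp hy'
    obtain ⟨x', rfl⟩ := h1.2 x
    refine ⟨x', h2.1 ?_⟩
    rw [← a.nat e.toAddMonoidHom he x', hx]
  · rintro ⟨x, rfl⟩
    apply h3.1
    rw [map_zero, ← b.nat e.toAddMonoidHom he, ← a.nat e.toAddMonoidHom he]
    exact (h _).mpr ⟨_, rfl⟩

end equiv

section res

variable {Γ : Type} [Group Γ] (f : Γ →* G)

theorem IsSES.res {N₁ N N₂ : Type} [AddCommGroup N₁] [DistribMulAction G N₁]
    [AddCommGroup N] [DistribMulAction G N] [AddCommGroup N₂] [DistribMulAction G N₂]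
    {i : N₁ →+ N} {π : N →+ N₂} (h : IsSES G i π) : IsSES Γ (resMap f i) (resMap f π) where
  equiv_i := resMap_equivariant f h.equiv_i
  equiv_π := resMap_equivariant f h.equiv_π
  inj := h.inj
  surj := h.surj
  exact := h.exact

theorem resFun_preservesSurjOn (H : HFun Γ) (U : Subgroup G) (p : ℕ)
    (h : H.PreservesSurjOn (U.comap f) p) : (resFun f H).PreservesSurjOn U p := by
  intro N N₂ _ _ _ _ π hπ hN hN₂ hs
  exact h (ResMod f N) (ResMod f N₂) (resMap f π) (resMap_equivariant f hπ) (hN.res f)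
    (hN₂.res f) hs

theorem resFun_middleExactOn (H : HFun Γ) (U : Subgroup G) (p : ℕ)
    (h : H.MiddleExactOn (U.comap f) p) : (resFun f H).MiddleExactOn U p := by
  intro N₁ N N₂ _ _ _ _ _ _ i π hs h₁ hN h₂ y hy
  exact h (ResMod f N₁) (ResMod f N) (ResMod f N₂) (resMap f i) (resMap f π) (hs.res f)
    (h₁.res f) (hN.res f) (h₂.res f) y hy

theorem resFun_surjOfVanish (H₂ H₃ : HFun Γ) (U : Subgroup G) (p : ℕ)
    (h : HFun.SurjOfVanish H₂ H₃ (U.comap f) p) :
    HFun.SurjOfVanish (resFun f H₂) (resFun f H₃) U p := by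
  intro N₁ N N₂ _ _ _ _ _ _ i π hs h₁ hN h₂ hv
  exact h (ResMod f N₁) (ResMod f N) (ResMod f N₂) (resMap f i) (resMap f π) (hs.res f)
    (h₁.res f) (hN.res f) (h₂.res f) hv

end res

theorem prodFun_preservesSurjOn {ι : Type} (B : ι → HFun G) (U : Subgroup G) (p : ℕ)
    (h : ∀ q, (B q).PreservesSurjOn U p) : (prodFun B).PreservesSurjOn U p := by
  intro N N₂ _ _ _ _ π hπ hN hN₂ hs y
  choose x hx using fun q => h q N N₂ π hπ hN hN₂ hs (y q)
  exact ⟨x, funext hx⟩

end Fermat.Agent.S55.F2
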