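/-
S55 / FORMAL-F2, node I2 (HsmExact).  The functors `hsmFun 𝓝 n` satisfy the exactness hypotheses of the abstract core
(from the long exact sequence of `Coh/LESExact.lean`: `Hsm.exact_map_map`, `Hsm.map_surjective_of_zero`).
-/
import Fermat.Agent.S55.F2.Defs2
import Fermat.Agent.S55.Coh.LESExact
import Fermat.Agent.S55.F2.Transport

set_option autoImplicit false

namespace Fermat.Agent.S55.F2

variable {G : Type} [Group G]

theorem InC.smooth (𝓝 : LevelSys G) {U : Subgroup G} (hU : 𝓝.IsOpen U) {p : ℕ} {N : Type}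
    [AddCommGroup N] [DistribMulAction G N] (hN : InC U p N) : Smooth 𝓝 N := by
  obtain ⟨V, hV, hVU⟩ := hU
  exact ⟨fun a => ⟨V, hV, fun n hn => hN.triv n (hVU hn) a⟩⟩

theorem IsSES.shortExact {N₁ N N₂ : Type} [AddCommGroup N₁] [DistribMulAction G N₁]
    [AddCommGroup N] [DistribMulAction G N] [AddCommGroup N₂] [DistribMulAction G N₂]
    {i : N₁ →+ N} {π : N →+ N₂} (h : IsSES G i π) :
    ShortExact (mkHom i h.equiv_i) (mkHom π h.equiv_π) :=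
  ⟨h.inj, h.exact, h.surj⟩

theorem hsmFun_middleExactOn (𝓝 : LevelSys G) (n : ℕ) (U : Subgroup G) (hU : 𝓝.IsOpen U) (p : ℕ) :
    (hsmFun 𝓝 n).MiddleExactOn U p := by
  intro N₁ N N₂ _ _ _ _ _ _ i π h _ hN _ y hy
  haveI : Smooth 𝓝 N := InC.smooth 𝓝 hU hN
  exact (Hsm.exact_map_map (𝓝 := 𝓝) h.shortExact n y).1 hy

theorem hsmFun_surjOfVanish (𝓝 : LevelSys G) (n : ℕ) (U : Subgroup G) (hU : 𝓝.IsOpen U) (p : ℕ) :
    HFun.SurjOfVanish (hsmFun 𝓝 n) (hsmFun 𝓝 (n + 1)) U p := by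
  intro N₁ N N₂ _ _ _ _ _ _ i π h _ hN _ hsub
  haveI : Smooth 𝓝 N := InC.smooth 𝓝 hU hN
  exact Hsm.map_surjective_of_zero (𝓝 := 𝓝) h.shortExact n fun y => hsub.elim y 0

variable {Γ : Type} [Group Γ]

theorem resFun_hsmFun_middleExactOn (f : Γ →* G) (𝓜 : LevelSys Γ) (n : ℕ) (U : Subgroup G)
    (hU : 𝓜.IsOpen (U.comap f)) (p : ℕ) : (resFun f (hsmFun 𝓜 n)).MiddleExactOn U p :=
  resFun_middleExactOn f (hsmFun 𝓜 n) U p (hsmFun_middleExactOn 𝓜 n (U.comap f) hU p)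

theorem resFun_hsmFun_surjOfVanish (f : Γ →* G) (𝓜 : LevelSys Γ) (n : ℕ) (U : Subgroup G)
    (hU : 𝓜.IsOpen (U.comap f)) (p : ℕ) :
    HFun.SurjOfVanish (resFun f (hsmFun 𝓜 n)) (resFun f (hsmFun 𝓜 (n + 1))) U p :=
  resFun_surjOfVanish f (hsmFun 𝓜 n) (hsmFun 𝓜 (n + 1)) U p
    (hsmFun_surjOfVanish 𝓜 n (U.comap f) hU p)

end Fermat.Agent.S55.F2
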