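/-
S55 / FORMAL-F2, node N03 (Ker).  The kernel of an equivariant surjection gives a short exact sequence;
`PreservesSurjOn` from the vanishing of the next functor.
-/
import Fermat.Agent.S55.F2.InC

set_option autoImplicit false

namespace Fermat.Agent.S55.F2

variable {G : Type} [Group G]

variable {N N₂ : Type} [AddCommGroup N] [DistribMulAction G N] [AddCommGroup N₂]
  [DistribMulAction G N₂]

theorem isSES_ker (π : N →+ N₂) (hπ : IsEquivariant G π) (hs : Function.Surjective π) :
    IsSES G (kerSub π hπ).incl π := by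
  refine ⟨isEquivariant_incl _, hπ, GSub.incl_injective _, hs, fun x => ⟨fun hx => ?_, ?_⟩⟩
  · exact ⟨(kerSub π hπ).mkMod x ((mem_kerSub π hπ x).mpr hx), rfl⟩
  · rintro ⟨y, rfl⟩
    exact (mem_kerSub π hπ _).mp ((kerSub π hπ).incl_mem y)

/-- (RE), abstract form: `H₃ = 0` on the class implies that `H₂` preserves surjections. -/
theorem HFun.preservesSurjOn_of_vanish (H₂ H₃ : HFun G) (U : Subgroup G) (p : ℕ)
    (h : HFun.SurjOfVanish H₂ H₃ U p)
    (hv : ∀ (N : Type) [AddCommGroup N] [DistribMulAction G N], InC U p N →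
      Subsingleton (H₃.obj N)) : H₂.PreservesSurjOn U p := by
  intro N N₂ _ _ _ _ π hπ hN hN₂ hs
  have hK : InC U p (kerSub π hπ).Mod := InC.gsubMod (kerSub π hπ) hN
  exact h (kerSub π hπ).Mod N N₂ (kerSub π hπ).incl π (isSES_ker π hπ hs) hK hN hN₂
    (hv _ hK)

end Fermat.Agent.S55.F2
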