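/-
S55 / FORMAL-F2, node N13 (IndSub).  The modules `indSub P W` = "Ind_P^G W" inside `IndMod (G ⧸ P) N` (see `Defs.lean`).
`indSub_step`: `i` = inclusion (`GSub.mkMod` of `incl`), `π F = IndMod.of fun x => Fp.of p (l (x.out⁻¹ • (incl F) x))`.
* `π` does not depend on the representative: for `g` with `(g : G ⧸ P) = x`, `g = x.out * u`, `u ∈ P`, and
  `l (g⁻¹ • v) = l (u⁻¹ • x.out⁻¹ • v) = l (x.out⁻¹ • v)` because `x.out⁻¹ • v ∈ W`.  So `π F (g : G ⧸ P) = l (g⁻¹ • F g)`.
* equivariance: `(h • F) (gP) = h • F (h⁻¹ g P)`, `g⁻¹ • h • F (h⁻¹gP) = (h⁻¹g)⁻¹ • F (h⁻¹gP)`; the action on `Fp p` is trivial.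
* surjective: given `φ`, `F x = (φ x).val • (x.out • w₀)` with `l w₀ = 1`; it lies in `indSub P W` since `W` is `P`-stable.
* exact: `π F = 0` iff `g⁻¹ • F (gP) ∈ W ⊓ ker l` for all `g`.
(proofs: helper99)
-/
import Fermat.Agent.S55.F2.Defs

set_option autoImplicit false

namespace Fermat.Agent.S55.F2

variable {G : Type} [Group G]

variable {N : Type} [AddCommGroup N] [DistribMulAction G N]

theorem indSub_top_surjective (P : Subgroup G) :
    Function.Surjective (indSub P (⊤ : AddSubgroup N)).incl := by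
  intro F
  exact ⟨(indSub P (⊤ : AddSubgroup N)).mkMod F (fun _ => AddSubgroup.mem_top _), rfl⟩

theorem indSub_bot_subsingleton (P : Subgroup G) :
    Subsingleton (indSub P (⊥ : AddSubgroup N)).Mod := by
  have key : ∀ b : (indSub P (⊥ : AddSubgroup N)).Mod,
      (indSub P (⊥ : AddSubgroup N)).incl b = 0 := by
    intro b
    ext x
    induction x using QuotientGroup.induction_on with
    | H g =>
      have h := (indSub P (⊥ : AddSubgroup N)).incl_mem b g
      rw [AddSubgroup.mem_bot] at h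
      rw [IndMod.zero_apply]
      exact (smul_eq_zero_iff_eq g⁻¹).mp h
  exact ⟨fun a b => (indSub P (⊥ : AddSubgroup N)).incl_injective (by rw [key a, key b])⟩

/-- the value `l (g⁻¹ • F (gP))` does not depend on the representative. -/
theorem IndSub_l_out (P : Subgroup G) (W : AddSubgroup N) {M : Type} [AddCommGroup M] (l : N →+ M)
    (hl : ∀ g ∈ P, ∀ w ∈ W, l (g • w) = l w) (F : IndMod (G ⧸ P) N)
    (hF : F ∈ (indSub P W).toAddSubgroup) (g : G) :
    l ((g : G ⧸ P).out⁻¹ • F (g : G ⧸ P)) = l (g⁻¹ • F (g : G ⧸ P)) := by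
  have hout : (((g : G ⧸ P).out : G) : G ⧸ P) = (g : G ⧸ P) := QuotientGroup.out_eq' _
  have hu : g⁻¹ * (g : G ⧸ P).out ∈ P := QuotientGroup.eq.mp hout.symm
  have hw : (g : G ⧸ P).out⁻¹ • F (g : G ⧸ P) ∈ W := by
    have := hF (g : G ⧸ P).out
    rwa [hout] at this
  have h1 := hl _ hu _ hw
  rw [← mul_smul, mul_assoc, mul_inv_cancel, mul_one] at h1
  exact h1.symm

theorem indSub_step (p : ℕ) [Fact p.Prime] (P : Subgroup G) (hp : ∀ x : N, p • x = 0)
    (W : AddSubgroup N) (hW : ∀ g ∈ P, ∀ w ∈ W, g • w ∈ W) (l : N →+ ZMod p)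
    (hl1 : ∃ w ∈ W, l w = 1) (hl : ∀ g ∈ P, ∀ w ∈ W, l (g • w) = l w) :
    ∃ (i : (indSub P (W ⊓ l.ker)).Mod →+ (indSub P W).Mod)
      (π : (indSub P W).Mod →+ IndMod (G ⧸ P) (Fp p)), IsSES G i π := by
  let i : (indSub P (W ⊓ l.ker)).Mod →+ (indSub P W).Mod :=
    { toFun := fun b => (indSub P W).mkMod ((indSub P (W ⊓ l.ker)).incl b)
        (fun g => ((indSub P (W ⊓ l.ker)).incl_mem b g).1)
      map_zero' := rfl
      map_add' := fun _ _ => rfl }
  let π : (indSub P W).Mod →+ IndMod (G ⧸ P) (Fp p) :=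
    { toFun := fun F => IndMod.of fun x => Fp.of p (l (x.out⁻¹ • (indSub P W).incl F x))
      map_zero' := by
        ext x
        simp
      map_add' := fun F F' => by
        ext x
        simp }
  have hi : ∀ b, (indSub P W).incl (i b) = (indSub P (W ⊓ l.ker)).incl b := fun _ => rfl
  have hπ : ∀ (F : (indSub P W).Mod) (g : G),
      π F (g : G ⧸ P) = Fp.of p (l (g⁻¹ • (indSub P W).incl F (g : G ⧸ P))) := by
    intro F g
    show Fp.of p (l ((g : G ⧸ P).out⁻¹ • (indSub P W).incl F (g : G ⧸ P))) = _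
    rw [IndSub_l_out P W l hl _ ((indSub P W).incl_mem F) g]
  refine ⟨i, π, ?_, ?_, ?_, ?_, ?_⟩
  · intro g b
    rfl
  · intro h F
    ext x
    induction x using QuotientGroup.induction_on with
    | H g =>
      rw [IndMod.smul_apply, Fp.smul_def, hπ]
      have h1 : h⁻¹ • (g : G ⧸ P) = ((h⁻¹ * g : G) : G ⧸ P) := rfl
      rw [h1, hπ, GSub.incl_smul, IndMod.smul_apply, h1, mul_inv_rev, inv_inv, mul_smul]
  · intro a b hab
    apply (indSub P (W ⊓ l.ker)).incl_injective
    rw [← hi a, ← hi b, hab]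
  · intro φ
    obtain ⟨w₀, hw₀, hlw₀⟩ := hl1
    let F₀ : IndMod (G ⧸ P) N :=
      IndMod.of fun x => ((Fp.of p).symm (φ x)).val • (x.out • w₀)
    have hF₀ : F₀ ∈ (indSub P W).toAddSubgroup := by
      intro g
      have hout : (((g : G ⧸ P).out : G) : G ⧸ P) = (g : G ⧸ P) := QuotientGroup.out_eq' _
      have hu : g⁻¹ * (g : G ⧸ P).out ∈ P := QuotientGroup.eq.mp hout.symm
      show g⁻¹ • (((Fp.of p).symm (φ (g : G ⧸ P))).val • ((g : G ⧸ P).out • w₀)) ∈ W
      rw [smul_comm, ← mul_smul]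
      exact W.nsmul_mem (hW _ hu _ hw₀) _
    refine ⟨(indSub P W).mkMod F₀ hF₀, ?_⟩
    ext x
    show Fp.of p (l (x.out⁻¹ • (((Fp.of p).symm (φ x)).val • (x.out • w₀)))) = φ x
    rw [smul_comm, inv_smul_smul, map_nsmul, hlw₀, nsmul_eq_mul, mul_one, ZMod.natCast_zmod_val,
      AddEquiv.apply_symm_apply]
  · intro F
    constructor
    · intro h0
      have hmem : (indSub P W).incl F ∈ (indSub P (W ⊓ l.ker)).toAddSubgroup := by
        intro g
        refine ⟨(indSub P W).incl_mem F g, ?_⟩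
        have h1 := hπ F g
        rw [h0, IndMod.zero_apply] at h1
        have h2 : l (g⁻¹ • (indSub P W).incl F (g : G ⧸ P)) = 0 :=
          (Fp.of p).injective (by rw [← h1, map_zero])
        exact h2
      exact ⟨(indSub P (W ⊓ l.ker)).mkMod _ hmem, (indSub P W).incl_injective rfl⟩
    · rintro ⟨y, rfl⟩
      ext x
      induction x using QuotientGroup.induction_on with
      | H g =>
        rw [hπ, hi, IndMod.zero_apply]
        have h1 : l (g⁻¹ • (indSub P (W ⊓ l.ker)).incl y (g : G ⧸ P)) = 0 :=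
          ((indSub P (W ⊓ l.ker)).incl_mem y g).2
        rw [h1, map_zero]

end Fermat.Agent.S55.F2
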