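/-
S55 / FORMAL-F2, node N12 (PGroup).  Fixed vectors of "p-groups" on finite `F_p`-modules, and invariant functionals.
PROOF of `exists_fixed_ne_zero`.  Let `Q' = (MulAction.toPermHom Q D).range`, a group in which every element has
`p`-power order (`hQ`), so `IsPGroup p Q'` ; `Nat.card D` is divisible by `p` (nontrivial finite group killed by `p`);
`0` is a fixed point; `IsPGroup.exists_fixed_point_of_prime_dvd_card_of_fixed_point` gives another one.
PROOF of `exists_invariant_functional`.  Let `D = (↥W →+ ZMod p)` with `(↥P)ᵈᵐᵃ` acting on the domain.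
`D` is finite, killed by `p`, nontrivial (a nonzero vector space has a nonzero functional).  A fixed `l₀ ≠ 0` is onto
`ZMod p` after scaling; extend it from `W` to `N` (extension of functionals over the field `ZMod p`).
-/
import Fermat.Agent.S55.F2.Defs

set_option autoImplicit false

namespace Fermat.Agent.S55.F2

variable {G : Type} [Group G]

theorem PGroup_prime_dvd_card (p : ℕ) [Fact p.Prime] (D : Type) [AddCommGroup D] [Finite D]
    [Nontrivial D] (hp : ∀ x : D, p • x = 0) : p ∣ Nat.card D := by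
  have hD : IsPGroup p (Multiplicative D) := fun x =>
    ⟨1, by
      rw [pow_one]
      exact congrArg Multiplicative.ofAdd (hp (Multiplicative.toAdd x))⟩
  obtain ⟨n, hn⟩ := IsPGroup.iff_card.mp hD
  have hcard : Nat.card D = p ^ n := by
    rw [← hn]
    exact (Nat.card_congr Multiplicative.ofAdd)
  have h1 : 1 < Nat.card D := Finite.one_lt_card
  rw [hcard] at h1 ⊢
  rcases Nat.eq_zero_or_pos n with rfl | hn0
  · simp at h1
  · exact dvd_pow_self p hn0.ne'

theorem exists_fixed_ne_zero (p : ℕ) [Fact p.Prime] {Q : Type} [Group Q] (D : Type) [AddCommGroup D]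
    [DistribMulAction Q D] [Finite D] [Nontrivial D] (hp : ∀ x : D, p • x = 0)
    (hQ : ∀ g : Q, ∃ k : ℕ, ∀ x : D, g ^ (p ^ k) • x = x) :
    ∃ x : D, x ≠ 0 ∧ ∀ g : Q, g • x = x := by
  have hQ' : IsPGroup p (MulAction.toPermHom Q D).range := by
    rintro ⟨σ, g, rfl⟩
    obtain ⟨k, hk⟩ := hQ g
    refine ⟨k, Subtype.ext ?_⟩
    rw [Subgroup.coe_pow, Subgroup.coe_one, ← map_pow]
    ext x
    exact hk x
  have h0 : (0 : D) ∈ MulAction.fixedPoints (MulAction.toPermHom Q D).range D := by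
    rintro ⟨σ, g, rfl⟩
    exact smul_zero g
  obtain ⟨b, hb, hb0⟩ := hQ'.exists_fixed_point_of_prime_dvd_card_of_fixed_point D
    (PGroup_prime_dvd_card p D hp) h0
  refine ⟨b, hb0.symm, fun g => ?_⟩
  exact hb ⟨MulAction.toPermHom Q D g, g, rfl⟩

theorem PGroup_exists_extend_aux (p : ℕ) [Fact p.Prime] (N : Type) [AddCommGroup N]
    [Module (ZMod p) N] (W : AddSubgroup N) (l : ↥W →+ ZMod p) :
    ∃ L : N →+ ZMod p, ∀ w : ↥W, L (w : N) = l w := by
  let W' : Submodule (ZMod p) N :=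
    { carrier := W
      add_mem' := W.add_mem
      zero_mem' := W.zero_mem
      smul_mem' := fun c x hx => by
        rw [← ZMod.natCast_zmod_val c, Nat.cast_smul_eq_nsmul]
        exact W.nsmul_mem hx _ }
  let l' : ↥W' →+ ZMod p := l
  obtain ⟨L, hL⟩ := LinearMap.exists_extend (AddMonoidHom.toZModLinearMap p l')
  exact ⟨L.toAddMonoidHom, fun w => LinearMap.congr_fun hL (w : ↥W')⟩

/-- Additive functionals on a subgroup of an `F_p`-vector space extend. -/
theorem PGroup_exists_extend (p : ℕ) [Fact p.Prime] (N : Type) [AddCommGroup N]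
    (hp : ∀ x : N, p • x = 0) (W : AddSubgroup N) (l : ↥W →+ ZMod p) :
    ∃ L : N →+ ZMod p, ∀ w : ↥W, L (w : N) = l w :=
  @PGroup_exists_extend_aux p _ N _ (AddCommGroup.zmodModule hp) W l

theorem PGroup_exists_functional_aux (p : ℕ) [Fact p.Prime] (N : Type) [AddCommGroup N]
    [Module (ZMod p) N] {w : N} (hw : w ≠ 0) : ∃ l : N →+ ZMod p, l w ≠ 0 := by
  have := (Module.forall_dual_apply_eq_zero_iff (ZMod p) w).not.mpr hw
  rw [not_forall] at this
  obtain ⟨φ, hφ⟩ := this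
  exact ⟨φ.toAddMonoidHom, hφ⟩

/-- A nonzero vector of an `F_p`-vector space is detected by an additive functional. -/
theorem PGroup_exists_functional (p : ℕ) [Fact p.Prime] (N : Type) [AddCommGroup N]
    (hp : ∀ x : N, p • x = 0) {w : N} (hw : w ≠ 0) : ∃ l : N →+ ZMod p, l w ≠ 0 :=
  @PGroup_exists_functional_aux p _ N _ (AddCommGroup.zmodModule hp) w hw

theorem exists_invariant_functional (p : ℕ) [Fact p.Prime] (P : Subgroup G) (N : Type)
    [AddCommGroup N] [DistribMulAction G N] [Finite N] (hp : ∀ x : N, p • x = 0)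
    (hP : ∀ g ∈ P, ∃ k : ℕ, ∀ x : N, g ^ (p ^ k) • x = x)
    (W : AddSubgroup N) (hW : ∀ g ∈ P, ∀ w ∈ W, g • w ∈ W) (hne : W ≠ ⊥) :
    ∃ l : N →+ ZMod p, (∃ w ∈ W, l w = 1) ∧ ∀ g ∈ P, ∀ w ∈ W, l (g • w) = l w := by
  classical
  let actW : DistribMulAction ↥P ↥W :=
    { smul := fun g w => ⟨(g : G) • (w : N), hW g g.2 w w.2⟩
      one_smul := fun w => Subtype.ext (one_smul G (w : N))
      mul_smul := fun g h w => Subtype.ext (mul_smul (g : G) (h : G) (w : N))
      smul_zero := fun g => Subtype.ext (smul_zero (g : G))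
      smul_add := fun g w w' => Subtype.ext (smul_add (g : G) (w : N) (w' : N)) }
  have hsmul : ∀ (g : ↥P) (w : ↥W), ((g • w : ↥W) : N) = (g : G) • (w : N) := fun _ _ => rfl
  -- a nonzero element of `W`
  obtain ⟨w₁, hw₁, hw₁0⟩ : ∃ w ∈ W, w ≠ 0 := by
    by_contra hcon
    refine hne ((AddSubgroup.eq_bot_iff_forall W).mpr fun x hx => ?_)
    by_contra hx0
    exact hcon ⟨x, hx, hx0⟩
  have hfin : Finite (↥W →+ ZMod p) := DFunLike.finite _
  have hnt : Nontrivial (↥W →+ ZMod p) := by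
    obtain ⟨φ, hφ⟩ := PGroup_exists_functional p N hp hw₁0
    refine ⟨⟨φ.comp W.subtype, 0, fun h => hφ ?_⟩⟩
    exact DFunLike.congr_fun h (⟨w₁, hw₁⟩ : ↥W)
  obtain ⟨l₀, hl₀, hfix⟩ := exists_fixed_ne_zero p (Q := (↥P)ᵈᵐᵃ) (↥W →+ ZMod p)
    (fun l => by
      ext w
      rw [AddMonoidHom.nsmul_apply, AddMonoidHom.zero_apply, nsmul_eq_mul, ZMod.natCast_self,
        zero_mul])
    (fun c => by
      obtain ⟨k, hk⟩ := hP (DomMulAct.mk.symm c : ↥P) (DomMulAct.mk.symm c : ↥P).2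
      refine ⟨k, fun l => ?_⟩
      ext w
      rw [DomMulAct.smul_addMonoidHom_apply]
      congr 1
      apply Subtype.ext
      rw [hsmul]
      have : ((DomMulAct.mk.symm (c ^ p ^ k) : ↥P) : G)
          = ((DomMulAct.mk.symm c : ↥P) : G) ^ p ^ k := by
        rw [← Subgroup.coe_pow]
        rfl
      rw [this]
      exact hk w)
  -- a vector on which `l₀` does not vanish
  obtain ⟨w₀, hw₀⟩ : ∃ w : ↥W, l₀ w ≠ 0 := by
    by_contra hcon
    refine hl₀ (AddMonoidHom.ext fun w => ?_)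
    by_contra hw
    exact hcon ⟨w, hw⟩
  -- scale and extend
  obtain ⟨L, hLw⟩ := PGroup_exists_extend p N hp W ((AddMonoidHom.mulLeft (l₀ w₀)⁻¹).comp l₀)
  have hLw' : ∀ w : ↥W, L (w : N) = (l₀ w₀)⁻¹ * l₀ w := fun w => by
    rw [hLw]; rfl
  refine ⟨L, ⟨w₀, w₀.2, ?_⟩, fun g hg w hw => ?_⟩
  · rw [hLw', inv_mul_cancel₀ hw₀]
  · have h1 := hLw' ⟨w, hw⟩
    have h2 := hLw' ((⟨g, hg⟩ : ↥P) • (⟨w, hw⟩ : ↥W))
    rw [hsmul] at h2
    have h3 : l₀ ((⟨g, hg⟩ : ↥P) • (⟨w, hw⟩ : ↥W)) = l₀ ⟨w, hw⟩ := by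
      have := DFunLike.congr_fun (hfix (DomMulAct.mk (⟨g, hg⟩ : ↥P))) (⟨w, hw⟩ : ↥W)
      rwa [DomMulAct.smul_addMonoidHom_apply] at this
    change L (g • w) = _ at h2
    rw [h2, h3]
    exact h1.symm

end Fermat.Agent.S55.F2
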