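/-
S55 / FORMAL-F2, node N14 (Summand).  `N` is a direct summand of `IndMod (G ⧸ P) N` when `[G : P]` is prime to `p`.
PROOF.  Choose `m : ℕ` with `m * P.index ≡ 1 [MOD p]` (`Nat.exists_mul_emod_eq_one_of_coprime` or via `ZMod p` inverse);
`r = m • sumX (G ⧸ P) N`; `sumX (constX x) = Nat.card (G ⧸ P) • x = P.index • x`; `(m * P.index) • x = x` since `p • x = 0`.
-/
import Fermat.Agent.S55.F2.Defs

set_option autoImplicit false

namespace Fermat.Agent.S55.F2

variable {G : Type} [Group G]

theorem sumX_constX (X A : Type) [AddCommGroup A] [Finite X] (a : A) :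
    sumX X A (constX X A a) = Nat.card X • a := by
  cases nonempty_fintype X
  rw [sumX_eq_sum, Nat.card_eq_fintype_card]
  simp only [constX_apply, Finset.sum_const, Finset.card_univ]

theorem exists_retract (p : ℕ) [Fact p.Prime] (P : Subgroup G) [P.FiniteIndex]
    (hidx : ¬ p ∣ P.index) (N : Type) [AddCommGroup N] [DistribMulAction G N]
    (hp : ∀ x : N, p • x = 0) :
    ∃ r : IndMod (G ⧸ P) N →+ N, IsEquivariant G r ∧ ∀ x, r (constX (G ⧸ P) N x) = x := by
  have hpp : p.Prime := Fact.out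
  have hcop : Nat.Coprime P.index p := ((Nat.Prime.coprime_iff_not_dvd hpp).mpr hidx).symm
  obtain ⟨m, -, hm⟩ := Nat.exists_mul_mod_eq_one_of_coprime hcop hpp.one_lt
  refine ⟨m • sumX (G ⧸ P) N, IsEquivariant.nsmul (isEquivariant_sumX G N (G ⧸ P)) m, fun x => ?_⟩
  rw [AddMonoidHom.nsmul_apply, sumX_constX, ← mul_smul]
  have hcard : Nat.card (G ⧸ P) = P.index := rfl
  rw [hcard, mul_comm, ← Nat.div_add_mod (P.index * m) p, hm, add_smul, mul_smul, hp, one_smul,
    zero_add]

end Fermat.Agent.S55.F2
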