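/-
S55 / FORMAL-F2, node N15 (Vanish) = blueprint F2(a), the half-exact functor lemma.
PROOF.  (1) For every `P`-stable `W ≤ N`: `Subsingleton (H.obj (indSub P W).Mod)`, by strong induction on `Nat.card W`:
`W = ⊥`: `indSub_bot_subsingleton` + `HFun.subsingleton_of_subsingleton`.  `W ≠ ⊥`: `exists_invariant_functional` gives `l`;
`W' = W ⊓ l.ker` is `P`-stable and strictly smaller (`l w = 1 ≠ 0`); `indSub_step` + `HFun.subsingleton_of_ses` (all three modules are
in `InC U p`: `InC.gsubMod`, `InC.indMod_quotient`, `InC.fp`).  [`hP` for `exists_invariant_functional`: `g^(p^k) ∈ U` acts trivially.]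
(2) `W = ⊤`: `(indSub P ⊤).incl` is an equivariant bijection, so `H.obj (IndMod (G ⧸ P) N)` is a subsingleton
(`HFun.subsingleton_of_retract` with the inverse, or `HFun.bijective_map_equiv`).
(3) `exists_retract` + `HFun.subsingleton_of_retract` with `i = constX`.
-/
import Fermat.Agent.S55.F2.Basic
import Fermat.Agent.S55.F2.InC
import Fermat.Agent.S55.F2.PGroup
import Fermat.Agent.S55.F2.IndSub
import Fermat.Agent.S55.F2.Summand

set_option autoImplicit false

namespace Fermat.Agent.S55.F2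

variable {G : Type} [Group G]

/-- auxiliary form of `HFun.subsingleton_indSub`, with the cardinality bound made explicit. -/
theorem HFun.vanish_indSub_aux (H : HFun G) (U : Subgroup G) [U.Normal] [U.FiniteIndex] (p : ℕ)
    [Fact p.Prime] (hH : H.MiddleExactOn U p) (P : Subgroup G) (hUP : U ≤ P)
    (hP : ∀ g ∈ P, ∃ k : ℕ, g ^ (p ^ k) ∈ U)
    (hbase : Subsingleton (H.obj (IndMod (G ⧸ P) (Fp p))))
    (N : Type) [AddCommGroup N] [DistribMulAction G N] (hN : InC U p N) (n : ℕ) :
    ∀ (W : AddSubgroup N), (∀ g ∈ P, ∀ w ∈ W, g • w ∈ W) → Nat.card W ≤ n →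
      Subsingleton (H.obj (indSub P W).Mod) := by
  have hfin : Finite N := hN.finite
  have hPfin : P.FiniteIndex := Subgroup.finiteIndex_of_le hUP
  have hInd : InC U p (IndMod (G ⧸ P) N) := InC.indMod_quotient P hUP hN
  induction n with
  | zero =>
    intro W _ hcard
    exact absurd hcard (by have := Nat.card_pos (α := W); omega)
  | succ n ih =>
    intro W hW hcard
    by_cases hne : W = ⊥
    · subst hne
      have := indSub_bot_subsingleton (N := N) P
      exact H.subsingleton_of_subsingleton _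
    · have hP' : ∀ g ∈ P, ∃ k : ℕ, ∀ x : N, g ^ (p ^ k) • x = x := by
        intro g hg
        obtain ⟨k, hk⟩ := hP g hg
        exact ⟨k, fun x => hN.triv _ hk x⟩
      obtain ⟨l, ⟨w₀, hw₀, hl1⟩, hl⟩ := exists_invariant_functional p P N hN.ptors hP' W hW hne
      have hW' : ∀ g ∈ P, ∀ w ∈ W ⊓ l.ker, g • w ∈ W ⊓ l.ker := by
        intro g hg w hw
        refine ⟨hW g hg w hw.1, ?_⟩
        change l (g • w) = 0
        rw [hl g hg w hw.1]
        exact hw.2
      have hlt : W ⊓ l.ker < W := by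
        refine lt_of_le_of_ne inf_le_left ?_
        intro heq
        have h1 : w₀ ∈ W ⊓ l.ker := by rw [heq]; exact hw₀
        have h2 : l w₀ = 0 := h1.2
        rw [hl1] at h2
        exact one_ne_zero h2
      have hcard' : Nat.card ↥(W ⊓ l.ker) ≤ n := by
        have h3 : Nat.card ↥(W ⊓ l.ker) < Nat.card ↥W :=
          Set.Finite.card_lt_card (Set.toFinite _) (SetLike.coe_ssubset_coe.2 hlt)
        omega
      obtain ⟨i, π, hses⟩ := indSub_step p P hN.ptors W hW l ⟨w₀, hw₀, hl1⟩ hl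
      exact H.subsingleton_of_ses hH i π hses (InC.gsubMod _ hInd) (InC.gsubMod _ hInd)
        (InC.indMod_quotient P hUP (InC.fp U p)) (ih _ hW' hcard') hbase

theorem HFun.subsingleton_indSub (H : HFun G) (U : Subgroup G) [U.Normal] [U.FiniteIndex] (p : ℕ)
    [Fact p.Prime] (hH : H.MiddleExactOn U p) (P : Subgroup G) (hUP : U ≤ P)
    (hP : ∀ g ∈ P, ∃ k : ℕ, g ^ (p ^ k) ∈ U)
    (hbase : Subsingleton (H.obj (IndMod (G ⧸ P) (Fp p))))
    (N : Type) [AddCommGroup N] [DistribMulAction G N] (hN : InC U p N)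
    (W : AddSubgroup N) (hW : ∀ g ∈ P, ∀ w ∈ W, g • w ∈ W) :
    Subsingleton (H.obj (indSub P W).Mod) :=
  H.vanish_indSub_aux U p hH P hUP hP hbase N hN (Nat.card W) W hW le_rfl

theorem HFun.subsingleton_of_sylow (H : HFun G) (U : Subgroup G) [U.Normal] [U.FiniteIndex] (p : ℕ)
    [Fact p.Prime] (hH : H.MiddleExactOn U p) (P : Subgroup G) (hUP : U ≤ P)
    (hP : ∀ g ∈ P, ∃ k : ℕ, g ^ (p ^ k) ∈ U) (hidx : ¬ p ∣ P.index)
    (hbase : Subsingleton (H.obj (IndMod (G ⧸ P) (Fp p))))
    (N : Type) [AddCommGroup N] [DistribMulAction G N] (hN : InC U p N) :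
    Subsingleton (H.obj N) := by
  have hPfin : P.FiniteIndex := Subgroup.finiteIndex_of_le hUP
  -- step (1)
  have h1 : Subsingleton (H.obj (indSub P (⊤ : AddSubgroup N)).Mod) :=
    H.subsingleton_indSub U p hH P hUP hP hbase N hN ⊤ (fun _ _ _ _ => AddSubgroup.mem_top _)
  -- step (2)
  let j : IndMod (G ⧸ P) N →+ (indSub P (⊤ : AddSubgroup N)).Mod :=
    { toFun := fun f => (indSub P (⊤ : AddSubgroup N)).mkMod f
        ((mem_indSub P ⊤ f).2 fun _ => AddSubgroup.mem_top _)
      map_zero' := rfl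
      map_add' := fun _ _ => rfl }
  have hj : IsEquivariant G j := fun _ _ => rfl
  have h2 : Subsingleton (H.obj (IndMod (G ⧸ P) N)) :=
    H.subsingleton_of_retract j hj (indSub P (⊤ : AddSubgroup N)).incl
      (isEquivariant_incl _) (fun _ => rfl) h1
  -- step (3)
  obtain ⟨r, hr, hrc⟩ := exists_retract p P hidx N hN.ptors
  exact H.subsingleton_of_retract (constX (G ⧸ P) N) (isEquivariant_constX G N (G ⧸ P)) r hr hrc h2

end Fermat.Agent.S55.F2
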