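/-
S55 / FORMAL-F2, node N18 (VanishLevel).  `H = 0` on all `Good` modules from `H(μ_F) = 0`; consequence (RE).
PROOF.  `N` good.  Choose `U₀ ∈ 𝓝` acting trivially on `μ` (`exists_level_actsTrivially`; `μ` is finite since `Nat.card μ = p ≠ 0`),
then `U ≤ U₀` in `𝓝` with `InC U p N` (`Good.exists_inC`).  `U` is normal of finite index (`𝓝.normal`, `𝓝.finiteIndex`).
`exists_sylow_above` gives `P ≥ U`; `P` acts trivially on `μ` (`smul_eq_of_pow`, since `g^(p^k) ∈ U ≤ U₀`); `P` is open.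
`exists_untwist_quotient` + `HFun.bijective_map_equiv` transport `hbase P` to `IndMod (G ⧸ P) (Fp p)`.
Conclude with `HFun.subsingleton_of_sylow`.
-/
import Fermat.Agent.S55.F2.Vanish
import Fermat.Agent.S55.F2.Sylow
import Fermat.Agent.S55.F2.Untwist
import Fermat.Agent.S55.F2.Ker

set_option autoImplicit false

namespace Fermat.Agent.S55.F2

variable {G : Type} [Group G]

theorem HFun.subsingleton_of_good (𝓝 : LevelSys G) (p : ℕ) [Fact p.Prime] (μ : Type)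
    [AddCommGroup μ] [DistribMulAction G μ] (hμ : Nat.card μ = p) [Smooth 𝓝 μ] (H : HFun G)
    (hH : ∀ U ∈ 𝓝.carrier, H.MiddleExactOn U p)
    (hbase : ∀ V : Subgroup G, 𝓝.IsOpen V → ActsTrivially V μ →
      Subsingleton (H.obj (IndMod (G ⧸ V) μ)))
    (N : Type) [AddCommGroup N] [DistribMulAction G N] (hN : Good 𝓝 p N) :
    Subsingleton (H.obj N) := by
  have hp : p.Prime := Fact.out
  have hfin : Finite μ := Nat.finite_of_card_ne_zero (by rw [hμ]; exact hp.ne_zero)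
  obtain ⟨U₁, hU₁⟩ := 𝓝.nonempty
  obtain ⟨U₀, hU₀, -, hU₀μ⟩ := exists_level_actsTrivially 𝓝 μ U₁ hU₁
  obtain ⟨U, hU, hUU₀, hUN⟩ := hN.exists_inC U₀ hU₀
  have hnorm : U.Normal := 𝓝.normal U hU
  have hfi : U.FiniteIndex := 𝓝.finiteIndex U hU
  obtain ⟨P, hUP, hP, hidx⟩ := exists_sylow_above U p
  have hPμ : ActsTrivially P μ := by
    intro g hg
    obtain ⟨k, hk⟩ := hP g hg
    exact smul_eq_of_pow p μ hμ g k (fun m => hU₀μ _ (hUU₀ hk) m)
  have hPopen : 𝓝.IsOpen P := ⟨U, hU, hUP⟩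
  obtain ⟨e, he⟩ := exists_untwist_quotient p μ hμ P hPμ
  have hb := hbase P hPopen hPμ
  have hbase' : Subsingleton (H.obj (IndMod (G ⧸ P) (Fp p))) :=
    (H.bijective_map_equiv e he).1.subsingleton
  exact H.subsingleton_of_sylow U p (hH U hU) P hUP hP hidx hbase' N hUN

/-- (RE) for a pair `(H₂, H₃)`. -/
theorem HFun.preservesSurjOn_of_base (𝓝 : LevelSys G) (p : ℕ) [Fact p.Prime] (μ : Type)
    [AddCommGroup μ] [DistribMulAction G μ] (hμ : Nat.card μ = p) [Smooth 𝓝 μ] (H₂ H₃ : HFun G)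
    (hH : ∀ U ∈ 𝓝.carrier, H₃.MiddleExactOn U p)
    (h23 : ∀ U ∈ 𝓝.carrier, HFun.SurjOfVanish H₂ H₃ U p)
    (hbase : ∀ V : Subgroup G, 𝓝.IsOpen V → ActsTrivially V μ →
      Subsingleton (H₃.obj (IndMod (G ⧸ V) μ))) :
    ∀ U ∈ 𝓝.carrier, H₂.PreservesSurjOn U p := by
  intro U hU
  refine HFun.preservesSurjOn_of_vanish H₂ H₃ U p (h23 U hU) ?_
  intro N _ _ hN
  exact HFun.subsingleton_of_good 𝓝 p μ hμ H₃ hH hbase N (hN.good hU)

end Fermat.Agent.S55.F2
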