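/-
S55 / FORMAL-F2, node Z1 (FinalRE).  (RE) globally and locally from (T1), (T2).
PROOF.  `haveI := I.coefMu.smooth`.  `final_AS_surj`: `HFun.preservesSurjOn_of_base (lvlS S) p (Mu p) I.cardMu (AS S 2) (AS S 3)` with
`hsmFun_middleExactOn`, `hsmFun_surjOfVanish` (`LevelSys.isOpen_of_mem`) and `I.T1` (`⟨fun x y => by rw [I.T1 .. x, I.T1 .. y]⟩`).
`final_BQ_surj`: the same with `BQ q 2`, `BQ q 3`, `resFun_hsmFun_middleExactOn`, `resFun_hsmFun_surjOfVanish`, `I.T2`; openness of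
`U.comap (ιv q)` for `lvlLoc q`: `lvlS_comap_le_lvlLoc S q _ ⟨U, hU, rfl⟩`.
`final_RE`: choose `U ∈ lvlS S` with `InC U p N` and `InC U p N''` (`Good.exists_inC` twice, `InC.mono`, `good_iff`), apply `final_AS_surj` to
`(φ : N →+ N'')`, `isEquivariant_coe φ`; `AS_map` is `rfl`.
-/
import Fermat.Agent.S55.F2.FinalDefs
import Fermat.Agent.S55.F2.VanishLevel
import Fermat.Agent.S55.F2.HsmExact

set_option autoImplicit false

namespace Fermat.Agent.S55.F2

variable {S : Finset Nat.Primes} {p : ℕ} [Fact p.Prime]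

theorem final_AS_surj (I : ArithInput S p) :
    ∀ U ∈ (lvlS S).carrier, (AS S 2).PreservesSurjOn U p := by
  haveI := I.coefMu.smooth
  refine HFun.preservesSurjOn_of_base (lvlS S) p (Mu p) I.cardMu (AS S 2) (AS S 3) ?_ ?_ ?_
  · intro U hU
    exact hsmFun_middleExactOn (lvlS S) 3 U (LevelSys.isOpen_of_mem hU) p
  · intro U hU
    exact hsmFun_surjOfVanish (lvlS S) 2 U (LevelSys.isOpen_of_mem hU) p
  · intro V hV hVμ
    exact ⟨fun x y => by rw [I.T1 V hV hVμ x, I.T1 V hV hVμ y]⟩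

theorem final_BQ_surj (I : ArithInput S p) (q : Nat.Primes) (hq : q ∈ S) :
    ∀ U ∈ (lvlS S).carrier, (BQ q 2).PreservesSurjOn U p := by
  haveI := I.coefMu.smooth
  have hop : ∀ U ∈ (lvlS S).carrier, (lvlLoc q).IsOpen (U.comap (ιv q)) := fun U hU =>
    lvlS_comap_le_lvlLoc S q _ ⟨U, hU, rfl⟩
  refine HFun.preservesSurjOn_of_base (lvlS S) p (Mu p) I.cardMu (BQ q 2) (BQ q 3) ?_ ?_ ?_
  · intro U hU
    exact resFun_hsmFun_middleExactOn (ιv q) (lvlLoc q) 3 U (hop U hU) p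
  · intro U hU
    exact resFun_hsmFun_surjOfVanish (ιv q) (lvlLoc q) 2 U (hop U hU) p
  · intro V hV hVμ
    exact ⟨fun x y => by rw [I.T2 V hV hVμ q hq x, I.T2 V hV hVμ q hq y]⟩

theorem final_RE (I : ArithInput S p) (N N'' : Type) [AddCommGroup N] [DistribMulAction GQ N]
    [AddCommGroup N''] [DistribMulAction GQ N''] (hN : IsCoef S p N) (hN'' : IsCoef S p N'')
    (φ : N →+[GQ] N'') (hφ : Function.Surjective φ) :
    Function.Surjective (Hsm.map (𝓝 := lvlS S) φ 2) := by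
  obtain ⟨U₀, hU₀⟩ := (lvlS S).nonempty
  obtain ⟨U₁, hU₁, -, h1⟩ := Good.exists_inC (good_iff.2 hN) U₀ hU₀
  obtain ⟨U, hU, hle, h2⟩ := Good.exists_inC (good_iff.2 hN'') U₁ hU₁
  exact final_AS_surj I U hU N N'' (φ : N →+ N'') (isEquivariant_coe φ) (InC.mono hle h1) h2 hφ

end Fermat.Agent.S55.F2
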