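/-
S55 / FORMAL-F2, node N08 (DualExact).  The functor `N ↦ Hom(Hom_G(N, M), ZMod p)` is right exact (`M` killed by `p`).
PROOF.  `exists_factor_dual`: `Y` is a `ZMod p`-vector space (`AddCommGroup.zmodModule hY`); `ξ` factors through
`X ⧸ ker r ≃ range r ≤ Y`; extend the functional from the subspace `range r` to `Y` (`LinearMap.exists_extend`; additive
maps between `ZMod p`-modules are linear: `AddMonoidHom.toZModLinearMap`).
Surjections: `π : N ↠ N₂`; `r = HomG.precomp M π` is injective; apply the lemma to `ξ₂` on `Hom_G(N₂, M)`.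
Middle: `ξ` on `Hom_G(N, M)` with `ξ ∘ precomp π = 0`; `r = HomG.precomp M i`; if `f ∘ i = 0` then `f` factors through
`π` as an equivariant additive map (`π` surjective with kernel `range i`), so `ξ f = 0`; apply the lemma.
-/
import Fermat.Agent.S55.F2.Defs

set_option autoImplicit false

namespace Fermat.Agent.S55.F2

variable {G : Type} [Group G]

/-- The vector space version of `exists_factor_dual`. -/
theorem DualExact_exists_factor_module (p : ℕ) [Fact p.Prime] {X Y : Type} [AddCommGroup X]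
    [AddCommGroup Y] [Module (ZMod p) Y] (r : X →+ Y) (ξ : X →+ ZMod p)
    (h : ∀ x, r x = 0 → ξ x = 0) : ∃ ξ₁ : Y →+ ZMod p, ∀ x, ξ₁ (r x) = ξ x := by
  -- the functional on `range r`
  have hk : r.ker ≤ ξ.ker := fun x hx => h x hx
  let S : Submodule (ZMod p) Y := AddSubgroup.toZModSubmodule p r.range
  obtain ⟨g₀, hg₀⟩ : ∃ g₀ : S →+ ZMod p, ∀ x, g₀ ⟨r x, x, rfl⟩ = ξ x := by
    refine ⟨(QuotientAddGroup.lift r.ker ξ hk).comp
      (QuotientAddGroup.quotientKerEquivRange r).symm.toAddMonoidHom, fun x => ?_⟩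
    have hx : (QuotientAddGroup.quotientKerEquivRange r).symm ⟨r x, x, rfl⟩
        = (x : X ⧸ r.ker) := by
      rw [AddEquiv.symm_apply_eq]
      rfl
    change QuotientAddGroup.lift r.ker ξ hk
      ((QuotientAddGroup.quotientKerEquivRange r).symm ⟨r x, x, rfl⟩) = ξ x
    rw [hx]
    rfl
  obtain ⟨g, hg⟩ := LinearMap.exists_extend (g₀.toZModLinearMap p)
  refine ⟨g.toAddMonoidHom, fun x => ?_⟩
  have := congrArg (fun F : S →ₗ[ZMod p] ZMod p => F ⟨r x, x, rfl⟩) hg
  exact this.trans (hg₀ x)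

theorem exists_factor_dual (p : ℕ) [Fact p.Prime] {X Y : Type} [AddCommGroup X] [AddCommGroup Y]
    (hY : ∀ y : Y, p • y = 0) (r : X →+ Y) (ξ : X →+ ZMod p) (h : ∀ x, r x = 0 → ξ x = 0) :
    ∃ ξ₁ : Y →+ ZMod p, ∀ x, ξ₁ (r x) = ξ x := by
  exact @DualExact_exists_factor_module p _ X Y _ _ (AddCommGroup.zmodModule hY) r ξ h

/-- An equivariant map killing `range i` factors through `π`. -/
theorem IsSES.exists_factor {N₁ N N₂ M : Type} [AddCommGroup N₁] [DistribMulAction G N₁]
    [AddCommGroup N] [DistribMulAction G N] [AddCommGroup N₂] [DistribMulAction G N₂]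
    [AddCommGroup M] [DistribMulAction G M] {i : N₁ →+ N} {π : N →+ N₂} (h : IsSES G i π)
    (f : N →+ M) (hf : IsEquivariant G f) (h0 : ∀ x, f (i x) = 0) :
    ∃ f₂ : N₂ →+ M, IsEquivariant G f₂ ∧ ∀ x, f₂ (π x) = f x := by
  have hker : ∀ x, π x = 0 → f x = 0 := by
    intro x hx
    obtain ⟨y, rfl⟩ := (h.exact x).1 hx
    exact h0 y
  have hwd : ∀ x x', π x = π x' → f x = f x' := by
    intro x x' hx
    have : f (x - x') = 0 := hker _ (by rw [map_sub, hx, sub_self])
    rwa [map_sub, sub_eq_zero] at this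
  choose s hs using h.surj
  have key : ∀ x, f (s (π x)) = f x := fun x => hwd _ _ (hs _)
  refine ⟨{ toFun := fun y => f (s y)
            map_zero' := ?_
            map_add' := ?_ }, ?_, key⟩
  · exact hker _ (hs 0)
  · intro y y'
    rw [← map_add]
    exact hwd _ _ (by rw [hs, map_add, hs, hs])
  · intro g y
    change f (s (g • y)) = g • f (s y)
    rw [← hf g (s y)]
    exact hwd _ _ (by rw [hs, h.equiv_π g (s y), hs])

theorem dualHom_preservesSurjOn (p : ℕ) [Fact p.Prime] (M : Type) [AddCommGroup M]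
    [DistribMulAction G M] (hM : ∀ m : M, p • m = 0) (U : Subgroup G) :
    (dualHom G M p).PreservesSurjOn U p := by
  intro N N₂ _ _ _ _ π hπ _ _ hsurj ξ₂
  have hY : ∀ y : ↥(HomG G N M), p • y = 0 := by
    intro y
    ext x
    exact hM (y.1 x)
  obtain ⟨ξ₁, hξ₁⟩ := exists_factor_dual p hY (HomG.precomp M π hπ) ξ₂ (by
    intro f hf
    have : f = 0 := by
      ext y
      obtain ⟨x, rfl⟩ := hsurj y
      have := congrArg (fun F : ↥(HomG G N M) => F.1 x) hf
      exact this
    rw [this, map_zero])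
  refine ⟨ξ₁, ?_⟩
  ext f
  exact hξ₁ f

theorem dualHom_middleExactOn (p : ℕ) [Fact p.Prime] (M : Type) [AddCommGroup M]
    [DistribMulAction G M] (hM : ∀ m : M, p • m = 0) (U : Subgroup G) :
    (dualHom G M p).MiddleExactOn U p := by
  intro N₁ N N₂ _ _ _ _ _ _ i π h _ _ _ ξ hξ
  have hY : ∀ y : ↥(HomG G N₁ M), p • y = 0 := by
    intro y
    ext x
    exact hM (y.1 x)
  obtain ⟨ξ₁, hξ₁⟩ := exists_factor_dual p hY (HomG.precomp M i h.equiv_i) ξ (by
    intro f hf
    obtain ⟨f₂, hf₂, hfac⟩ := h.exists_factor f.1 f.2 (fun x =>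
      congrArg (fun F : ↥(HomG G N₁ M) => F.1 x) hf)
    have hfe : f = HomG.precomp M π h.equiv_π ⟨f₂, hf₂⟩ := by
      ext x
      exact (hfac x).symm
    rw [hfe]
    exact congrArg (fun F : ↥(HomG G N₂ M) →+ ZMod p => F ⟨f₂, hf₂⟩) hξ)
  refine ⟨ξ₁, ?_⟩
  ext f
  exact hξ₁ f

end Fermat.Agent.S55.F2
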