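/-
S55 / FORMAL-F2, node N05 (Present).  Every module of the class `InC U p` is a quotient of a finite power of
`R = IndMod (G ⧸ U) (Fp p)` (the group algebra of `G/U` over `F_p`).
PROOF.  For `n : N` put `ev n : R →+ N`, `f ↦ ∑ x : G ⧸ U, (f x).val • (x.out • n)` (here `f x : Fp p = ZMod p`).
It is additive because `p • _ = 0` (`ZMod.val_add`, `Nat.mod_add_div`; or put
`letI := AddCommGroup.zmodModule hN.ptors` and use the `ZMod p`-module structure), equivariant because
`(g • x).out • n = g • x.out • n` (`U` is normal and acts trivially), and `ev n (δ_1) = n`.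
Then `ε F = ∑ n, ev n (F n)`.
-/
import Fermat.Agent.S55.F2.Defs

set_option autoImplicit false

namespace Fermat.Agent.S55.F2

variable {G : Type} [Group G]

theorem Present_smul_eq {U : Subgroup G} {p : ℕ} {N : Type} [AddCommGroup N]
    [DistribMulAction G N] (hN : InC U p N) {a b : G} (h : (a : G ⧸ U) = (b : G ⧸ U)) (n : N) :
    a • n = b • n := by
  have h1 : a⁻¹ * b ∈ U := QuotientGroup.eq.1 h
  have h2 : b = a * (a⁻¹ * b) := by group
  rw [h2, mul_smul, hN.triv _ h1]

/-- The map `R → N` attached to an element of `N`. -/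
theorem exists_ev (U : Subgroup G) [U.Normal] [U.FiniteIndex] (p : ℕ) [Fact p.Prime]
    (N : Type) [AddCommGroup N] [DistribMulAction G N] (hN : InC U p N) (n : N) :
    ∃ ε : IndMod (G ⧸ U) (Fp p) →+ N, IsEquivariant G ε ∧ ∃ f, ε f = n := by
  classical
  let _ : Module (ZMod p) N := AddCommGroup.zmodModule hN.ptors
  cases nonempty_fintype (G ⧸ U)
  let ε : IndMod (G ⧸ U) (Fp p) →+ N :=
    { toFun := fun f => ∑ x : G ⧸ U, (show ZMod p from f x) • (x.out • n)
      map_zero' := by
        apply Finset.sum_eq_zero
        intro x _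
        exact zero_smul (ZMod p) _
      map_add' := fun f f' => by
        rw [← Finset.sum_add_distrib]
        apply Finset.sum_congr rfl
        intro x _
        exact add_smul (show ZMod p from f x) (show ZMod p from f' x) _ }
  have hε : ∀ f, ε f = ∑ x : G ⧸ U, (show ZMod p from f x) • (x.out • n) := fun _ => rfl
  refine ⟨ε, ?_, ?_⟩
  · intro g f
    rw [hε, hε, Finset.smul_sum]
    rw [← Equiv.sum_comp (MulAction.toPerm g)]
    apply Finset.sum_congr rfl
    intro x _
    have h1 : (g • f) (MulAction.toPerm g x) = f x := by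
      rw [IndMod.smul_apply, MulAction.toPerm_apply, inv_smul_smul]
      rfl
    have h2 : (MulAction.toPerm g x).out • n = g • x.out • n := by
      rw [← mul_smul]
      apply Present_smul_eq hN
      rw [QuotientGroup.out_eq', MulAction.toPerm_apply]
      conv_lhs => rw [← QuotientGroup.out_eq' x]
      rfl
    rw [h1, h2]
    exact (ZMod.map_smul (DistribSMul.toAddMonoidHom N g) (show ZMod p from f x)
      (x.out • n)).symm
  · refine ⟨IndMod.of fun x => if x = ((1 : G) : G ⧸ U) then (show Fp p from (1 : ZMod p)) else
      (show Fp p from (0 : ZMod p)), ?_⟩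
    rw [hε, Finset.sum_eq_single ((1 : G) : G ⧸ U)]
    · have h1 : (((1 : G) : G ⧸ U)).out • n = (1 : G) • n :=
        Present_smul_eq hN (QuotientGroup.out_eq' _) n
      rw [h1, one_smul, IndMod.of_apply, if_pos rfl]
      exact one_smul (ZMod p) n
    · intro x _ hx
      rw [IndMod.of_apply, if_neg hx]
      exact zero_smul (ZMod p) _
    · intro h
      exact absurd (Finset.mem_univ _) h

theorem exists_surj_free (U : Subgroup G) [U.Normal] [U.FiniteIndex] (p : ℕ) [Fact p.Prime]
    (N : Type) [AddCommGroup N] [DistribMulAction G N] (hN : InC U p N) :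
    ∃ ε : (N → IndMod (G ⧸ U) (Fp p)) →+ N, IsEquivariant G ε ∧ Function.Surjective ε := by
  classical
  have := hN.finite
  cases nonempty_fintype N
  choose ev hev f hf using fun n => exists_ev U p N hN n
  let ε : (N → IndMod (G ⧸ U) (Fp p)) →+ N :=
    { toFun := fun F => ∑ n : N, ev n (F n)
      map_zero' := by
        apply Finset.sum_eq_zero
        intro x _
        exact map_zero _
      map_add' := fun F F' => by
        rw [← Finset.sum_add_distrib]
        apply Finset.sum_congr rfl
        intro x _
        exact map_add _ _ _ }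
  have hε : ∀ F, ε F = ∑ n : N, ev n (F n) := fun _ => rfl
  refine ⟨ε, ?_, ?_⟩
  · intro g F
    rw [hε, hε, Finset.smul_sum]
    apply Finset.sum_congr rfl
    intro n _
    exact hev n g (F n)
  · intro n
    refine ⟨Pi.single n (f n), ?_⟩
    rw [hε, Finset.sum_eq_single n]
    · rw [Pi.single_eq_same, hf]
    · intro m _ hm
      rw [Pi.single_eq_of_ne hm, map_zero]
    · intro h
      exact absurd (Finset.mem_univ _) h

end Fermat.Agent.S55.F2
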