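/-
S55 / FORMAL-F2, node N06 (Five).  A natural transformation between right exact functors which is bijective on
`R = IndMod (G ⧸ U) (Fp p)` is bijective on the whole class `InC U p`.
PROOF.  `ε : F₀ = (N → R) ↠ N` (`exists_surj_free`), `K = (kerSub ε _).Mod` is in the class (`InC.gsubMod`,
`InC.pi`, `InC.indMod_quotient`, `InC.fp`), `ε₁ : F₁ = (K → R) ↠ K`.  `α` is bijective on `F₀, F₁`
(`NatT.bijective_pi`).
Surjectivity at `N`: lift `y ∈ H'(N)` to `H'(F₀)` (`hs'`), pull back by `α`, push to `N` (naturality).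
Injectivity at `N`: `x = H(ε) x₀` (`hs`), `α x = 0`; then `H'(ε)(α x₀) = 0`, so `α x₀ = H'(incl) k` (`hm'` with
`isSES_ker`), `k = H'(ε₁) y₁` (`hs'`), `y₁ = α x₁`; injectivity at `F₀` gives `x₀ = H(incl ∘ ε₁) x₁`, hence
`x = H(ε ∘ incl ∘ ε₁) x₁ = H(0) x₁ = 0`.
-/
import Fermat.Agent.S55.F2.Pi
import Fermat.Agent.S55.F2.Ker
import Fermat.Agent.S55.F2.Present

set_option autoImplicit false

namespace Fermat.Agent.S55.F2

variable {G : Type} [Group G]

theorem NatT.bijective_of_free (U : Subgroup G) [U.Normal] [U.FiniteIndex] (p : ℕ) [Fact p.Prime]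
    {H H' : HFun G} (α : NatT H H') (hs : H.PreservesSurjOn U p)
    (hm' : H'.MiddleExactOn U p) (hs' : H'.PreservesSurjOn U p)
    (hbase : Function.Bijective (α.app (IndMod (G ⧸ U) (Fp p))))
    (N : Type) [AddCommGroup N] [DistribMulAction G N] (hN : InC U p N) :
    Function.Bijective (α.app N) := by
  have hR : InC U p (IndMod (G ⧸ U) (Fp p)) := InC.indMod_quotient U le_rfl (InC.fp U p)
  have := hN.finite
  obtain ⟨ε, hε, hεs⟩ := exists_surj_free U p N hN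
  have hF₀ : InC U p (N → IndMod (G ⧸ U) (Fp p)) := InC.pi N hR
  have hb₀ : Function.Bijective (α.app (N → IndMod (G ⧸ U) (Fp p))) :=
    NatT.bijective_pi N (IndMod (G ⧸ U) (Fp p)) α hbase
  constructor
  · -- injectivity
    rw [injective_iff_map_eq_zero]
    intro x hx
    have hK : InC U p (kerSub ε hε).Mod := InC.gsubMod (kerSub ε hε) hF₀
    have := hK.finite
    obtain ⟨ε₁, hε₁, hε₁s⟩ := exists_surj_free U p (kerSub ε hε).Mod hK
    have hF₁ : InC U p ((kerSub ε hε).Mod → IndMod (G ⧸ U) (Fp p)) := InC.pi _ hR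
    have hb₁ : Function.Bijective (α.app ((kerSub ε hε).Mod → IndMod (G ⧸ U) (Fp p))) :=
      NatT.bijective_pi _ (IndMod (G ⧸ U) (Fp p)) α hbase
    have hses : IsSES G (kerSub ε hε).incl ε := isSES_ker ε hε hεs
    obtain ⟨x₀, rfl⟩ := hs _ _ ε hε hF₀ hN hεs x
    rw [α.nat ε hε x₀] at hx
    obtain ⟨k, hk⟩ := hm' _ _ _ _ _ hses hK hF₀ hN (α.app _ x₀) hx
    obtain ⟨y₁, rfl⟩ := hs' _ _ ε₁ hε₁ hF₁ hK hε₁s k
    obtain ⟨x₁, rfl⟩ := hb₁.2 y₁
    rw [← α.nat ε₁ hε₁ x₁, ← α.nat _ hses.equiv_i] at hk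
    have hx₀ := hb₀.1 hk
    rw [← hx₀, HFun.map_comp_apply, HFun.map_comp_apply]
    have hz : (ε.comp (kerSub ε hε).incl).comp ε₁ = 0 := by
      ext a
      exact (hses.exact _).mpr ⟨ε₁ a, rfl⟩
    rw [H.map_congr hz _ (isEquivariant_zero G), H.map_zero]
    rfl
  · -- surjectivity
    intro y
    obtain ⟨y₀, rfl⟩ := hs' _ _ ε hε hF₀ hN hεs y
    obtain ⟨x₀, rfl⟩ := hb₀.2 y₀
    exact ⟨H.map ε hε x₀, α.nat ε hε x₀⟩

end Fermat.Agent.S55.F2
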