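/-
S55 / FORMAL-F2, node N20 (LD) = blueprint F2(b), local duality for all coefficient modules.
PROOF.  `α := resT f (pairT K₂ (ResMod f μ) t) : NatT (resFun f K₂) (resFun f (dualHom Γ (ResMod f μ) p))`; `α.app N` is
`pairHom K₂ (ResMod f μ) t (ResMod f N)` by `rfl`.  `N` good: choose `U ∈ 𝓝` acting trivially on `μ` with `InC U p N`
(`exists_level_actsTrivially`, `Good.exists_inC`; trivial action passes to smaller subgroups).  The target functor is right exact on `InC U p`:
`resFun_middleExactOn`, `resFun_preservesSurjOn` + `dualHom_middleExactOn`, `dualHom_preservesSurjOn` (for the group `Γ`, module `ResMod f μ`,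
killed by `p` by `nsmul_eq_zero_of_card`).  Base: `exists_untwist_quotient` + `NatT.bijective_of_equiv` + `hT3`.  Conclude with `NatT.bijective_of_free`.
-/
import Fermat.Agent.S55.F2.Five
import Fermat.Agent.S55.F2.DualExact
import Fermat.Agent.S55.F2.Untwist
import Fermat.Agent.S55.F2.Transport

set_option autoImplicit false

namespace Fermat.Agent.S55.F2

variable {G : Type} [Group G]

theorem ld_bijective {Γ : Type} [Group Γ] (f : Γ →* G) (𝓝 : LevelSys G) (p : ℕ) [Fact p.Prime]
    (μ : Type) [AddCommGroup μ] [DistribMulAction G μ] (hμ : Nat.card μ = p) [Smooth 𝓝 μ]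
    (K₂ : HFun Γ) (t : K₂.obj (ResMod f μ) →+ ZMod p)
    (hs : ∀ U ∈ 𝓝.carrier, (resFun f K₂).PreservesSurjOn U p)
    (hT3 : ∀ U ∈ 𝓝.carrier, ActsTrivially U μ →
      Function.Bijective (pairHom K₂ (ResMod f μ) t (ResMod f (IndMod (G ⧸ U) μ))))
    (N : Type) [AddCommGroup N] [DistribMulAction G N] (hN : Good 𝓝 p N) :
    Function.Bijective (pairHom K₂ (ResMod f μ) t (ResMod f N)) := by
  have hfin : Finite μ := Nat.finite_of_card_ne_zero (by rw [hμ]; exact (Fact.out : p.Prime).ne_zero)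
  obtain ⟨U₀, hU₀⟩ := 𝓝.nonempty
  obtain ⟨U₁, hU₁, -, htriv₁⟩ := exists_level_actsTrivially 𝓝 μ U₀ hU₀
  obtain ⟨U, hU, hUU₁, hInC⟩ := hN.exists_inC U₁ hU₁
  have htriv : ActsTrivially U μ := fun v hv m => htriv₁ v (hUU₁ hv) m
  have := 𝓝.normal U hU
  have := 𝓝.finiteIndex U hU
  have hpμ : ∀ m : ResMod f μ, p • m = 0 := fun m => nsmul_eq_zero_of_card (μ := μ) hμ m
  let α : NatT (resFun f K₂) (resFun f (dualHom Γ (ResMod f μ) p)) :=
    resT f (pairT K₂ (ResMod f μ) t)
  obtain ⟨e, he⟩ := exists_untwist_quotient p μ hμ U htriv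
  have hbase : Function.Bijective (α.app (IndMod (G ⧸ U) (Fp p))) :=
    NatT.bijective_of_equiv α e he (hT3 U hU htriv)
  exact NatT.bijective_of_free U p α (hs U hU)
    (resFun_middleExactOn f _ U p (dualHom_middleExactOn p (ResMod f μ) hpμ (U.comap f)))
    (resFun_preservesSurjOn f _ U p (dualHom_preservesSurjOn p (ResMod f μ) hpμ (U.comap f)))
    hbase N hInC

end Fermat.Agent.S55.F2
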