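/-
S55 / FORMAL-F2, node N19 (Nondeg).  A pairing `X × V → ZMod p` (`V` finite, killed by `p`) induces a bijection
`X → Hom(V, ZMod p)` iff it is nondegenerate on both sides.
PROOF.  Injective ⟺ left nondegenerate.  (⇒, right) for `v ≠ 0` there is `ξ : V →+ ZMod p` with `ξ v ≠ 0` (vector space over
`ZMod p`: `AddCommGroup.zmodModule hV`, `Module.forall_dual_apply_eq_zero_iff`).  (⇐, surjective) let `W = range B`, a subspace of the
dual of the finite-dimensional space `V`; if `W ≠ ⊤` its annihilator in `V` is nonzero (`Subspace.dualCoannihilator`/finrank count,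
or counting: `V ↪ Hom(W, ZMod p)` gives `card V ≤ card W ≤ card (Hom(V, ZMod p)) = card V`).
Fermat/Agent/S55/Formal/F1Abs.lean (landed, Mathlib only) contains annL/annR/card lemmas which may be imported and reused.
-/
import Fermat.Agent.S55.F2.Defs

set_option autoImplicit false
set_option linter.style.haveILetI false

namespace Fermat.Agent.S55.F2

variable {G : Type} [Group G]

theorem Nondeg_bijective_iff_aux (p : ℕ) [Fact p.Prime] {X V : Type} [AddCommGroup X] [AddCommGroup V]
    [Finite V] [Module (ZMod p) V] (B : X →+ (V →+ ZMod p)) :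
    Function.Bijective B ↔
      (∀ x, (∀ v, B x v = 0) → x = 0) ∧ (∀ v, (∀ x, B x v = 0) → v = 0) := by
  haveI : Module.Finite (ZMod p) V := Module.Finite.of_finite
  constructor
  · intro hB
    refine ⟨fun x hx => ?_, fun v hv => ?_⟩
    · apply hB.1
      rw [map_zero]
      ext v
      exact hx v
    · have h : ∀ φ : Module.Dual (ZMod p) V, φ v = 0 := by
        intro φ
        obtain ⟨x, hx⟩ := hB.2 φ.toAddMonoidHom
        have := hv x
        rw [hx] at this
        exact this
      exact (Module.forall_dual_apply_eq_zero_iff (ZMod p) v).mp h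
  · rintro ⟨hL, hR⟩
    refine ⟨?_, ?_⟩
    · rw [injective_iff_map_eq_zero]
      intro x hx
      apply hL
      intro v
      rw [hx]
      rfl
    · let φ : X →+ Module.Dual (ZMod p) V :=
        { toFun := fun x => (B x).toZModLinearMap p
          map_zero' := by
            ext v
            show B 0 v = (0 : ZMod p)
            rw [map_zero]
            rfl
          map_add' := fun x y => by
            ext v
            show B (x + y) v = B x v + B y v
            rw [map_add]
            rfl }
      let W : Submodule (ZMod p) (Module.Dual (ZMod p) V) := AddSubgroup.toZModSubmodule p φ.range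
      have hco : W.dualCoannihilator = ⊥ := by
        rw [eq_bot_iff]
        intro v hv
        rw [Submodule.mem_dualCoannihilator] at hv
        rw [Submodule.mem_bot]
        apply hR
        intro x
        exact hv (φ x) ⟨x, rfl⟩
      have hW : W = ⊤ := by
        rw [← Subspace.dualCoannihilator_dualAnnihilator_eq (W := W), hco,
          Submodule.dualAnnihilator_bot]
      intro ξ
      have hmem : ξ.toZModLinearMap p ∈ W := by
        rw [hW]
        exact Submodule.mem_top
      obtain ⟨x, hx⟩ := hmem
      exact ⟨x, AddMonoidHom.toZModLinearMap_injective p hx⟩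

theorem bijective_iff_nondeg (p : ℕ) [Fact p.Prime] {X V : Type} [AddCommGroup X] [AddCommGroup V]
    [Finite V] (hV : ∀ v : V, p • v = 0) (B : X →+ (V →+ ZMod p)) :
    Function.Bijective B ↔
      (∀ x, (∀ v, B x v = 0) → x = 0) ∧ (∀ v, (∀ x, B x v = 0) → v = 0) := by
  letI : Module (ZMod p) V := AddCommGroup.zmodModule hV
  exact Nondeg_bijective_iff_aux p B

/-- `Hom_G(N, M)` is finite and killed by `p`. -/
theorem finite_homG (N M : Type) [AddCommGroup N] [DistribMulAction G N] [AddCommGroup M]
    [DistribMulAction G M] [Finite N] [Finite M] : Finite ↥(HomG G N M) := by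
  have h1 : Finite (N →+ M) := Finite.of_injective (fun f : N →+ M => (f : N → M))
    DFunLike.coe_injective
  infer_instance

theorem nsmul_homG_eq_zero {p : ℕ} (N M : Type) [AddCommGroup N] [DistribMulAction G N]
    [AddCommGroup M] [DistribMulAction G M] (hM : ∀ m : M, p • m = 0) (f : ↥(HomG G N M)) :
    p • f = 0 := by
  apply Subtype.ext
  ext x
  exact hM (f.1 x)

/-- The pairing `pairHom` is bijective iff it is nondegenerate on both sides. -/
theorem pairHom_bijective_iff (p : ℕ) [Fact p.Prime] (H : HFun G) (M : Type) [AddCommGroup M]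
    [DistribMulAction G M] [Finite M] (hM : ∀ m : M, p • m = 0) (t : H.obj M →+ ZMod p)
    (N : Type) [AddCommGroup N] [DistribMulAction G N] [Finite N] :
    Function.Bijective (pairHom H M t N) ↔
      (∀ x : H.obj N, (∀ f : ↥(HomG G N M), t (H.map f.1 f.2 x) = 0) → x = 0) ∧
      (∀ f : ↥(HomG G N M), (∀ x : H.obj N, t (H.map f.1 f.2 x) = 0) → f = 0) := by
  haveI := finite_homG (G := G) N M
  exact bijective_iff_nondeg p (nsmul_homG_eq_zero N M hM) (pairHom H M t N)

end Fermat.Agent.S55.F2
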