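/-
S55 / FORMAL-F2, node Z2 (FinalLD).  (LD₁), (LD₂) from (T2), (T3).
PROOF.  `final_LD_bijective`: `ld_bijective (ιv q) (lvlS S) p (Mu p) I.cardMu (hsmFun (lvlLoc q) 2) (I.t q) (final_BQ_surj I q hq)`; its `hT3` is
`(pairHom_bijective_iff ..).2 ⟨T3₁, T3₂⟩` for the group `Gv q`, `M = ResMod (ιv q) (Mu p)`, `N = ResMod (ιv q) (IndMod (GQ ⧸ U) (Mu p))`
(finiteness: `Mu p` is finite since `Nat.card (Mu p) = p ≠ 0`; `GQ ⧸ U` finite by `(lvlS S).finiteIndex`).
Dictionary: `f : HomLoc q N A` (bundled) ↔ `⟨(f : _ →+ _), isEquivariant_coe f⟩ : HomG (Gv q) _ _`, and `mkHom g.1 g.2` for the converse;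
`(hsmFun _ 2).map g.1 g.2 = Hsm.map (mkHom g.1 g.2) 2` by `rfl`; `Hsm.map_congr` if needed.
`final_LD₁`, `final_LD₂`: `(pairHom_bijective_iff ..).1 (final_LD_bijective ..)` and the same dictionary.
-/
import Fermat.Agent.S55.F2.FinalRE
import Fermat.Agent.S55.F2.LD
import Fermat.Agent.S55.F2.Nondeg

set_option autoImplicit false

namespace Fermat.Agent.S55.F2

variable {S : Finset Nat.Primes} {p : ℕ} [Fact p.Prime]

/-- The dictionary "nondegenerate for bundled maps" ↔ "`pairHom` bijective". -/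
theorem FinalLD.bijective_iff (I : ArithInput S p) (q : Nat.Primes) (N : Type)
    [AddCommGroup N] [DistribMulAction GQ N] [Finite N] :
    Function.Bijective (pairHom (hsmFun (lvlLoc q) 2) (ResMod (ιv q) (Mu p)) (I.t q)
      (ResMod (ιv q) N)) ↔
      (∀ x : Hloc q N 2, (∀ f : HomLoc q N (Mu p), I.t q (Hsm.map f 2 x) = 0) → x = 0) ∧
      (∀ f : HomLoc q N (Mu p), (∀ x : Hloc q N 2, I.t q (Hsm.map f 2 x) = 0) → ∀ n, f n = 0) := by
  have hfM : Finite (ResMod (ιv q) (Mu p)) := I.coefMu.finite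
  have hfN : Finite (ResMod (ιv q) N) := ‹Finite N›
  have hM : ∀ m : ResMod (ιv q) (Mu p), p • m = 0 := I.coefMu.ptors
  rw [pairHom_bijective_iff p (hsmFun (lvlLoc q) 2) (ResMod (ιv q) (Mu p)) hM (I.t q)
    (ResMod (ιv q) N)]
  constructor
  · rintro ⟨h1, h2⟩
    refine ⟨fun x hx => h1 x fun f => hx (mkHom f.1 f.2), fun f hf n => ?_⟩
    have h3 := h2 ⟨(f : ResMod (ιv q) N →+ ResMod (ιv q) (Mu p)), isEquivariant_coe f⟩ hf
    exact congrArg (fun g : ↥(HomG (Gv q) (ResMod (ιv q) N) (ResMod (ιv q) (Mu p))) => g.1 n) h3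
  · rintro ⟨h1, h2⟩
    refine ⟨fun x hx => h1 x fun f => hx ⟨(f : ResMod (ιv q) N →+ ResMod (ιv q) (Mu p)),
      isEquivariant_coe f⟩, fun f hf => ?_⟩
    apply Subtype.ext
    ext n
    exact h2 (mkHom f.1 f.2) hf n

theorem final_LD_bijective (I : ArithInput S p) (q : Nat.Primes) (hq : q ∈ S) (N : Type)
    [AddCommGroup N] [DistribMulAction GQ N] (hN : IsCoef S p N) :
    Function.Bijective (pairHom (hsmFun (lvlLoc q) 2) (ResMod (ιv q) (Mu p)) (I.t q)
      (ResMod (ιv q) N)) := by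
  have := I.coefMu.smooth
  refine ld_bijective (ιv q) (lvlS S) p (Mu p) I.cardMu (hsmFun (lvlLoc q) 2) (I.t q)
    (final_BQ_surj I q hq) ?_ N (good_iff.2 hN)
  intro U hU hUt
  have hfM : Finite (Mu p) := I.coefMu.finite
  have hfi : U.FiniteIndex := (lvlS S).finiteIndex U hU
  have hfQ : Finite (GQ ⧸ U) := Subgroup.finite_quotient_of_finiteIndex
  have hfI : Finite (IndMod (GQ ⧸ U) (Mu p)) :=
    Finite.of_injective (fun f : IndMod (GQ ⧸ U) (Mu p) => (f : GQ ⧸ U → Mu p))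
      DFunLike.coe_injective
  exact (FinalLD.bijective_iff I q (IndMod (GQ ⧸ U) (Mu p))).2
    ⟨I.T3₁ U hU hUt q hq, I.T3₂ U hU hUt q hq⟩

theorem final_LD₁ (I : ArithInput S p) (N : Type) [AddCommGroup N] [DistribMulAction GQ N]
    (hN : IsCoef S p N) (q : Nat.Primes) (hq : q ∈ S) (x : Hloc q N 2)
    (h : ∀ f : HomLoc q N (Mu p), I.t q (Hsm.map f 2 x) = 0) : x = 0 := by
  have := hN.finite
  exact ((FinalLD.bijective_iff I q N).1 (final_LD_bijective I q hq N hN)).1 x h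

theorem final_LD₂ (I : ArithInput S p) (N : Type) [AddCommGroup N] [DistribMulAction GQ N]
    (hN : IsCoef S p N) (q : Nat.Primes) (hq : q ∈ S) (f : HomLoc q N (Mu p))
    (h : ∀ x : Hloc q N 2, I.t q (Hsm.map f 2 x) = 0) : ∀ n, f n = 0 := by
  have := hN.finite
  exact ((FinalLD.bijective_iff I q N).1 (final_LD_bijective I q hq N hN)).2 f h

end Fermat.Agent.S55.F2
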