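/-
S55 / FORMAL-F2, node N10 (HomInd).  `Hom_G(Map(G/V, μ), μ)` is generated by the sum map (`μ` of prime order `p`).
PROOF.  `δ x m` = the function with value `m` at `x` and `0` elsewhere; `g • δ x m = δ (g • x) (g • m)`;
`F = ∑ x, δ x (F x)`.  `φ m := f (δ (1 : G ⧸ V) m)` is an additive endomorphism of a cyclic group, so `φ = c • id`
(take a generator `ζ ≠ 0`, `φ ζ = c • ζ` by `bijective_val_nsmul`-type surjectivity).  Then
`f (δ (gV) m) = f (g • δ V (g⁻¹ • m)) = g • c • g⁻¹ • m = c • m`.
-/
import Fermat.Agent.S55.F2.Defs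

set_option autoImplicit false

namespace Fermat.Agent.S55.F2

variable {G : Type} [Group G]

section delta

variable {X A : Type} [AddCommGroup A]

open Classical in
/-- The function with value `m` at `x` and `0` elsewhere. -/
noncomputable def homIndDelta (x : X) : A →+ IndMod X A where
  toFun m := IndMod.of fun y => if y = x then m else 0
  map_zero' := by
    ext y
    simp
  map_add' a b := by
    ext y
    simp only [IndMod.of_apply, IndMod.add_apply]
    split_ifs <;> simp

open Classical in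
theorem homIndDelta_apply (x : X) (m : A) (y : X) :
    homIndDelta x m y = if y = x then m else 0 := rfl

theorem homIndDelta_self (x : X) (m : A) : homIndDelta x m x = m := by
  rw [homIndDelta_apply, if_pos rfl]

theorem homIndDelta_of_ne (x : X) (m : A) {y : X} (h : y ≠ x) : homIndDelta x m y = 0 := by
  rw [homIndDelta_apply, if_neg h]

theorem homInd_smul_delta [MulAction G X] [DistribMulAction G A] (g : G) (x : X) (m : A) :
    g • homIndDelta x m = homIndDelta (g • x) (g • m) := by
  ext y
  rw [IndMod.smul_apply]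
  by_cases h : y = g • x
  · subst h
    rw [inv_smul_smul, homIndDelta_self, homIndDelta_self]
  · rw [homIndDelta_of_ne _ _ h, homIndDelta_of_ne, smul_zero]
    intro h2
    exact h (by rw [← h2, smul_inv_smul])

theorem homInd_eq_sum_delta [Fintype X] (F : IndMod X A) :
    F = ∑ x, homIndDelta x (F x) := by
  ext y
  have h : ∀ (s : Finset X) (φ : X → IndMod X A), (∑ x ∈ s, φ x) y = ∑ x ∈ s, φ x y := by
    intro s φ
    classical
    induction s using Finset.induction_on with
    | empty => simp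
    | insert a s ha ih => rw [Finset.sum_insert ha, Finset.sum_insert ha, IndMod.add_apply, ih]
  rw [h, Finset.sum_eq_single y, homIndDelta_self]
  · intro x _ hx
    exact homIndDelta_of_ne _ _ hx.symm
  · intro hy
    exact absurd (Finset.mem_univ y) hy

theorem homInd_sumX_delta [Finite X] (x : X) (m : A) : sumX X A (homIndDelta x m) = m := by
  cases nonempty_fintype X
  rw [sumX_eq_sum, Finset.sum_eq_single x, homIndDelta_self]
  · intro y _ hy
    exact homIndDelta_of_ne _ _ hy
  · intro hx
    exact absurd (Finset.mem_univ x) hx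

end delta

variable (p : ℕ) [Fact p.Prime] (μ : Type) [AddCommGroup μ] [DistribMulAction G μ]

theorem homG_indMod_eq (hμ : Nat.card μ = p) (V : Subgroup G) [V.FiniteIndex]
    (f : IndMod (G ⧸ V) μ →+ μ) (hf : IsEquivariant G f) :
    ∃ c : ℕ, f = c • sumX (G ⧸ V) μ := by
  have hfin : Finite μ := Nat.finite_of_card_ne_zero (by rw [hμ]; exact (Fact.out : p.Prime).ne_zero)
  have hcyc : IsAddCyclic μ := isAddCyclic_of_prime_card hμ
  obtain ⟨ζ, hζ⟩ := IsAddCyclic.exists_addMonoid_generator (α := μ)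
  obtain ⟨c, hc⟩ := hζ (f (homIndDelta ((1 : G) : G ⧸ V) ζ))
  have hc' : c • ζ = f (homIndDelta ((1 : G) : G ⧸ V) ζ) := hc
  have h1 : ∀ m : μ, f (homIndDelta ((1 : G) : G ⧸ V) m) = c • m := by
    intro m
    obtain ⟨n, hn⟩ := hζ m
    have hn' : n • ζ = m := hn
    rw [← hn', map_nsmul, map_nsmul, ← hc', smul_comm]
  have h2 : ∀ (x : G ⧸ V) (m : μ), f (homIndDelta x m) = c • m := by
    intro x m
    induction x using QuotientGroup.induction_on with
    | H g =>
      have h3 : homIndDelta ((g : G) : G ⧸ V) m =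
          g • homIndDelta ((1 : G) : G ⧸ V) (g⁻¹ • m) := by
        have h4 : g • ((1 : G) : G ⧸ V) = ((g : G) : G ⧸ V) := by
          show ((g * 1 : G) : G ⧸ V) = _
          rw [mul_one]
        rw [homInd_smul_delta, smul_inv_smul, h4]
      rw [h3, hf, h1, smul_comm, smul_inv_smul]
  refine ⟨c, ?_⟩
  cases nonempty_fintype (G ⧸ V)
  ext F
  rw [AddMonoidHom.nsmul_apply, sumX_eq_sum]
  conv_lhs => rw [homInd_eq_sum_delta F, map_sum]
  rw [Finset.smul_sum (f := fun x => F x)]
  exact Finset.sum_congr rfl fun x _ => h2 x (F x)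

theorem sumX_surjective (X A : Type) [AddCommGroup A] [Finite X] [Nonempty X] :
    Function.Surjective (sumX X A) := fun a =>
  ⟨homIndDelta (Classical.arbitrary X) a, homInd_sumX_delta _ a⟩

/-- Evaluation at the sum map is a bijection `Hom(Hom_G(Map(G/V, μ), μ), ZMod p) → ZMod p`. -/
theorem bijective_eval_sumX (hμ : Nat.card μ = p) (V : Subgroup G) [V.FiniteIndex] :
    Function.Bijective (fun ξ : ↥(HomG G (IndMod (G ⧸ V) μ) μ) →+ ZMod p =>
      ξ ⟨sumX (G ⧸ V) μ, isEquivariant_sumX G μ (G ⧸ V)⟩) := by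
  constructor
  · intro ξ ξ' h
    ext f
    obtain ⟨c, hc⟩ := homG_indMod_eq p μ hμ V f.1 f.2
    have hf : f = c • (⟨sumX (G ⧸ V) μ, isEquivariant_sumX G μ (G ⧸ V)⟩ :
        ↥(HomG G (IndMod (G ⧸ V) μ) μ)) := Subtype.ext hc
    rw [hf, map_nsmul, map_nsmul]
    exact congrArg (c • ·) h
  · intro a
    have hcyc : IsAddCyclic μ := isAddCyclic_of_prime_card hμ
    subst hμ
    let e : ZMod (Nat.card μ) ≃+ μ := zmodAddCyclicAddEquiv hcyc
    let ev : ↥(HomG G (IndMod (G ⧸ V) μ) μ) →+ μ :=
      { toFun := fun f => f.1 (homIndDelta ((1 : G) : G ⧸ V) (e 1))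
        map_zero' := rfl
        map_add' := fun _ _ => rfl }
    refine ⟨(AddMonoidHom.mulLeft a).comp (e.symm.toAddMonoidHom.comp ev), ?_⟩
    show a * e.symm (sumX (G ⧸ V) μ (homIndDelta ((1 : G) : G ⧸ V) (e 1))) = a
    rw [homInd_sumX_delta, AddEquiv.symm_apply_apply, mul_one]

end Fermat.Agent.S55.F2
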