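/-
S55 / FORMAL-F2, node N21a (BasePT).  The Poitou-Tate tail on `R = IndMod (G ⧸ U) (Fp p)` from (T4) on `μ_U = IndMod (G ⧸ U) μ`.
PROOF.  By `exists_untwist_quotient` and `NatT.exact_of_equiv` / `NatT.surjective_of_equiv` it suffices to treat `μ_U`.
`(sumPairT B μ t).app μ_U y = 0` ⟺ `∀ f, ∑ q, t q (f_* y q) = 0` (`sumPairT_app_apply`, `DFunLike.ext`) ⟺ the same for `f = sumX`
(every `f = c • sumX` by `homG_indMod_eq`; `HFun.map_nsmul`, `HFun.map_congr`, `Finset.smul_sum`).  `(locT loc).app _ x = y` ⟺ `∀ q, ..` (`funext`).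
Surjectivity: by `bijective_eval_sumX` it suffices to hit every value of `ξ ↦ ξ ⟨sumX, _⟩`; take `y = Pi.single q₀ x`
(`classical`; `(B q).map _ _ 0 = 0`) with `t q₀ (sum_* x)` prescribed.
-/
import Fermat.Agent.S55.F2.HomInd
import Fermat.Agent.S55.F2.Untwist
import Fermat.Agent.S55.F2.Transport

set_option autoImplicit false

namespace Fermat.Agent.S55.F2

variable {G : Type} [Group G]

variable (p : ℕ) [Fact p.Prime] (μ : Type) [AddCommGroup μ] [DistribMulAction G μ]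
  {ι : Type} [Fintype ι] {A : HFun G} {B : ι → HFun G}

/-- the pairing with all of `Hom_G(μ_U, μ)` vanishes iff the pairing with the sum map does. -/
theorem basePT_sumPairT_eq_zero_iff (hμ : Nat.card μ = p) (t : ∀ q, (B q).obj μ →+ ZMod p)
    (U : Subgroup G) [U.FiniteIndex] (y : ∀ q, (B q).obj (IndMod (G ⧸ U) μ)) :
    (sumPairT B μ t).app (IndMod (G ⧸ U) μ) y = 0 ↔
      ∑ q, t q ((B q).map (sumX (G ⧸ U) μ) (isEquivariant_sumX G μ (G ⧸ U)) (y q)) = 0 := by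
  constructor
  · intro h
    have h1 := DFunLike.congr_fun h
      (⟨sumX (G ⧸ U) μ, isEquivariant_sumX G μ (G ⧸ U)⟩ : ↥(HomG G (IndMod (G ⧸ U) μ) μ))
    rw [sumPairT_app_apply] at h1
    exact h1
  · intro h
    refine DFunLike.ext _ _ fun f => ?_
    obtain ⟨c, hc⟩ := homG_indMod_eq p μ hμ U f.1 f.2
    rw [sumPairT_app_apply]
    have h1 : ∀ q, t q ((B q).map f.1 f.2 (y q)) =
        c • t q ((B q).map (sumX (G ⧸ U) μ) (isEquivariant_sumX G μ (G ⧸ U)) (y q)) := by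
      intro q
      rw [(B q).map_congr hc f.2 (IsEquivariant.nsmul (isEquivariant_sumX G μ (G ⧸ U)) c),
        (B q).map_nsmul, AddMonoidHom.nsmul_apply, map_nsmul]
    rw [Finset.sum_congr rfl fun q _ => h1 q, ← Finset.smul_sum, h, smul_zero]
    rfl

theorem pt_base (hμ : Nat.card μ = p) (loc : ∀ q, NatT A (B q)) (t : ∀ q, (B q).obj μ →+ ZMod p)
    (U : Subgroup G) [U.FiniteIndex] (hU : ActsTrivially U μ)
    (hT4 : ∀ y : (∀ q, (B q).obj (IndMod (G ⧸ U) μ)),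
      (∑ q, t q ((B q).map (sumX (G ⧸ U) μ) (isEquivariant_sumX G μ (G ⧸ U)) (y q)) = 0) ↔
        ∃ x : A.obj (IndMod (G ⧸ U) μ), ∀ q, (loc q).app _ x = y q) :
    ∀ y : (prodFun B).obj (IndMod (G ⧸ U) (Fp p)),
      (sumPairT B μ t).app (IndMod (G ⧸ U) (Fp p)) y = 0 ↔
        ∃ x, (locT loc).app (IndMod (G ⧸ U) (Fp p)) x = y := by
  obtain ⟨e, he⟩ := exists_untwist_quotient p μ hμ U hU
  refine NatT.exact_of_equiv (locT loc) (sumPairT B μ t) e he fun y => ?_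
  rw [basePT_sumPairT_eq_zero_iff p μ hμ t U y, hT4 y]
  constructor
  · rintro ⟨x, hx⟩
    exact ⟨x, funext hx⟩
  · rintro ⟨x, hx⟩
    exact ⟨x, fun q => congrFun hx q⟩

theorem pt_base_surj (hμ : Nat.card μ = p) [Nonempty ι] (t : ∀ q, (B q).obj μ →+ ZMod p)
    (U : Subgroup G) [U.FiniteIndex] (hU : ActsTrivially U μ)
    (hsurj : ∀ q, Function.Surjective (fun x : (B q).obj (IndMod (G ⧸ U) μ) =>
      t q ((B q).map (sumX (G ⧸ U) μ) (isEquivariant_sumX G μ (G ⧸ U)) x))) :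
    Function.Surjective ((sumPairT B μ t).app (IndMod (G ⧸ U) (Fp p))) := by
  classical
  obtain ⟨e, he⟩ := exists_untwist_quotient p μ hμ U hU
  refine NatT.surjective_of_equiv (sumPairT B μ t) e he fun ξ => ?_
  let q₀ : ι := Classical.arbitrary ι
  obtain ⟨x, hx⟩ := hsurj q₀ (ξ ⟨sumX (G ⧸ U) μ, isEquivariant_sumX G μ (G ⧸ U)⟩)
  refine ⟨Pi.single q₀ x, (bijective_eval_sumX p μ hμ U).1 ?_⟩
  show (sumPairT B μ t).app (IndMod (G ⧸ U) μ) (Pi.single q₀ x)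
    ⟨sumX (G ⧸ U) μ, isEquivariant_sumX G μ (G ⧸ U)⟩ = ξ ⟨sumX (G ⧸ U) μ, _⟩
  rw [sumPairT_app_apply, Finset.sum_eq_single q₀]
  · rw [Pi.single_eq_same]
    exact hx
  · intro q _ hq
    rw [Pi.single_eq_of_ne hq, map_zero, map_zero]
  · intro h
    exact absurd (Finset.mem_univ q₀) h

end Fermat.Agent.S55.F2
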