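/-
S55 / FORMAL-F2, node N07 (Exact).  Exactness of `A → B → C` on `R = IndMod (G ⧸ U) (Fp p)` (plus surjectivity of
`B(R) → C(R)`) implies exactness on the whole class `InC U p`.
PROOF.  `ε : F₀ = (N → R) ↠ N`, `K = ker ε`, `ε₁ : F₁ = (K → R) ↠ K`, `d = incl ∘ ε₁ : F₁ → F₀`, `ε ∘ d = 0`.
The hypotheses hold on `F₀, F₁` by `NatT.exact_pi`, `NatT.surjective_pi`.
(⇒) `y ∈ B(N)`, `b y = 0`.  Lift `y = B(ε) y'` (`hB`).  `c' = b y'` dies in `C(N)`, so `c' = C(incl) k` (`hC`),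
`k = C(ε₁) c''` (`hCs`), `c'' = b y''` (surjectivity on `F₁`).  Then `b (y' - B(d) y'') = 0`, so
`y' - B(d) y'' = a x₀`, and `y = B(ε)(y' - B(d) y'') = a (A(ε) x₀)`.
(⇐) `y = a x`, `x = A(ε) x₀` (`hA`), `b (a x₀) = 0` on `F₀`; push forward.
-/
import Fermat.Agent.S55.F2.Pi
import Fermat.Agent.S55.F2.Ker
import Fermat.Agent.S55.F2.Present

set_option autoImplicit false

namespace Fermat.Agent.S55.F2

variable {G : Type} [Group G]

theorem NatT.exact_of_free (U : Subgroup G) [U.Normal] [U.FiniteIndex] (p : ℕ) [Fact p.Prime]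
    {A B C : HFun G} (a : NatT A B) (b : NatT B C)
    (hA : A.PreservesSurjOn U p) (hB : B.PreservesSurjOn U p)
    (hC : C.MiddleExactOn U p) (hCs : C.PreservesSurjOn U p)
    (hbase : ∀ y : B.obj (IndMod (G ⧸ U) (Fp p)),
      b.app (IndMod (G ⧸ U) (Fp p)) y = 0 ↔ ∃ x, a.app (IndMod (G ⧸ U) (Fp p)) x = y)
    (hsurj : Function.Surjective (b.app (IndMod (G ⧸ U) (Fp p))))
    (N : Type) [AddCommGroup N] [DistribMulAction G N] (hN : InC U p N) :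
    ∀ y : B.obj N, b.app N y = 0 ↔ ∃ x, a.app N x = y := by
  classical
  have hR : InC U p (IndMod (G ⧸ U) (Fp p)) := InC.indMod_quotient U le_rfl (InC.fp U p)
  have : Finite N := hN.finite
  obtain ⟨ε, hε, hεs⟩ := exists_surj_free U p N hN
  have hF₀ : InC U p (N → IndMod (G ⧸ U) (Fp p)) := InC.pi N hR
  have hK : InC U p (kerSub ε hε).Mod := InC.gsubMod (kerSub ε hε) hF₀
  have : Finite (kerSub ε hε).Mod := hK.finite
  obtain ⟨ε₁, hε₁, hε₁s⟩ := exists_surj_free U p (kerSub ε hε).Mod hK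
  have hF₁ : InC U p ((kerSub ε hε).Mod → IndMod (G ⧸ U) (Fp p)) := InC.pi _ hR
  have hses : IsSES G (kerSub ε hε).incl ε := isSES_ker ε hε hεs
  have hex₀ := NatT.exact_pi (ι := N) (A := IndMod (G ⧸ U) (Fp p)) a b hbase
  have hsu₁ := NatT.surjective_pi (ι := (kerSub ε hε).Mod) (A := IndMod (G ⧸ U) (Fp p)) b hsurj
  intro y
  constructor
  · intro hy
    obtain ⟨y', hy'⟩ := hB _ _ ε hε hF₀ hN hεs y
    have hc' : C.map ε hses.equiv_π (b.app _ y') = 0 := by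
      rw [← b.nat ε hses.equiv_π y', hy', hy]
    obtain ⟨k, hk⟩ := hC _ _ _ _ _ hses hK hF₀ hN _ hc'
    obtain ⟨c'', hc''⟩ := hCs _ _ ε₁ hε₁ hF₁ hK hε₁s k
    obtain ⟨y'', hy''⟩ := hsu₁ c''
    have hz : b.app _ (y' - B.map (kerSub ε hε).incl hses.equiv_i (B.map ε₁ hε₁ y'')) = 0 := by
      rw [map_sub, b.nat, b.nat, hy'', hc'', hk, sub_self]
    obtain ⟨x₀, hx₀⟩ := (hex₀ _).1 hz
    refine ⟨A.map ε hε x₀, ?_⟩
    rw [a.nat, hx₀, map_sub, hy', HFun.map_comp_apply]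
    have h0 : ε.comp (kerSub ε hε).incl = 0 := by
      ext w
      exact (hses.exact _).2 ⟨w, rfl⟩
    rw [HFun.map_congr B h0 _ (isEquivariant_zero G), HFun.map_zero]
    simp
  · rintro ⟨x, rfl⟩
    obtain ⟨x₀, rfl⟩ := hA _ _ ε hε hF₀ hN hεs x
    rw [a.nat, b.nat, (hex₀ _).2 ⟨x₀, rfl⟩, map_zero]

end Fermat.Agent.S55.F2
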