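/-
S55 / FORMAL-F2, node N21 (PT) = blueprint F2(b), the Poitou-Tate tail for all coefficient modules.
PROOF.  If `ι` is empty both sides are trivially true (`x = 0`, empty sums).  Otherwise: `N` good, choose `U ∈ 𝓝` acting trivially on `μ`
with `InC U p N`; instances `U.Normal`, `U.FiniteIndex` from `𝓝`.  Apply `NatT.exact_of_free U p (locT loc) (sumPairT B μ t)` with
`hA U`, `prodFun_preservesSurjOn`, `dualHom_middleExactOn`, `dualHom_preservesSurjOn`, `pt_base`, `pt_base_surj`.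
Translate with `sumPairT_app_apply` (+ `DFunLike.ext`) and `funext`.
-/
import Fermat.Agent.S55.F2.Exact
import Fermat.Agent.S55.F2.DualExact
import Fermat.Agent.S55.F2.BasePT

set_option autoImplicit false

namespace Fermat.Agent.S55.F2

variable {G : Type} [Group G]

theorem pt_exact (𝓝 : LevelSys G) (p : ℕ) [Fact p.Prime] (μ : Type) [AddCommGroup μ]
    [DistribMulAction G μ] (hμ : Nat.card μ = p) [Smooth 𝓝 μ] {ι : Type} [Fintype ι]
    {A : HFun G} {B : ι → HFun G} (loc : ∀ q, NatT A (B q)) (t : ∀ q, (B q).obj μ →+ ZMod p)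
    (hA : ∀ U ∈ 𝓝.carrier, A.PreservesSurjOn U p)
    (hB : ∀ q, ∀ U ∈ 𝓝.carrier, (B q).PreservesSurjOn U p)
    (hT4 : ∀ U ∈ 𝓝.carrier, ActsTrivially U μ → ∀ _ : Finite (G ⧸ U),
      ∀ y : (∀ q, (B q).obj (IndMod (G ⧸ U) μ)),
      (∑ q, t q ((B q).map (sumX (G ⧸ U) μ) (isEquivariant_sumX G μ (G ⧸ U)) (y q)) = 0) ↔
        ∃ x : A.obj (IndMod (G ⧸ U) μ), ∀ q, (loc q).app _ x = y q)
    (hsurj : ∀ U ∈ 𝓝.carrier, ActsTrivially U μ → ∀ _ : Finite (G ⧸ U),
      ∀ q, Function.Surjective (fun x : (B q).obj (IndMod (G ⧸ U) μ) =>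
        t q ((B q).map (sumX (G ⧸ U) μ) (isEquivariant_sumX G μ (G ⧸ U)) x)))
    (N : Type) [AddCommGroup N] [DistribMulAction G N] (hN : Good 𝓝 p N)
    (y : ∀ q, (B q).obj N) :
    (∀ f : ↥(HomG G N μ), ∑ q, t q ((B q).map f.1 f.2 (y q)) = 0) ↔
      ∃ x : A.obj N, ∀ q, (loc q).app N x = y q := by
  classical
  rcases isEmpty_or_nonempty ι with hι | hι
  · constructor
    · intro _
      exact ⟨0, fun q => (hι.false q).elim⟩
    · intro _ f
      exact Finset.sum_eq_zero fun q _ => (hι.false q).elim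
  · have hp : p ≠ 0 := (Fact.out : p.Prime).ne_zero
    have : Finite μ := Nat.finite_of_card_ne_zero (by rw [hμ]; exact hp)
    have hμp : ∀ m : μ, p • m = 0 := fun m => by
      rw [← hμ]
      exact card_nsmul_eq_zero'
    obtain ⟨U₀, hU₀⟩ := 𝓝.nonempty
    obtain ⟨U₁, hU₁, -, hU₁μ⟩ := exists_level_actsTrivially 𝓝 μ U₀ hU₀
    obtain ⟨U, hU, hUU₁, hUN⟩ := hN.exists_inC U₁ hU₁
    have hUμ : ActsTrivially U μ := fun v hv m => hU₁μ v (hUU₁ hv) m
    have := 𝓝.normal U hU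
    have := 𝓝.finiteIndex U hU
    have hfin : Finite (G ⧸ U) := inferInstance
    have key := NatT.exact_of_free U p (locT loc) (sumPairT B μ t) (hA U hU)
      (prodFun_preservesSurjOn B U p fun q => hB q U hU)
      (dualHom_middleExactOn p μ hμp U) (dualHom_preservesSurjOn p μ hμp U)
      (pt_base p μ hμ loc t U hUμ (hT4 U hU hUμ hfin))
      (pt_base_surj p μ hμ t U hUμ (hsurj U hU hUμ hfin)) N hUN y
    constructor
    · intro h
      obtain ⟨x, hx⟩ := key.1 (DFunLike.ext _ _ fun f => by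
        rw [sumPairT_app_apply]
        exact h f)
      exact ⟨x, fun q => congrFun hx q⟩
    · rintro ⟨x, hx⟩ f
      have h0 := key.2 ⟨x, funext hx⟩
      rw [← sumPairT_app_apply, h0]
      rfl

end Fermat.Agent.S55.F2
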