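/-
S55 / FORMAL-F2, node Z3 (FinalPT).  (PT₀), (PT₁) from (T1)-(T4).
PROOF.  `pt_exact (lvlS S) p (Mu p) I.cardMu (ι := ↥S) (A := AS S 2) (B := fun q => BQ q.1 2) (locN S 2) (fun q => I.t q.1)
(final_AS_surj I) (fun q => final_BQ_surj I q.1 q.2)`.
`hT4`: `⟨I.T4₁ .., fun ⟨x, hx⟩ => by rw [← funext hx]; exact I.T4₀ ..⟩`; `tU I.t U q y = I.t q ((BQ q 2).map (sumX _ _) _ y)` and `locN_app` are `rfl`
(`sumX_eq_sum'`).  `hsurj`: `f₀ = ResMod.map (ιv q) (IndMod.sum (GQ ⧸ U) (Mu p))` is not zero (`sumX_surjective`, `Mu p` nontrivial), so by `I.T3₂`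
there is `x` with `a = I.t q (Hsm.map f₀ 2 x) ≠ 0`; then `c = (c * a⁻¹).val • a` is the value at `(c * a⁻¹).val • x`.
Dictionary `N →+[GQ] Mu p` ↔ `HomG GQ N (Mu p)` as in FinalLD; `BQ_map` is `rfl`.
-/
import Fermat.Agent.S55.F2.FinalRE
import Fermat.Agent.S55.F2.PT

set_option autoImplicit false

namespace Fermat.Agent.S55.F2

variable {S : Finset Nat.Primes} {p : ℕ} [Fact p.Prime]

/-- the functional `t_q ∘ (sum)_*` is onto -/
theorem FinalPT_surj (I : ArithInput S p) (U : Subgroup GQ) (hU : U ∈ (lvlS S).carrier)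
    (hUt : Fermat.Agent.S55.ActsTrivially U (Mu p)) [Finite (GQ ⧸ U)] (q : Nat.Primes)
    (hq : q ∈ S) :
    Function.Surjective (fun x : Hloc q (IndMod (GQ ⧸ U) (Mu p)) 2 =>
      I.t q (Hsm.map (ResMod.map (ιv q) (IndMod.sum (GQ ⧸ U) (Mu p))) 2 x)) := by
  classical
  -- `Mu p` is nontrivial
  have hnt : ∃ ζ : Mu p, ζ ≠ 0 := by
    by_contra hcon
    push Not at hcon
    have : Subsingleton (Mu p) := ⟨fun a b => by rw [hcon a, hcon b]⟩
    have h1 : Nat.card (Mu p) = 1 := Nat.card_of_subsingleton 0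
    rw [I.cardMu] at h1
    exact (Fact.out : p.Prime).one_lt.ne' h1
  obtain ⟨ζ, hζ⟩ := hnt
  obtain ⟨F, hF⟩ := sumX_surjective (GQ ⧸ U) (Mu p) ζ
  -- there is a class with non-zero invariant
  have hex : ∃ x : Hloc q (IndMod (GQ ⧸ U) (Mu p)) 2,
      I.t q (Hsm.map (ResMod.map (ιv q) (IndMod.sum (GQ ⧸ U) (Mu p))) 2 x) ≠ 0 := by
    by_contra hcon
    push Not at hcon
    have h0 := I.T3₂ U hU hUt q hq (ResMod.map (ιv q) (IndMod.sum (GQ ⧸ U) (Mu p))) hcon F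
    exact hζ (hF.symm.trans h0)
  obtain ⟨x, hx⟩ := hex
  intro c
  set a := I.t q (Hsm.map (ResMod.map (ιv q) (IndMod.sum (GQ ⧸ U) (Mu p))) 2 x) with ha
  refine ⟨(c * a⁻¹).val • x, ?_⟩
  change I.t q (Hsm.map (ResMod.map (ιv q) (IndMod.sum (GQ ⧸ U) (Mu p))) 2 ((c * a⁻¹).val • x)) = c
  rw [map_nsmul, map_nsmul, ← ha, nsmul_eq_mul, ZMod.natCast_zmod_val, mul_assoc,
    inv_mul_cancel₀ hx, mul_one]

theorem final_PT (I : ArithInput S p) (N : Type) [AddCommGroup N] [DistribMulAction GQ N]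
    (hN : IsCoef S p N) (y : ∀ q : ↥S, Hloc q.1 N 2) :
    (∀ f : N →+[GQ] Mu p,
      ∑ q : ↥S, I.t q.1 (Hsm.map (ResMod.map (ιv q.1) f) 2 (y q)) = 0) ↔
      ∃ x : Hsm (lvlS S) N 2, ∀ q : ↥S, locS S N q.1 2 x = y q := by
  have := I.coefMu.smooth
  have key := pt_exact (lvlS S) p (Mu p) I.cardMu (ι := ↥S) (A := AS S 2)
    (B := fun q => BQ q.1 2) (locN S 2) (fun q => I.t q.1)
    (final_AS_surj I) (fun q => final_BQ_surj I q.1 q.2)
    (fun U hU hUt hfin y => ⟨fun h => I.T4₁ U hU hUt hfin y h, fun ⟨x, hx⟩ => by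
      rw [← funext hx]
      exact I.T4₀ U hU hUt hfin x⟩)
    (fun U hU hUt hfin q => FinalPT_surj I U hU hUt q.1 q.2)
    N (good_iff.2 hN) y
  refine Iff.trans ⟨fun h f => ?_, fun h f => ?_⟩ key
  · exact h (mkHom f.1 f.2)
  · exact h ⟨(f : N →+ Mu p), isEquivariant_coe f⟩

end Fermat.Agent.S55.F2
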