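/-
S55 / FORMAL-F2, top node: THEOREM F2 of the blueprint.
-/
import Fermat.Agent.S55.F2.FinalRE
import Fermat.Agent.S55.F2.FinalLD
import Fermat.Agent.S55.F2.FinalPT
import Fermat.Agent.S55.F2.FinalC4

set_option autoImplicit false

namespace Fermat.Agent.S55.F2

variable {S : Finset Nat.Primes} {p : ℕ} [Fact p.Prime]

/-- THEOREM F2: the arithmetic input implies the formal contract. -/
theorem contract_of_arithInput (I : ArithInput S p) : Nonempty (Contract S p) :=
  ⟨{ t := I.t
     coefMu := I.coefMu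
     RE := fun N N'' _ _ _ _ hN hN'' φ hφ => final_RE I N N'' hN hN'' φ hφ
     LD₁ := fun N _ _ hN q hq x h => final_LD₁ I N hN q hq x h
     LD₂ := fun N _ _ hN q hq f h => final_LD₂ I N hN q hq f h
     PT₀ := fun N _ _ hN x f => (final_PT I N hN _).2 ⟨x, fun _ => rfl⟩ f
     PT₁ := fun N _ _ hN y h => (final_PT I N hN y).1 h
     C4 := fun N _ _ hN U hU => final_C4 I N hN U hU }⟩

end Fermat.Agent.S55.F2
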